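/-
S55 / BRG : localisation maps in the LDB language ("On"-style).

`r : Γ →* G` a continuous homomorphism, `lam : A →* B` an equivariant homomorphism.
A cochain `f` on `U ≤ G` is pulled back to the cochain `loc r lam f` on `U.comap r ≤ Γ`.
-/
import Fermat.Agent.S55.LDB.Cyc

set_option autoImplicit false
set_option linter.unusedSectionVars false

namespace Fermat.Agent.S55.BRG

open Fermat.Agent.S55.LDB

variable {G Γ : Type*} [Group G] [Group Γ] {𝒪 : OpenFam G} {𝒪' : OpenFam Γ}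
variable {A B : Type*} [CommGroup A] [CommGroup B] [MulDistribMulAction G A]
  [MulDistribMulAction Γ B]

/-- a "localisation map": continuous group homomorphism + equivariant map of modules. -/
structure LocMap (𝒪 : OpenFam G) (𝒪' : OpenFam Γ) (r : Γ →* G) (lam : A →* B) : Prop where
  cont : ∀ U : Subgroup G, 𝒪.isOpen U → 𝒪'.isOpen (U.comap r)
  equiv : ∀ (τ : Γ) (a : A), lam (r τ • a) = τ • lam a

/-- pull-back of a 1-cochain. -/
def loc₁ {X Y : Type*} (r : Γ →* G) (lam : X → Y) (β : G → X) : Γ → Y := fun τ => lam (β (r τ))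

/-- pull-back of a 2-cochain. -/
def loc {X Y : Type*} (r : Γ →* G) (lam : X → Y) (f : G × G → X) : Γ × Γ → Y :=
  fun x => lam (f (r x.1, r x.2))

variable {r : Γ →* G} {lam : A →* B} {U V : Subgroup G}

lemma loc_apply {X Y : Type*} (r : Γ →* G) (lam : X → Y) (f : G × G → X) (σ τ : Γ) :
    loc r lam f (σ, τ) = lam (f (r σ, r τ)) := rfl

lemma loc_one : loc r lam (1 : G × G → A) = 1 := by
  funext x
  exact map_one lam

lemma loc_mul (f f' : G × G → A) : loc r lam (f * f') = loc r lam f * loc r lam f' := by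
  funext x
  exact map_mul lam _ _

lemma loc_inv (f : G × G → A) : loc r lam f⁻¹ = (loc r lam f)⁻¹ := by
  funext x
  exact map_inv lam _

lemma loc_div (f f' : G × G → A) : loc r lam (f / f') = loc r lam f / loc r lam f' := by
  funext x
  exact map_div lam _ _

lemma loc_pow (f : G × G → A) (k : ℕ) : loc r lam (f ^ k) = loc r lam f ^ k := by
  funext x
  exact map_pow lam _ k

lemma loc_zpow (f : G × G → A) (k : ℤ) : loc r lam (f ^ k) = loc r lam f ^ k := by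
  funext x
  exact map_zpow lam _ k

lemma loc_cyc {n : ℕ} (χ : G → ZMod n) (b : A) :
    loc r lam (cyc χ b) = cyc (fun τ => χ (r τ)) (lam b) := by
  funext x
  exact map_pow lam _ _

lemma LocMap.loc_dOne (h : LocMap 𝒪 𝒪' r lam) (β : G → A) :
    loc r lam (dOne β) = dOne (loc₁ r lam β) := by
  funext x
  change lam (r x.1 • β (r x.2) / β (r x.1 * r x.2) * β (r x.1)) =
    x.1 • lam (β (r x.2)) / lam (β (r (x.1 * x.2))) * lam (β (r x.1))
  rw [map_mul, map_div, h.equiv, map_mul]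

lemma LocMap.fix (h : LocMap 𝒪 𝒪' r lam) {a : A} (ha : Fix U a) : Fix (U.comap r) (lam a) := by
  intro τ hτ
  rw [← h.equiv, ha (r τ) hτ]

lemma LocMap.sm₁ (h : LocMap 𝒪 𝒪' r lam) {X Y : Type*} (φ : X → Y) {β : G → X}
    (hβ : Sm₁ 𝒪 U β) : Sm₁ 𝒪' (U.comap r) (loc₁ r φ β) := by
  obtain ⟨N, hN, hNU, hβ⟩ := hβ
  refine ⟨N.comap r, h.cont N hN, Subgroup.comap_mono hNU, fun g hg s hs => ?_⟩
  change φ (β (r (g * s))) = φ (β (r g))
  rw [map_mul, hβ (r g) hg (r s) hs]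

lemma LocMap.sm₂ (h : LocMap 𝒪 𝒪' r lam) {X Y : Type*} (φ : X → Y) {f : G × G → X}
    (hf : Sm₂ 𝒪 U f) : Sm₂ 𝒪' (U.comap r) (loc r φ f) := by
  obtain ⟨N, hN, hNU, hf⟩ := hf
  refine ⟨N.comap r, h.cont N hN, Subgroup.comap_mono hNU, fun g hg g' hg' s hs t ht => ?_⟩
  change φ (f (r (g * s), r (g' * t))) = φ (f (r g, r g'))
  rw [map_mul, map_mul, hf (r g) hg (r g') hg' (r s) hs (r t) ht]

lemma LocMap.coc₂ (h : LocMap 𝒪 𝒪' r lam) {f : G × G → A} (hf : Coc₂ U f) :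
    Coc₂ (U.comap r) (loc r lam f) := by
  intro g hg g' hg' j hj
  change lam (f (r (g * g'), r j)) * lam (f (r g, r g')) =
    g • lam (f (r g', r j)) * lam (f (r g, r (g' * j)))
  rw [← h.equiv, ← map_mul, ← map_mul, map_mul r, map_mul r, hf (r g) hg (r g') hg' (r j) hj]

lemma LocMap.isZ2 (h : LocMap 𝒪 𝒪' r lam) {f : G × G → A} (hf : IsZ2 𝒪 U f) :
    IsZ2 𝒪' (U.comap r) (loc r lam f) :=
  ⟨h.sm₂ lam hf.sm, h.coc₂ hf.coc⟩

lemma LocMap.cob₂ (h : LocMap 𝒪 𝒪' r lam) {f : G × G → A} (hf : Cob₂ 𝒪 U f) :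
    Cob₂ 𝒪' (U.comap r) (loc r lam f) := by
  obtain ⟨β, hβ, hf⟩ := hf
  refine ⟨loc₁ r lam β, h.sm₁ lam hβ, fun g hg g' hg' => ?_⟩
  rw [← h.loc_dOne, loc_apply, loc_apply, hf (r g) hg (r g') hg']

lemma LocMap.eqv (h : LocMap 𝒪 𝒪' r lam) {f f' : G × G → A} (hf : Eqv 𝒪 U f f') :
    Eqv 𝒪' (U.comap r) (loc r lam f) (loc r lam f') := by
  have h1 := h.cob₂ hf
  rw [loc_div] at h1
  exact h1

lemma LocMap.homOn (r : Γ →* G) {n : ℕ} {χ : G → ZMod n} (hχ : HomOn U χ) :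
    HomOn (U.comap r) (fun τ => χ (r τ)) := by
  intro g hg g' hg'
  change χ (r (g * g')) = χ (r g) + χ (r g')
  rw [map_mul, hχ (r g) hg (r g') hg']

lemma LocMap.isChar (h : LocMap 𝒪 𝒪' r lam) {n : ℕ} {χ : G → ZMod n} (hχ : IsChar 𝒪 U χ) :
    IsChar 𝒪' (U.comap r) (fun τ => χ (r τ)) := by
  exact ⟨LocMap.homOn r hχ.hom, h.sm₁ id hχ.sm⟩

/-- a global norm is a local norm, when the character stays surjective. -/
lemma LocMap.kerOn_comap (r : Γ →* G) {n : ℕ} {χ : G → ZMod n} (hχ : HomOn U χ) :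
    kerOn (U.comap r) (fun τ => χ (r τ)) (LocMap.homOn r hχ) = (kerOn U χ hχ).comap r := by
  ext τ
  exact Iff.rfl

end Fermat.Agent.S55.BRG
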