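/-
S55 / BRG : the abstract Albert-Brauer-Hasse-Noether theorem for `p`-torsion classes
(LDB language).  Input: the Hasse norm theorem for cyclic layers of degree `p` (over the fields
containing `μ_p`, i.e. for the open subgroups of `Z`).
-/
import Fermat.Agent.S55.BRG.Loc
import Fermat.Agent.S55.LDB.CycClass
import Fermat.Agent.S55.LDB.GroupTh

set_option autoImplicit false
set_option linter.unusedSectionVars false

namespace Fermat.Agent.S55.BRG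

open Fermat.Agent.S55.LDB

variable {G : Type*} [Group G] {𝒪 : OpenFam G} {A : Type*} [CommGroup A] [MulDistribMulAction G A]
variable {ι : Type*} {Γ : ι → Type*} [∀ i, Group (Γ i)] (𝒪' : ∀ i, OpenFam (Γ i))
  {B : ι → Type*} [∀ i, CommGroup (B i)] [∀ i, MulDistribMulAction (Γ i) (B i)]
  (r : ∀ i, Γ i →* G) (lam : ∀ i, A →* B i)

/-- `f` (a cochain on `U`) is locally trivial at all places. -/
def LocTriv (U : Subgroup G) (f : G × G → A) : Prop :=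
  ∀ i, Cob₂ (𝒪' i) (U.comap (r i)) (loc (r i) (lam i) f)

/-- `b` is a local norm at all places for the character `ψ` of `U`. -/
def LocNorm {n : ℕ} (U : Subgroup G) (ψ : G → ZMod n) (b : A) : Prop :=
  ∀ i, (∀ τ ∈ U.comap (r i), ψ (r i τ) = 0) ∨
    IsNm (U.comap (r i)) (fun τ => ψ (r i τ)) (lam i b)

/-- the Hasse norm theorem for cyclic layers of degree `p` above the open subgroups of `Z`. -/
def HNT (p : ℕ) (𝒪 : OpenFam G) (Z : Subgroup G) : Prop :=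
  ∀ U : Subgroup G, 𝒪.isOpen U → U ≤ Z → ∀ ψ : G → ZMod p, IsChar 𝒪 U ψ → (∃ σ ∈ U, ψ σ = 1) →
    ∀ b : A, Fix U b → LocNorm r lam U ψ b → IsNm U ψ b

variable {𝒪' r lam}

lemma LocTriv.mono (hloc : ∀ i, LocMap 𝒪 (𝒪' i) (r i) (lam i)) {U V : Subgroup G}
    {f : G × G → A} (h : LocTriv 𝒪' r lam U f) (hV : 𝒪.isOpen V) (hVU : V ≤ U) :
    LocTriv 𝒪' r lam V f :=
  fun i => (h i).mono ((hloc i).cont V hV) (Subgroup.comap_mono hVU)

variable {p : ℕ} [Fact p.Prime]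

/-- the hypotheses on the global and the local formations. -/
structure AbhnData (p : ℕ) (𝒪 : OpenFam G) (𝒪' : ∀ i, OpenFam (Γ i)) (r : ∀ i, Γ i →* G)
    (lam : ∀ i, A →* B i) (Z : Subgroup G) : Prop where
  smooth : SmoothMod 𝒪 A
  h90 : ∀ U, 𝒪.isOpen U → H90 𝒪 A U
  smooth' : ∀ i, SmoothMod (𝒪' i) (B i)
  h90' : ∀ i, ∀ U, (𝒪' i).isOpen U → H90 (𝒪' i) (B i) U
  locMap : ∀ i, LocMap 𝒪 (𝒪' i) (r i) (lam i)
  normal : Z.Normal
  isOpen : 𝒪.isOpen Z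
  coprime : Nat.Coprime Z.index p
  hnt : HNT r lam p 𝒪 Z

theorem abhn_step {Z : Subgroup G} (D : AbhnData p 𝒪 𝒪' r lam Z) {U V : Subgroup G}
    (hV : 𝒪.isOpen V) (hVU : NormalIn V U) (hidx : V.relIndex U = p) (hUZ : U ≤ Z)
    {f : G × G → A} (hf : IsZ2 𝒪 U f) (hfV : Cob₂ 𝒪 V f) (hl : LocTriv 𝒪' r lam U f) :
    Cob₂ 𝒪 U f := by
  obtain ⟨ψ, hψ, hσ, hker⟩ := exists_char_of_relIndex_prime p hV hVU hidx
  have h90V : H90 𝒪 A (kerOn U ψ hψ.hom) := D.h90 _ (by rw [hker]; exact hV)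
  obtain ⟨b, hb, hfb⟩ := exists_eqv_cyc D.smooth hψ hσ h90V hf (by rw [hker]; exact hfV)
  have hU : 𝒪.isOpen U := 𝒪.mono hV hVU.1
  have hnorm : LocNorm r lam U ψ b := fun i => by
    by_cases h0 : ∀ τ ∈ U.comap (r i), ψ (r i τ) = 0
    · exact Or.inl h0
    · right
      push Not at h0
      obtain ⟨τ, hτ, hne⟩ := h0
      have hχi : IsChar (𝒪' i) (U.comap (r i)) (fun τ => ψ (r i τ)) := (D.locMap i).isChar hψ
      have hσi := exists_eq_one_of_ne_zero p hχi.hom hτ hne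
      have hc : Cob₂ (𝒪' i) (U.comap (r i)) (cyc (fun τ => ψ (r i τ)) (lam i b)) := by
        have e := (D.locMap i).eqv hfb
        rw [loc_cyc] at e
        exact e.cob_iff.1 (hl i)
      exact (cob_cyc_iff (D.smooth' i) hχi hσi (D.h90' i _ (isOpen_kerOn hχi))
        ((D.locMap i).fix hb)).1 hc
  have hN := D.hnt U hU hUZ ψ hψ hσ b hb hnorm
  exact hfb.cob_iff.2 ((cob_cyc_iff D.smooth hψ hσ h90V hb).2 hN)

theorem abhn_pgroup {Z : Subgroup G} (D : AbhnData p 𝒪 𝒪' r lam Z) {f : G × G → A} (m : ℕ) :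
    ∀ {U V : Subgroup G}, 𝒪.isOpen V → NormalIn V U → V.relIndex U = p ^ m → U ≤ Z →
      IsZ2 𝒪 U f → Cob₂ 𝒪 V f → LocTriv 𝒪' r lam U f → Cob₂ 𝒪 U f := by
  induction m with
  | zero =>
    intro U V hV hVU hidx _ _ hfV _
    rw [pow_zero, Subgroup.relIndex_eq_one] at hidx
    exact hfV.mono (𝒪.mono hV hVU.1) hidx
  | succ m ih =>
    intro U V hV hVU hidx hUZ hf hfV hl
    obtain ⟨V', hVV', hV'U, h1, h2⟩ := exists_central_step p hVU hidx
    have hV' : 𝒪.isOpen V' := 𝒪.mono hV hVV'.1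
    have h3 : Cob₂ 𝒪 V' f :=
      abhn_step D hV hVV' h1 (hV'U.1.trans hUZ) (hf.mono hV' hV'U.1) hfV
        (hl.mono D.locMap hV' hV'U.1)
    exact ih hV' hV'U h2 hUZ hf h3 hl

/-- **(ABHN)**, abstract form. -/
theorem abhn {Z : Subgroup G} (D : AbhnData p 𝒪 𝒪' r lam Z) {U : Subgroup G} {f : G × G → A}
    (hf : IsZ2 𝒪 U f) (hfp : Cob₂ 𝒪 U (f ^ p)) (hl : LocTriv 𝒪' r lam U f) : Cob₂ 𝒪 U f := by
  have hU : 𝒪.isOpen U := hf.sm.isOpen
  have hU' : 𝒪.isOpen (U ⊓ Z) := 𝒪.inf hU D.isOpen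
  have hZn := D.normal
  -- reduction to `U ⊓ Z`
  have hcop : Nat.Coprime ((U ⊓ Z).relIndex U) p := by
    rw [Subgroup.inf_relIndex_left]
    exact Nat.Coprime.coprime_dvd_left (Subgroup.relIndex_dvd_index_of_normal Z U) D.coprime
  refine cob_of_coprime_index D.smooth inf_le_left hcop hf ?_ hfp
  have hf' : IsZ2 𝒪 (U ⊓ Z) f := hf.mono hU' inf_le_left
  obtain ⟨N, hNn, hN, hNU, hfN⟩ := hf'.exists_split
  have hNU' : NormalIn N (U ⊓ Z) := ⟨hNU, fun g _ v hv => hNn.conj_mem v hv g⟩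
  have hfin : N.relIndex (U ⊓ Z) ≠ 0 := by
    have := 𝒪.finiteIndex hN
    have : N.IsFiniteRelIndex (U ⊓ Z) := Subgroup.isFiniteRelIndex_of_finiteIndex
    exact Subgroup.relIndex_ne_zero
  obtain ⟨P, hNP, hPU, ⟨m, hm⟩, hcop'⟩ := exists_sylow_between p hNU' hfin
  have hP : 𝒪.isOpen P := 𝒪.mono hN hNP
  have hNP' : NormalIn N P := ⟨hNP, fun g _ v hv => hNn.conj_mem v hv g⟩
  have hfP : Cob₂ 𝒪 P f :=
    abhn_pgroup D m hN hNP' hm (hPU.trans inf_le_right) (hf'.mono hP hPU) hfN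
      (hl.mono D.locMap hP (hPU.trans inf_le_left))
  exact cob_of_coprime_index D.smooth hPU hcop' hf' hfP (hfp.mono hU' inf_le_left)

end Fermat.Agent.S55.BRG
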