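/-
S55 / BRG : conjugation acts trivially on smooth classes (LDB language).
-/
import Fermat.Agent.S55.BRG.Loc

set_option autoImplicit false
set_option linter.unusedSectionVars false

namespace Fermat.Agent.S55.BRG

open Fermat.Agent.S55.LDB

variable {G : Type*} [Group G] {𝒪 : OpenFam G} {A : Type*} [CommGroup A] [MulDistribMulAction G A]

/-- the conjugate cochain `(γ^* f)(g,h) = γ⁻¹ • f (γ g γ⁻¹, γ h γ⁻¹)`. -/
def conj (γ : G) (f : G × G → A) : G × G → A :=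
  fun x => γ⁻¹ • f (γ * x.1 * γ⁻¹, γ * x.2 * γ⁻¹)

lemma conj_apply (γ : G) (f : G × G → A) (g h : G) :
    conj γ f (g, h) = γ⁻¹ • f (γ * g * γ⁻¹, γ * h * γ⁻¹) := rfl

/-- open subgroups are stable under conjugation. -/
lemma isOpen_comap_conj {U : Subgroup G} (hU : 𝒪.isOpen U) (γ : G) :
    𝒪.isOpen (U.comap (MulAut.conj γ).toMonoidHom) := by
  obtain ⟨N, hn, hN, hNU⟩ := 𝒪.exists_normal hU
  refine 𝒪.mono hN fun s hs => ?_
  rw [Subgroup.mem_comap]
  exact hNU (hn.conj_mem s hs γ)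

/-- **(G8)** for `γ ∈ U`, `γ^* f ~ f` on `U`.  [Classical: the coboundary of
`g ↦ γ⁻¹ • (f (γ g γ⁻¹, γ) / f (γ, g))` or its inverse; use the cocycle identity for the triples
`(γ, g, h)`, `(γ g γ⁻¹, γ, h)`, `(γ g γ⁻¹, γ h γ⁻¹, γ)`.  Smoothness: `SmoothMod` + `Sm₂`.] -/
theorem eqv_conj (hA : SmoothMod 𝒪 A) {U : Subgroup G} {f : G × G → A} (hf : IsZ2 𝒪 U f) {γ : G}
    (hγ : γ ∈ U) : Eqv 𝒪 U (conj γ f) f := by
  obtain ⟨N, hn, hN, hNU, hsm⟩ := hf.sm.exists_normal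
  have hconjU : ∀ g ∈ U, γ * g * γ⁻¹ ∈ U := fun g hg => U.mul_mem (U.mul_mem hγ hg) (U.inv_mem hγ)
  refine ⟨fun g => γ⁻¹ • (f (γ * g * γ⁻¹, γ) / f (γ, g)), ⟨N, hN, hNU, fun g hg s hs => ?_⟩, ?_⟩
  · have e1 : γ * (g * s) * γ⁻¹ = γ * g * γ⁻¹ * (γ * s * γ⁻¹) := by group
    have h1 := hsm (γ * g * γ⁻¹) (hconjU g hg) γ hγ (γ * s * γ⁻¹) (hn.conj_mem s hs γ) 1 N.one_mem
    have h2 := hsm γ hγ g hg 1 N.one_mem s hs
    rw [mul_one] at h1 h2
    simp only [e1, h1, h2]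
  · intro g hg h hh
    have a1 := hf.coc γ hγ g hg h hh
    have a2 := hf.coc (γ * g * γ⁻¹) (hconjU g hg) γ hγ h hh
    have a3 := hf.coc (γ * g * γ⁻¹) (hconjU g hg) (γ * h * γ⁻¹) (hconjU h hh) γ hγ
    have e2 : γ * g * γ⁻¹ * γ = γ * g := by group
    have e3 : γ * h * γ⁻¹ * γ = γ * h := by group
    have e4 : γ * g * γ⁻¹ * (γ * h * γ⁻¹) = γ * (g * h) * γ⁻¹ := by group
    rw [e2] at a2
    rw [e3, e4] at a3
    have e5 : ∀ x : A, g • γ⁻¹ • x = γ⁻¹ • (γ * g * γ⁻¹) • x := by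
      intro x
      rw [← mul_smul, ← mul_smul]
      congr 1
      group
    have e6 : f (g, h) = γ⁻¹ • γ • f (g, h) := by rw [inv_smul_smul]
    simp only [dOne_apply, Pi.div_apply, conj_apply]
    rw [e5, e6, ← smul_div', ← smul_mul', ← smul_div', smul_div']
    congr 1
    generalize (γ * g * γ⁻¹) • f (γ * h * γ⁻¹, γ) = P at *
    generalize (γ * g * γ⁻¹) • f (γ, h) = Q at *
    generalize f (γ * (g * h) * γ⁻¹, γ) = R at *
    generalize f (γ, g * h) = S at *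
    generalize f (γ * g * γ⁻¹, γ) = T at *
    generalize f (γ, g) = W at *
    generalize f (γ * g * γ⁻¹, γ * h * γ⁻¹) = X at *
    generalize γ • f (g, h) = Y at *
    generalize f (γ * g, h) = Z₁ at *
    generalize f (γ * g * γ⁻¹, γ * h) = Z₂ at *
    rw [div_div_div_eq, div_mul_div_comm, div_eq_div_iff_mul_eq_mul]
    calc P * S * T * Y = P * T * (Y * S) := by simp only [mul_comm, mul_left_comm, mul_assoc]
      _ = P * T * (Z₁ * W) := by rw [← a1]
      _ = P * W * (Z₁ * T) := by simp only [mul_comm, mul_left_comm, mul_assoc]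
      _ = P * W * (Q * Z₂) := by rw [a2]
      _ = Q * W * (P * Z₂) := by simp only [mul_comm, mul_left_comm, mul_assoc]
      _ = Q * W * (R * X) := by rw [← a3]
      _ = X * (Q * R * W) := by simp only [mul_comm, mul_left_comm, mul_assoc]

/-- the conjugate localisation map: `τ ↦ γ r(τ) γ⁻¹`, `a ↦ lam (γ⁻¹ • a)`. -/
def conjHom {Γ : Type*} [Group Γ] (r : Γ →* G) (γ : G) : Γ →* G :=
  (MulAut.conj γ).toMonoidHom.comp r

def conjLam {B : Type*} [CommGroup B] (lam : A →* B) (γ : G) : A →* B :=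
  lam.comp (MulDistribMulAction.toMonoidHom A γ⁻¹)

variable {Γ : Type*} [Group Γ] {𝒪' : OpenFam Γ} {B : Type*} [CommGroup B] [MulDistribMulAction Γ B]
  {r : Γ →* G} {lam : A →* B}

lemma conjHom_apply (r : Γ →* G) (γ : G) (τ : Γ) : conjHom r γ τ = γ * r τ * γ⁻¹ := rfl

lemma conjLam_apply (lam : A →* B) (γ : G) (a : A) : conjLam lam γ a = lam (γ⁻¹ • a) := rfl

theorem LocMap.conj (h : LocMap 𝒪 𝒪' r lam) (γ : G) :
    LocMap 𝒪 𝒪' (conjHom r γ) (conjLam lam γ) := by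
  refine ⟨fun U hU => h.cont _ (isOpen_comap_conj hU γ), fun τ a => ?_⟩
  rw [conjLam_apply, conjLam_apply, conjHom_apply, ← h.equiv, ← mul_smul, ← mul_smul]
  congr 2
  group

lemma loc_conj (r : Γ →* G) (lam : A →* B) (γ : G) (f : G × G → A) :
    loc (conjHom r γ) (conjLam lam γ) f = loc r lam (conj γ f) := rfl

lemma comap_conjHom_of_normal (r : Γ →* G) (γ : G) (V : Subgroup G) [V.Normal] :
    V.comap (conjHom r γ) = V.comap r := by
  ext τ
  rw [Subgroup.mem_comap, Subgroup.mem_comap, conjHom_apply]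
  constructor
  · intro h
    have := (inferInstance : V.Normal).conj_mem _ h γ⁻¹
    have e : γ⁻¹ * (γ * r τ * γ⁻¹) * γ⁻¹⁻¹ = r τ := by group
    rwa [e] at this
  · intro h
    exact (inferInstance : V.Normal).conj_mem _ h γ

end Fermat.Agent.S55.BRG
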