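/-
S55 / BRG : complements on cyclic cocycles (LDB language): arbitrary divisibility of moduli,
`p`-power towers, integer exponents, norms under localisation.
-/
import Fermat.Agent.S55.BRG.Loc
import Fermat.Agent.S55.LDB.BrauerA

set_option autoImplicit false
set_option linter.unusedSectionVars false

namespace Fermat.Agent.S55.BRG

open Fermat.Agent.S55.LDB

variable {G : Type*} [Group G] {𝒪 : OpenFam G} {A : Type*} [CommGroup A] [MulDistribMulAction G A]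
  {U : Subgroup G}

/-- `c(χ, b^n) ~ 1` for `χ : U → ZMod n`.  [`cyc_nsmul_eqv` with `t = n`, or the cochain
`g ↦ b ^ (χ g).val`.] -/
theorem cob_cyc_pow_self {n : ℕ} [NeZero n] {χ : G → ZMod n} {b : A} (hχ : IsChar 𝒪 U χ)
    (hb : Fix U b) : Cob₂ 𝒪 U (cyc χ (b ^ n)) := by
  have hU : 𝒪.isOpen U := hχ.sm.isOpen
  rw [cyc_pow]
  refine (cyc_nsmul_eqv hχ hb n).cob_iff.mp ?_
  refine (Cob₂.one hU).congr fun g _ h _ => ?_
  rw [cyc_apply, ZMod.natCast_self, zero_mul, carry_zero_left, pow_zero]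
  rfl

/-- `c(χ, b)^n ~ 1`. -/
theorem cob_cyc_pow {n : ℕ} [NeZero n] {χ : G → ZMod n} {b : A} (hχ : IsChar 𝒪 U χ)
    (hb : Fix U b) : Cob₂ 𝒪 U (cyc χ b ^ n) := by
  rw [← cyc_pow]; exact cob_cyc_pow_self hχ hb

/-- change of modulus for an arbitrary divisibility `N = n * m` (`subst` + `cyc_cast_eqv`). -/
theorem cyc_cast_eqv' {n m N : ℕ} [NeZero n] [NeZero m] (hN : N = n * m) {χ : G → ZMod N} {b : A}
    (hχ : IsChar 𝒪 U χ) (hb : Fix U b) :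
    Eqv 𝒪 U (cyc (fun g => ZMod.castHom (Dvd.intro m hN.symm : n ∣ N) (ZMod n) (χ g)) b)
      (cyc χ b ^ m) := by
  subst hN
  exact cyc_cast_eqv hχ hb

/-- `p`-power tower. -/
theorem cyc_castPow_eqv (p : ℕ) [Fact p.Prime] {a n : ℕ} (h : a ≤ n) {χ : G → ZMod (p ^ n)} {b : A}
    (hχ : IsChar 𝒪 U χ) (hb : Fix U b) :
    Eqv 𝒪 U (cyc (fun g => ZMod.castHom (pow_dvd_pow p h) (ZMod (p ^ a)) (χ g)) b)
      (cyc χ b ^ (p ^ (n - a))) := by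
  have hp : p.Prime := Fact.out
  have h1 : NeZero (p ^ a) := ⟨pow_ne_zero _ hp.ne_zero⟩
  have h2 : NeZero (p ^ (n - a)) := ⟨pow_ne_zero _ hp.ne_zero⟩
  have hN : p ^ n = p ^ a * p ^ (n - a) := by rw [← pow_add, Nat.add_sub_cancel' h]
  exact cyc_cast_eqv' hN hχ hb

/-- if `f^n ~ 1` then the class of `f^k` only depends on `k` modulo `n`. -/
theorem eqv_zpow_of_modEq {f : G × G → A} {n : ℕ} (hf : Cob₂ 𝒪 U (f ^ n)) {k k' : ℤ}
    (h : k ≡ k' [ZMOD n]) : Eqv 𝒪 U (f ^ k) (f ^ k') := by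
  obtain ⟨c, hc⟩ := (Int.modEq_iff_dvd.mp h)
  have h1 : f ^ k / f ^ k' = (f ^ n) ^ (-c) := by
    rw [div_eq_mul_inv, ← zpow_sub, ← zpow_natCast f n, ← zpow_mul]
    congr 1
    linarith
  unfold Eqv
  rw [h1]
  exact hf.zpow _

/-- `IsNm` is independent of the choice of `σ`. -/
theorem isNm_iff {n : ℕ} [NeZero n] {χ : G → ZMod n} (hχ : HomOn U χ) {σ : G} (hσU : σ ∈ U)
    (hσ : χ σ = 1) (b : A) :
    IsNm U χ b ↔ ∃ x : A, (∀ g ∈ U, χ g = 0 → g • x = x) ∧ nrm σ n x = b := by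
  constructor
  · rintro ⟨σ', hσ'U, hσ', x, hx, rfl⟩
    refine ⟨x, hx, ?_⟩
    unfold nrm
    refine Finset.prod_congr rfl fun i _ => ?_
    have h1 : ((σ' ^ i)⁻¹ * σ ^ i) • x = x := by
      refine hx _ (U.mul_mem (U.inv_mem (U.pow_mem hσ'U i)) (U.pow_mem hσU i)) ?_
      rw [hχ _ (U.inv_mem (U.pow_mem hσ'U i)) _ (U.pow_mem hσU i),
        hχ.map_inv (U.pow_mem hσ'U i), hχ.map_pow hσ'U, hχ.map_pow hσU, hσ, hσ']
      ring
    rw [mul_smul, inv_smul_eq_iff] at h1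
    exact h1
  · rintro ⟨x, hx, h⟩
    exact ⟨σ, hσU, hσ, x, hx, h⟩

theorem IsNm.mul {n : ℕ} [NeZero n] {χ : G → ZMod n} (hχ : HomOn U χ) {b b' : A}
    (h : IsNm U χ b) (h' : IsNm U χ b') : IsNm U χ (b * b') := by
  obtain ⟨σ, hσU, hσ, x, hx, rfl⟩ := h
  obtain ⟨x', hx', rfl⟩ := (isNm_iff hχ hσU hσ b').mp h'
  refine ⟨σ, hσU, hσ, x * x', fun g hg h0 => ?_, ?_⟩
  · rw [smul_mul', hx g hg h0, hx' g hg h0]
  · unfold nrm
    simp only [smul_mul']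
    exact Finset.prod_mul_distrib

theorem IsNm.inv {n : ℕ} {χ : G → ZMod n} {b : A} (h : IsNm U χ b) : IsNm U χ b⁻¹ := by
  obtain ⟨σ, hσU, hσ, x, hx, rfl⟩ := h
  refine ⟨σ, hσU, hσ, x⁻¹, fun g hg h0 => ?_, ?_⟩
  · rw [smul_inv', hx g hg h0]
  · unfold nrm
    simp only [smul_inv']
    exact Finset.prod_inv_distrib _

theorem IsNm.one {n : ℕ} {χ : G → ZMod n} (hσ : ∃ σ ∈ U, χ σ = 1) : IsNm U χ (1 : A) := by
  obtain ⟨σ, hσU, hσ⟩ := hσ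
  refine ⟨σ, hσU, hσ, 1, fun g _ _ => smul_one g, ?_⟩
  unfold nrm
  simp

/-- `b^n` is the norm of `b ∈ A^U`. -/
theorem isNm_pow {n : ℕ} {χ : G → ZMod n} (hσ : ∃ σ ∈ U, χ σ = 1) {b : A} (hb : Fix U b) :
    IsNm U χ (b ^ n) := by
  obtain ⟨σ, hσU, hσ⟩ := hσ
  refine ⟨σ, hσU, hσ, b, fun g hg _ => hb g hg, ?_⟩
  unfold nrm
  rw [Finset.prod_congr rfl (fun i _ => hb (σ ^ i) (U.pow_mem hσU i)), Finset.prod_const,
    Finset.card_range]

section loc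

variable {Γ : Type*} [Group Γ] {𝒪' : OpenFam Γ} {B : Type*} [CommGroup B] [MulDistribMulAction Γ B]
  {r : Γ →* G} {lam : A →* B}

/-- a global norm is a local norm if the local character is still surjective. -/
theorem IsNm.loc (h : LocMap 𝒪 𝒪' r lam) {n : ℕ} [NeZero n] {χ : G → ZMod n} (hχ : HomOn U χ)
    {b : A} (hb : IsNm U χ b) (hτ : ∃ τ ∈ U.comap r, χ (r τ) = 1) :
    IsNm (U.comap r) (fun τ => χ (r τ)) (lam b) := by
  obtain ⟨τ, hτU, hτ⟩ := hτ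
  obtain ⟨x, hx, rfl⟩ := (isNm_iff hχ (Subgroup.mem_comap.mp hτU) hτ b).mp hb
  refine ⟨τ, hτU, hτ, lam x, fun g hg h0 => ?_, ?_⟩
  · rw [← h.equiv, hx (r g) (Subgroup.mem_comap.mp hg) h0]
  · unfold nrm
    rw [map_prod]
    refine Finset.prod_congr rfl fun i _ => ?_
    rw [← h.equiv, map_pow]

end loc

section nr

variable {p : ℕ} [Fact p.Prime] (L : LocalFormation p 𝒪 A)

/-- `nr` is compatible with every divisibility. -/
theorem nr_cast' (hU : 𝒪.isOpen U) {n N : ℕ} (hN : N ≠ 0) (h : n ∣ N) {g : G} (hg : g ∈ U) :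
    ZMod.castHom h (ZMod n) (L.nr U N g) = L.nr U n g := by
  obtain ⟨m, rfl⟩ := h
  have hn : n ≠ 0 := fun h0 => hN (by rw [h0, zero_mul])
  have hm : m ≠ 0 := fun h0 => hN (by rw [h0, mul_zero])
  exact L.nr_cast U hU n m hn hm g hg

/-- `u(U,p^a)`-tower: `c(nr_{p^a}, b) ~ c(nr_{p^n}, b)^(p^(n-a))`. -/
theorem u_tower (hU : 𝒪.isOpen U) {a n : ℕ} (h : a ≤ n) {b : A} (hb : Fix U b) :
    Eqv 𝒪 U (cyc (L.nr U (p ^ a)) b) (cyc (L.nr U (p ^ n)) b ^ (p ^ (n - a))) := by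
  have hp : p.Prime := Fact.out
  have h1 := u_mod L hU (n := p ^ a) (m := p ^ (n - a)) (pow_ne_zero _ hp.ne_zero)
    (pow_ne_zero _ hp.ne_zero) hb
  rwa [← pow_add, Nat.add_sub_cancel' h] at h1

/-- order of `u(U,p^k)`, integer exponents. -/
theorem u_zpow_cob_iff (hU : 𝒪.isOpen U) (k : ℕ) {π : A} (hπ : Fix U π) (hπ1 : L.ord U π = 1)
    (j : ℤ) : Cob₂ 𝒪 U (cyc (L.nr U (p ^ k)) π ^ j) ↔ ((p ^ k : ℕ) : ℤ) ∣ j := by
  obtain ⟨m, rfl | rfl⟩ := j.eq_nat_or_neg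
  · rw [zpow_natCast, u_pow_cob_iff L hU k hπ hπ1, Int.natCast_dvd_natCast]
  · rw [zpow_neg, zpow_natCast, dvd_neg, Int.natCast_dvd_natCast, ← u_pow_cob_iff L hU k hπ hπ1]
    exact ⟨fun h => by simpa using h.inv, fun h => h.inv⟩

/-- elements of finite order have `ord = 0`. -/
theorem ord_eq_zero_of_pow_eq_one (hU : 𝒪.isOpen U) {a : A} (ha : Fix U a) {n : ℕ} (hn : n ≠ 0)
    (h : a ^ n = 1) : L.ord U a = 0 := by
  have h1 := L.ord_pow hU ha n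
  rw [h, L.ord_one hU] at h1
  rcases mul_eq_zero.mp h1.symm with h2 | h2
  · exact absurd (by exact_mod_cast h2) hn
  · exact h2

end nr

end Fermat.Agent.S55.BRG
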