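/-
S55 / BRG : the two local computations of the reciprocity law (abstract: in a `LocalFormation`).
-/
import Fermat.Agent.S55.BRG.Tower
import Fermat.Agent.S55.LDB.BrauerC

set_option autoImplicit false
set_option linter.unusedSectionVars false

namespace Fermat.Agent.S55.BRG

open Fermat.Agent.S55.LDB

variable {G : Type*} [Group G] {𝒪 : OpenFam G} {A : Type*} [CommGroup A] [MulDistribMulAction G A]
  {U : Subgroup G} {p : ℕ} [Fact p.Prime] (L : LocalFormation p 𝒪 A)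

/-- **(R1)** place `q ≠ p`: `χ = t · nr_{p^n}` unramified.  If `c(χ,b)` is `p`-torsion then
`t~ · ord b = p^(n-1) k` and `c(χ,b) ~ u(U,p)^k`.
PROOF. `c(χ,b) = c(t nr, b) ~ c(nr,b)^t~ ~ u_n^(t~ ord b)` (`cyc_congr`, `cyc_nsmul_eqv`,
`cyc_nr_eqv_unif`); `p`-torsion + `u_zpow_cob_iff`: `p^n ∣ p t~ ord b`; `u_n^(p^(n-1)) ~ u_1`
(`u_tower`). -/
theorem cyc_unram_eqv (hU : 𝒪.isOpen U) {n : ℕ} (hn : 1 ≤ n) {χ : G → ZMod (p ^ n)}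
    (t : ZMod (p ^ n)) (hχ : ∀ g ∈ U, χ g = t * L.nr U (p ^ n) g) {π : A} (hπ : Fix U π)
    (hπ1 : L.ord U π = 1) {b : A} (hb : Fix U b) (htor : Cob₂ 𝒪 U (cyc χ b ^ p)) :
    ∃ k : ℤ, (t.val : ℤ) * L.ord U b = (p : ℤ) ^ (n - 1) * k ∧
      Eqv 𝒪 U (cyc χ b) (cyc (L.nr U (p ^ 1)) π ^ k) := by
  have hp0 : p ≠ 0 := (Fact.out : p.Prime).ne_zero
  have hN0 : p ^ n ≠ 0 := pow_ne_zero _ hp0
  have : NeZero (p ^ n) := ⟨hN0⟩
  have hnr : IsChar 𝒪 U (L.nr U (p ^ n)) := L.nr_char U hU (p ^ n) hN0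
  -- `c(χ,b) ~ u_n ^ (t~ ord b)`
  have e1 : Eqv 𝒪 U (cyc χ b) (cyc (fun g => ((t.val : ℕ) : ZMod (p ^ n)) * L.nr U (p ^ n) g) b) := by
    refine Eqv.of_eq hU (cyc_congr (fun g hg => ?_) b)
    rw [hχ g hg, ZMod.natCast_zmod_val]
  have e2 := cyc_nsmul_eqv hnr hb t.val
  have e3 := (cyc_nr_eqv_unif L hU n hπ hπ1 hb).pow t.val
  have e4 : Eqv 𝒪 U (cyc χ b) (cyc (L.nr U (p ^ n)) π ^ ((t.val : ℤ) * L.ord U b)) := by
    have := (e1.trans e2).trans e3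
    rwa [← zpow_natCast, ← zpow_mul, mul_comm] at this
  -- `p`-torsion
  have e5 : Cob₂ 𝒪 U (cyc (L.nr U (p ^ n)) π ^ ((t.val : ℤ) * L.ord U b * p)) := by
    have := ((e4.pow p).cob_iff).1 htor
    rwa [← zpow_natCast, ← zpow_mul] at this
  have e6 := (u_zpow_cob_iff L hU n hπ hπ1 _).1 e5
  have hpn : ((p ^ n : ℕ) : ℤ) = (p : ℤ) ^ (n - 1) * p := by
    rw [← pow_succ, Nat.sub_add_cancel hn]
    push_cast
    rfl
  rw [hpn] at e6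
  have hpz : (p : ℤ) ≠ 0 := by exact_mod_cast hp0
  obtain ⟨k, hk⟩ := (mul_dvd_mul_iff_right hpz).1 e6
  refine ⟨k, hk, ?_⟩
  rw [hk] at e4
  refine e4.trans ?_
  have e7 := ((u_tower L hU hn hπ).symm).zpow k
  rwa [← zpow_natCast, ← zpow_mul, Nat.cast_pow] at e7

/-- `t ≠ 0`, `t y = 0` in `ZMod (p^n)` ⟹ `y ≡ 0 mod p`. -/
theorem RecipLoc_castHom_eq_zero {p : ℕ} [Fact p.Prime] {n : ℕ} (hn : 1 ≤ n) {t y : ZMod (p ^ n)}
    (ht : t ≠ 0) (h : t * y = 0) :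
    ZMod.castHom (pow_dvd_pow p hn : p ^ 1 ∣ p ^ n) (ZMod (p ^ 1)) y = 0 := by
  have hp : p.Prime := Fact.out
  have : NeZero (p ^ n) := ⟨pow_ne_zero _ hp.ne_zero⟩
  have hy : y = ((y.val : ℕ) : ZMod (p ^ n)) := (ZMod.natCast_zmod_val y).symm
  have hdvd : p ∣ y.val := by
    by_contra hnd
    have hcop : Nat.Coprime y.val (p ^ n) :=
      Nat.Coprime.pow_right n ((Nat.Prime.coprime_iff_not_dvd hp).2 hnd).symm
    have hu : IsUnit y := by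
      rw [hy]
      exact (ZMod.isUnit_iff_coprime _ _).2 hcop
    exact ht (hu.mul_left_eq_zero.1 h)
  rw [hy, map_natCast, ZMod.natCast_eq_zero_iff, pow_one]
  exact hdvd

/-- if `t ≠ 0` then `nr_p` vanishes on the kernel of `t · nr_{p^n}`, so `u(U,p)` is identically `1`
there. -/
theorem u_eq_one_on_ker (hU : 𝒪.isOpen U) {n : ℕ} (hn : 1 ≤ n) {t : ZMod (p ^ n)} (ht : t ≠ 0)
    (π : A) {g h : G} (hg : g ∈ U) (hh : h ∈ U) (hg0 : t * L.nr U (p ^ n) g = 0)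
    (hh0 : t * L.nr U (p ^ n) h = 0) : cyc (L.nr U (p ^ 1)) π (g, h) = 1 := by
  have hp0 : p ≠ 0 := (Fact.out : p.Prime).ne_zero
  have hN0 : p ^ n ≠ 0 := pow_ne_zero _ hp0
  have : NeZero (p ^ 1) := ⟨pow_ne_zero _ hp0⟩
  have hd : p ^ 1 ∣ p ^ n := pow_dvd_pow p hn
  have key : ∀ x ∈ U, t * L.nr U (p ^ n) x = 0 → L.nr U (p ^ 1) x = 0 := by
    intro x hx h0
    rw [← nr_cast' L hU hN0 hd hx]
    exact RecipLoc_castHom_eq_zero hn ht h0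
  rw [cyc_apply, key g hg hg0, key h hh hh0, carry_zero_left, pow_zero]

omit [Fact p.Prime] in
theorem RecipLoc_isNm_zpow {n : ℕ} [NeZero n] {χ : G → ZMod n} (hχ : HomOn U χ)
    (hσ : ∃ σ ∈ U, χ σ = 1) {b : A} (h : IsNm U χ b) (k : ℤ) : IsNm U χ (b ^ k) := by
  have hnat : ∀ m : ℕ, IsNm U χ (b ^ m) := by
    intro m
    induction m with
    | zero => rw [pow_zero]; exact IsNm.one hσ
    | succ m ih => rw [pow_succ]; exact IsNm.mul hχ ih h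
  cases k with
  | ofNat m => simpa using hnat m
  | negSucc m =>
    rw [zpow_negSucc]
    exact IsNm.inv (hnat (m + 1))

include L in
/-- a `p`-torsion class dies on every open subgroup of index divisible by `p`
(`main_Y1`, `u_res`, `u_pow_cob_iff`). -/
theorem cob_of_dvd_relIndex {V : Subgroup G} (hV : 𝒪.isOpen V) (hVU : V ≤ U)
    (hidx : p ∣ V.relIndex U) {f : G × G → A} (hf : IsZ2 𝒪 U f) (hfp : Cob₂ 𝒪 U (f ^ p)) :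
    Cob₂ 𝒪 V f := by
  have hU : 𝒪.isOpen U := hf.sm.isOpen
  obtain ⟨πU, hπU, hπU1⟩ := L.exists_unif U hU
  obtain ⟨πV, hπV, hπV1⟩ := L.exists_unif V hV
  obtain ⟨j, hj⟩ := main_Y1 L hπU hπU1 hf hfp
  have h1 : Eqv 𝒪 V f (cyc (L.nr U (p ^ 1)) πU ^ j) := hj.mono hV hVU
  have h2 : Eqv 𝒪 V (cyc (L.nr U (p ^ 1)) πU ^ j)
      ((cyc (L.nr V (p ^ 1)) πV ^ (V.relIndex U)) ^ j) :=
    (u_res L hU hV hVU 1 hπU hπU1 hπV hπV1).pow j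
  refine ((h1.trans h2).cob_iff).2 ?_
  rw [← pow_mul]
  refine (u_pow_cob_iff L hV 1 hπV hπV1 _).2 ?_
  rw [pow_one]
  exact Dvd.dvd.mul_right hidx j

include L in
/-- any nontrivial `p`-torsion class generates (`main_Y1` twice). -/
theorem exists_eqv_pow_of_not_cob {g₁ f : G × G → A} (hg : IsZ2 𝒪 U g₁)
    (hgp : Cob₂ 𝒪 U (g₁ ^ p)) (hg1 : ¬ Cob₂ 𝒪 U g₁) (hf : IsZ2 𝒪 U f) (hfp : Cob₂ 𝒪 U (f ^ p)) :
    ∃ j : ℕ, Eqv 𝒪 U f (g₁ ^ j) := by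
  have hU : 𝒪.isOpen U := hf.sm.isOpen
  have hp : p.Prime := Fact.out
  obtain ⟨π, hπ, hπ1⟩ := L.exists_unif U hU
  obtain ⟨a, ha⟩ := main_Y1 L hπ hπ1 hg hgp
  obtain ⟨b, hb⟩ := main_Y1 L hπ hπ1 hf hfp
  have hup : Cob₂ 𝒪 U (cyc (L.nr U (p ^ 1)) π ^ p) :=
    (u_pow_cob_iff L hU 1 hπ hπ1 p).2 (by rw [pow_one])
  have hpa : ¬ p ∣ a := by
    intro h
    apply hg1
    refine ha.cob_iff.2 ((u_pow_cob_iff L hU 1 hπ hπ1 a).2 ?_)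
    rwa [pow_one]
  have hcop : Nat.Coprime a p := ((Nat.Prime.coprime_iff_not_dvd hp).2 hpa).symm
  obtain ⟨s, -, hs⟩ := Nat.exists_mul_mod_eq_one_of_coprime hcop hp.one_lt
  refine ⟨s * b, hb.trans (Eqv.symm ?_)⟩
  have h1 : Eqv 𝒪 U (g₁ ^ (s * b)) ((cyc (L.nr U (p ^ 1)) π ^ a) ^ (s * b)) := ha.pow _
  refine h1.trans ?_
  rw [← pow_mul, ← zpow_natCast, ← zpow_natCast _ b]
  refine eqv_zpow_of_modEq hup ?_
  have h2 : a * s ≡ 1 [MOD p] := by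
    rw [Nat.ModEq, hs, Nat.mod_eq_of_lt hp.one_lt]
  have h3 : a * (s * b) ≡ b [MOD p] := by
    have := h2.mul_right b
    rwa [one_mul, mul_assoc] at this
  exact (Int.natCast_modEq_iff).2 h3

/-- uniqueness of the exponent. -/
theorem dvd_of_cob_zpow {g₁ : G × G → A} (hgp : Cob₂ 𝒪 U (g₁ ^ p)) (hg1 : ¬ Cob₂ 𝒪 U g₁) {j : ℤ}
    (h : Cob₂ 𝒪 U (g₁ ^ j)) : (p : ℤ) ∣ j := by
  by_contra hj
  apply hg1
  have hp : Prime (p : ℤ) := Nat.prime_iff_prime_int.1 Fact.out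
  obtain ⟨x, y, hxy⟩ := (Prime.coprime_iff_not_dvd hp).2 hj
  have e : g₁ = (g₁ ^ p) ^ x * (g₁ ^ j) ^ y := by
    rw [← zpow_natCast g₁ p, ← zpow_mul, ← zpow_mul, ← zpow_add, mul_comm (p : ℤ), mul_comm j, hxy,
      zpow_one]
  rw [e]
  exact (hgp.zpow x).mul (h.zpow y)

include L in
/-- **(R2)** place `p`: `χ : U → ZMod (p^n)` surjective, `P` a norm, `b = P^v c^s w^(p^n)`:
`c(χ,b) ~ c(χ,c)^s`. -/
theorem cyc_ram_eqv {n : ℕ} {χ : G → ZMod (p ^ n)} (hχ : IsChar 𝒪 U χ) (hσ : ∃ σ ∈ U, χ σ = 1)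
    {P c w : A} (hP : IsNm U χ P) (hPf : Fix U P) (hc : Fix U c) (hw : Fix U w) (v s : ℤ) :
    Eqv 𝒪 U (cyc χ (P ^ v * c ^ s * w ^ (p ^ n))) (cyc χ c ^ s) := by
  have hp0 : p ≠ 0 := (Fact.out : p.Prime).ne_zero
  have : NeZero (p ^ n) := ⟨pow_ne_zero _ hp0⟩
  have h1 : Cob₂ 𝒪 U (cyc χ P) :=
    (cob_cyc_iff L.smoothMod hχ hσ (L.h90 _ (isOpen_kerOn hχ)) hPf).2 hP
  have h2 : Cob₂ 𝒪 U (cyc χ (w ^ (p ^ n))) := cob_cyc_pow_self hχ hw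
  unfold Eqv
  rw [cyc_mul, cyc_mul, cyc_zpow, cyc_zpow, mul_right_comm, mul_div_cancel_right]
  exact (h1.zpow v).mul h2

include L in
/-- `c(χ₁, c)` is nontrivial if `A^U` is generated by `P` (a norm), `c` and the `p`-th powers
(`idx_ne`, `cob_cyc_iff`). -/
theorem not_cob_cyc_of_gen {χ : G → ZMod (p ^ 1)} (hχ : IsChar 𝒪 U χ) (hσ : ∃ σ ∈ U, χ σ = 1)
    {P c : A} (hP : IsNm U χ P) (hc : Fix U c)
    (hgen : ∀ b : A, Fix U b → ∃ (v s : ℤ) (w : A), Fix U w ∧ b = P ^ v * c ^ s * w ^ p) :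
    ¬ Cob₂ 𝒪 U (cyc χ c) := by
  intro hcob
  have hU : 𝒪.isOpen U := hχ.sm.isOpen
  have hNc : IsNm U χ c :=
    (cob_cyc_iff L.smoothMod hχ hσ (L.h90 _ (isOpen_kerOn hχ)) hc).1 hcob
  have key : ∀ (m : ℕ) (_ : m = p) (ψ : G → ZMod m), IsChar 𝒪 U ψ → (∃ σ ∈ U, ψ σ = 1) →
      ∃ b : A, Fix U b ∧ ¬ IsNm U ψ b := by
    intro m hm
    subst hm
    exact L.idx_ne U hU
  obtain ⟨b, hb, hbN⟩ := key (p ^ 1) (pow_one p) χ hχ hσ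
  apply hbN
  obtain ⟨v, s, w, hw, rfl⟩ := hgen b hb
  have hwN : IsNm U χ (w ^ p) := by
    have h1 := isNm_pow (χ := χ) hσ hw
    have h2 : w ^ p ^ 1 = w ^ p := by rw [pow_one]
    rwa [h2] at h1
  exact IsNm.mul hχ.hom (IsNm.mul hχ.hom (RecipLoc_isNm_zpow hχ.hom hσ hP v)
    (RecipLoc_isNm_zpow hχ.hom hσ hNc s)) hwN

end Fermat.Agent.S55.BRG
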