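/-
S55 / BRG : the reciprocity law over `ℚ` for `p`-torsion Brauer classes, abstract form.

`RecipData` = what has to be known about `(G_ℚ, ℚ̄ˣ)`, the local formations `(G_{ℚ_q}, Ω_qˣ)` and the
cyclotomic `ℤ_p`-extension (characters `χ n : G_ℚ → ℤ/p^n`).
-/
import Fermat.Agent.S55.BRG.Abhn
import Fermat.Agent.S55.BRG.Conj
import Fermat.Agent.S55.BRG.RecipLoc

set_option autoImplicit false
set_option linter.unusedSectionVars false

namespace Fermat.Agent.S55.BRG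

open Fermat.Agent.S55.LDB

/-- `p` as an element of `Nat.Primes`. -/
def pP (p : ℕ) [Fact p.Prime] : Nat.Primes := ⟨p, Fact.out⟩

/-- a prime number as a unit of `ℚ`. -/
def primeUnit (q : Nat.Primes) : ℚˣ := Units.mk0 (q : ℚ) (by exact_mod_cast q.2.ne_zero)

structure RecipData (p : ℕ) [Fact p.Prime] {G : Type*} [Group G] (𝒪 : OpenFam G)
    (A : Type*) [CommGroup A] [MulDistribMulAction G A]
    (Γ : Nat.Primes → Type*) [∀ q, Group (Γ q)] (𝒪' : ∀ q, OpenFam (Γ q))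
    (B : Nat.Primes → Type*) [∀ q, CommGroup (B q)] [∀ q, MulDistribMulAction (Γ q) (B q)] where
  FF : FieldFormation p 𝒪 A
  LF : ∀ q, LocalFormation p (𝒪' q) (B q)
  r : ∀ q, Γ q →* G
  lam : ∀ q, A →* B q
  locMap : ∀ q, LocMap 𝒪 (𝒪' q) (r q) (lam q)
  /-- `ℚˣ = A^G` -/
  rat : ℚˣ →* A
  rat_fix : ∀ x, Fix (⊤ : Subgroup G) (rat x)
  rat_surj : ∀ b : A, Fix (⊤ : Subgroup G) b → ∃ x, rat x = b
  ord_rat : ∀ (q : Nat.Primes) (x : ℚˣ), (LF q).ord ⊤ (lam q (rat x)) = padicValRat q (x : ℚ)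
  /-- the characters of the cyclotomic `ℤ_p`-extension -/
  χ : ∀ n : ℕ, G → ZMod (p ^ n)
  χ_char : ∀ n, IsChar 𝒪 ⊤ (χ n)
  χ_cast : ∀ (a n : ℕ) (h : a ≤ n) (g : G),
    ZMod.castHom (pow_dvd_pow p h) (ZMod (p ^ a)) (χ n g) = χ a g
  /-- `Λ n x = λ_n (x mod p^(n+1))` for `p`-adic units `x ∈ ℚˣ` (junk otherwise) -/
  Λ : ∀ n : ℕ, ℚˣ → ZMod (p ^ n)
  Λ_mul : ∀ (n : ℕ) (x y : ℚˣ), padicValRat p (x : ℚ) = 0 → padicValRat p (y : ℚ) = 0 →
    Λ n (x * y) = Λ n x + Λ n y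
  Λ_cast : ∀ (a n : ℕ) (h : a ≤ n) (x : ℚˣ),
    ZMod.castHom (pow_dvd_pow p h) (ZMod (p ^ a)) (Λ n x) = Λ a x
  c : ℚˣ
  c_unit : padicValRat p (c : ℚ) = 0
  Λ_c : ∀ n, Λ n c = 1
  /-- for `q ≠ p` some `Λ n q` is nonzero (`q^(p-1) ≠ 1`) -/
  Λ_ne : ∀ q : Nat.Primes, q ≠ pP p → ∃ n, Λ n (primeUnit q) ≠ 0
  /-- `χ n` is unramified at `q ≠ p` and Frobenius goes to `Λ n q` -/
  χ_unram : ∀ n, ∀ q : Nat.Primes, q ≠ pP p → ∀ τ : Γ q,
    χ n (r q τ) = Λ n (primeUnit q) * (LF q).nr ⊤ (p ^ n) τ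
  /-- `χ n` is totally ramified at `p` -/
  χ_surj : ∀ n, ∃ τ : Γ (pP p), χ n (r (pP p) τ) = 1
  /-- `p` is a norm from the `n`-th layer -/
  p_norm : ∀ n, IsNm ⊤ (χ n) (rat (primeUnit (pP p)))
  /-- `p`-adic units killed by `Λ N`, `N` large, are `p^n`-th powers in `ℚ_p` -/
  pow_of_Λ : ∀ n, ∃ N, n ≤ N ∧ ∀ x : ℚˣ, padicValRat p (x : ℚ) = 0 → Λ N x = 0 →
    ∃ w : B (pP p), Fix (⊤ : Subgroup (Γ (pP p))) w ∧ lam (pP p) (rat x) = w ^ (p ^ n)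
  /-- `ℚˣ` is dense in `ℚ_pˣ / p` -/
  dense : ∀ b : B (pP p), Fix (⊤ : Subgroup (Γ (pP p))) b →
    ∃ (x : ℚˣ) (w : B (pP p)), Fix (⊤ : Subgroup (Γ (pP p))) w ∧ b = lam (pP p) (rat x) * w ^ p

variable {p : ℕ} [Fact p.Prime] {G : Type*} [Group G] {𝒪 : OpenFam G}
  {A : Type*} [CommGroup A] [MulDistribMulAction G A]
  {Γ : Nat.Primes → Type*} [∀ q, Group (Γ q)] {𝒪' : ∀ q, OpenFam (Γ q)}
  {B : Nat.Primes → Type*} [∀ q, CommGroup (B q)] [∀ q, MulDistribMulAction (Γ q) (B q)]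

namespace RecipData

variable (D : RecipData p 𝒪 A Γ 𝒪' B)

/-- the localisation of a global cochain at `q`. -/
def locq (q : Nat.Primes) (Y : G × G → A) : Γ q × Γ q → B q := loc (D.r q) (D.lam q) Y

/-- the family of all places `(q, γ)` (embedding `j_q ∘ γ⁻¹`). -/
abbrev rAll (i : Nat.Primes × G) : Γ i.1 →* G := conjHom (D.r i.1) i.2
abbrev lamAll (i : Nat.Primes × G) : A →* B i.1 := conjLam (D.lam i.1) i.2

/-- the generator at `p`: `g₁ = c(χ₁ ∘ r_p, c)`. -/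
def g₁ : Γ (pP p) × Γ (pP p) → B (pP p) :=
  cyc (fun τ => D.χ 1 (D.r (pP p) τ)) (D.lam (pP p) (D.rat D.c))

/-- the generator at `q`: `u_q = c(nr_p, π)`. -/
def u (q : Nat.Primes) : Γ q × Γ q → B q :=
  cyc ((D.LF q).nr ⊤ (p ^ 1)) (D.lam q (D.rat (primeUnit q)))

/-! ### helpers for part A -/

theorem RecipAbs_fix (q : Nat.Primes) (x : ℚˣ) :
    Fix (⊤ : Subgroup (Γ q)) (D.lam q (D.rat x)) := by
  have := (D.locMap q).fix (D.rat_fix x)
  rwa [Subgroup.comap_top] at this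

theorem RecipAbs_char (q : Nat.Primes) (n : ℕ) :
    IsChar (𝒪' q) ⊤ (fun τ => D.χ n (D.r q τ)) := by
  have := (D.locMap q).isChar (D.χ_char n)
  rwa [Subgroup.comap_top] at this

instance RecipAbs_neZero (n : ℕ) : NeZero (p ^ n) := ⟨pow_ne_zero _ (Fact.out : p.Prime).ne_zero⟩

theorem RecipAbs_Λ_one (n : ℕ) : D.Λ n 1 = 0 := by
  have := D.Λ_mul n 1 1 (by simp) (by simp)
  rw [mul_one] at this
  exact add_eq_left.mp this.symm

theorem RecipAbs_Λ_pow (n : ℕ) (x : ℚˣ) (hx : padicValRat p (x : ℚ) = 0) (k : ℕ) :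
    D.Λ n (x ^ k) = k * D.Λ n x := by
  induction k with
  | zero => simp [RecipAbs_Λ_one]
  | succ k ih =>
    rw [pow_succ, D.Λ_mul n _ _ (by simp [padicValRat.pow, hx]) hx, ih]
    push_cast
    ring

theorem RecipAbs_Λ_inv (n : ℕ) (x : ℚˣ) (hx : padicValRat p (x : ℚ) = 0) :
    D.Λ n x⁻¹ = - D.Λ n x := by
  have := D.Λ_mul n x x⁻¹ hx (by simp [padicValRat.inv, hx])
  rw [mul_inv_cancel, RecipAbs_Λ_one] at this
  exact (neg_eq_of_add_eq_zero_right this.symm).symm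

theorem RecipAbs_Λ_zpow (n : ℕ) (x : ℚˣ) (hx : padicValRat p (x : ℚ) = 0) (k : ℤ) :
    D.Λ n (x ^ k) = k * D.Λ n x := by
  obtain ⟨k, rfl | rfl⟩ := k.eq_nat_or_neg
  · rw [zpow_natCast, RecipAbs_Λ_pow D n x hx]
    simp
  · rw [zpow_neg, zpow_natCast, RecipAbs_Λ_inv D n _ (by simp [padicValRat.pow, hx]),
      RecipAbs_Λ_pow D n x hx]
    simp

theorem RecipAbs_Λ_neg_one (hp2 : p ≠ 2) (n : ℕ) : D.Λ n (-1) = 0 := by
  have h := D.Λ_mul n (-1) (-1) (by simp) (by simp)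
  rw [neg_mul_neg, mul_one, RecipAbs_Λ_one, ← two_mul] at h
  have hu : IsUnit ((2 : ℕ) : ZMod (p ^ n)) := by
    rw [ZMod.isUnit_iff_coprime]
    apply Nat.Coprime.pow_right
    exact (Nat.coprime_primes Nat.prime_two Fact.out).2 (Ne.symm hp2)
  have h2 : ((2 : ℕ) : ZMod (p ^ n)) * D.Λ n (-1) = 0 := by
    rw [Nat.cast_two]; exact h.symm
  exact (hu.mul_right_eq_zero).1 h2

theorem RecipAbs_eq_one_or (x : ℚˣ) (h : ∀ q : Nat.Primes, padicValRat q (x : ℚ) = 0) :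
    x = 1 ∨ x = -1 := by
  have hx0 : (x : ℚ) ≠ 0 := x.ne_zero
  have hnum0 : (x : ℚ).num ≠ 0 := Rat.num_ne_zero.2 hx0
  have hcop := (x : ℚ).reduced
  have key : ∀ q : ℕ, q.Prime → ¬ q ∣ (x : ℚ).num.natAbs ∧ ¬ q ∣ (x : ℚ).den := by
    intro q hq
    have : Fact q.Prime := ⟨hq⟩
    have hv := h ⟨q, hq⟩
    rw [padicValRat_def] at hv
    simp only at hv
    by_cases h1 : q ∣ (x : ℚ).num.natAbs
    · have h2 : ¬ q ∣ (x : ℚ).den := fun h2 =>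
        hq.one_lt.ne' (Nat.dvd_one.1 (hcop ▸ Nat.dvd_gcd h1 h2))
      rw [padicValNat.eq_zero_of_not_dvd h2] at hv
      have h3 : 1 ≤ padicValNat q (x : ℚ).num.natAbs :=
        one_le_padicValNat_of_dvd (Int.natAbs_ne_zero.2 hnum0) h1
      rw [padicValInt] at hv
      omega
    · refine ⟨h1, fun h2 => ?_⟩
      have h3 : 1 ≤ padicValNat q (x : ℚ).den := one_le_padicValNat_of_dvd (x : ℚ).den_ne_zero h2
      rw [padicValInt, padicValNat.eq_zero_of_not_dvd h1] at hv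
      omega
  have hden : (x : ℚ).den = 1 := Nat.eq_one_iff_not_exists_prime_dvd.2 fun q hq => (key q hq).2
  have hnum : (x : ℚ).num.natAbs = 1 :=
    Nat.eq_one_iff_not_exists_prime_dvd.2 fun q hq => (key q hq).1
  have hxn : (x : ℚ) = (x : ℚ).num := ((Rat.den_eq_one_iff _).1 hden).symm
  rcases Int.natAbs_eq (x : ℚ).num with h1 | h1
  · left
    apply Units.ext
    rw [hxn, h1, hnum]
    simp
  · right
    apply Units.ext
    rw [hxn, h1, hnum]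
    simp

theorem RecipAbs_val_primeUnit (q ℓ : Nat.Primes) :
    padicValRat q ((primeUnit ℓ : ℚˣ) : ℚ) = if q = ℓ then 1 else 0 := by
  have : Fact (q : ℕ).Prime := ⟨q.2⟩
  have : Fact (ℓ : ℕ).Prime := ⟨ℓ.2⟩
  change padicValRat q ((ℓ : ℕ) : ℚ) = _
  rw [padicValRat.of_nat]
  split_ifs with h
  · rw [h, padicValNat_self]
    rfl
  · rw [padicValNat_primes (fun h' => h (Subtype.ext h'))]
    rfl

theorem isZ2_g₁ : IsZ2 (𝒪' (pP p)) ⊤ D.g₁ :=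
  cyc_isZ2 (D.RecipAbs_char (pP p) 1) (D.RecipAbs_fix (pP p) D.c)

theorem cob_g₁_pow : Cob₂ (𝒪' (pP p)) ⊤ (D.g₁ ^ p) := by
  have h := cob_cyc_pow (D.RecipAbs_char (pP p) 1) (D.RecipAbs_fix (pP p) D.c)
  have e : D.g₁ ^ p = D.g₁ ^ (p ^ 1) := by rw [pow_one]
  rw [e]
  exact h

/-- `g₁` is not trivial (`not_cob_cyc_of_gen`, `dense`, `pow_of_Λ`, `p_norm` + `IsNm.loc`). -/
theorem not_cob_g₁ : ¬ Cob₂ (𝒪' (pP p)) ⊤ D.g₁ := by
  have hσ : ∃ σ ∈ (⊤ : Subgroup (Γ (pP p))), D.χ 1 (D.r (pP p) σ) = 1 := by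
    obtain ⟨τ, hτ⟩ := D.χ_surj 1
    exact ⟨τ, Subgroup.mem_top _, hτ⟩
  have hP : IsNm (⊤ : Subgroup (Γ (pP p))) (fun τ => D.χ 1 (D.r (pP p) τ))
      (D.lam (pP p) (D.rat (primeUnit (pP p)))) := by
    have := IsNm.loc (D.locMap (pP p)) (D.χ_char 1).hom (D.p_norm 1)
      (by rw [Subgroup.comap_top]; exact hσ)
    rwa [Subgroup.comap_top] at this
  first
    | refine not_cob_cyc_of_gen (D.LF (pP p)) (D.RecipAbs_char (pP p) 1) hσ hP
        (D.RecipAbs_fix (pP p) D.c) ?_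
    | refine not_cob_cyc_of_gen (D.RecipAbs_char (pP p) 1) hσ hP
        (D.RecipAbs_fix (pP p) D.c) ?_
  intro b hb
  obtain ⟨x, w, hw, rfl⟩ := D.dense b hb
  obtain ⟨N, -, hN⟩ := D.pow_of_Λ 1
  set v : ℤ := padicValRat p (x : ℚ) with hv
  set x' : ℚˣ := x * (primeUnit (pP p)) ^ (-v) with hx'
  have hvp : padicValRat p ((primeUnit (pP p) : ℚˣ) : ℚ) = 1 := by
    have := RecipAbs_val_primeUnit (pP p) (pP p)
    rwa [if_pos rfl] at this
  have hx'0 : padicValRat p (x' : ℚ) = 0 := by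
    rw [hx', Units.val_mul, Units.val_zpow_eq_zpow_val,
      padicValRat.mul x.ne_zero (zpow_ne_zero _ (Units.ne_zero _)), padicValRat.zpow, hvp]
    simp [hv]
  set s : ℕ := (D.Λ N x').val with hs
  set x'' : ℚˣ := x' * (D.c ^ s)⁻¹ with hx''
  have hcs : padicValRat p ((D.c ^ s : ℚˣ) : ℚ) = 0 := by
    simp [padicValRat.pow, D.c_unit]
  have hx''0 : padicValRat p (x'' : ℚ) = 0 := by
    rw [hx'', Units.val_mul, padicValRat.mul (Units.ne_zero _) (Units.ne_zero _), hx'0,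
      Units.val_inv_eq_inv_val, padicValRat.inv, hcs]
    simp
  have hΛ : D.Λ N x'' = 0 := by
    rw [hx'', D.Λ_mul N _ _ hx'0 (by rw [Units.val_inv_eq_inv_val, padicValRat.inv, hcs]; simp),
      RecipAbs_Λ_inv D N _ hcs, RecipAbs_Λ_pow D N _ D.c_unit, D.Λ_c, mul_one, hs,
      ZMod.natCast_zmod_val, add_neg_cancel]
  obtain ⟨w', hw', hw'eq⟩ := hN x'' hx''0 hΛ
  refine ⟨v, s, w' * w, hw'.mul hw, ?_⟩
  have hx_eq : x = (primeUnit (pP p)) ^ v * D.c ^ s * x'' := by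
    rw [hx'', hx', zpow_neg]
    have h3 : ∀ a b : ℚˣ, a * b * (x * a⁻¹ * b⁻¹) = x * (a * a⁻¹) * (b * b⁻¹) := by
      intro a b
      ac_rfl
    rw [h3, mul_inv_cancel, mul_inv_cancel, mul_one, mul_one]
  rw [pow_one] at hw'eq
  conv_lhs => rw [hx_eq]
  rw [map_mul, map_mul, map_mul, map_mul, map_zpow, map_zpow, map_pow, map_pow, hw'eq, mul_pow,
    zpow_natCast]
  group

theorem isZ2_u (q : Nat.Primes) : IsZ2 (𝒪' q) ⊤ (D.u q) :=
  cyc_isZ2 ((D.LF q).nr_char ⊤ (𝒪' q).isOpen_top (p ^ 1) (NeZero.ne _))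
    (D.RecipAbs_fix q (primeUnit q))

theorem cob_u_pow (q : Nat.Primes) : Cob₂ (𝒪' q) ⊤ (D.u q ^ p) := by
  have h := cob_cyc_pow ((D.LF q).nr_char ⊤ (𝒪' q).isOpen_top (p ^ 1) (NeZero.ne _))
    (D.RecipAbs_fix q (primeUnit q))
  have e : D.u q ^ p = D.u q ^ (p ^ 1) := by rw [pow_one]
  rw [e]
  exact h

theorem not_cob_u (q : Nat.Primes) : ¬ Cob₂ (𝒪' q) ⊤ (D.u q) := by
  intro hcob
  have hord : (D.LF q).ord ⊤ (D.lam q (D.rat (primeUnit q))) = 1 := by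
    rw [D.ord_rat, RecipAbs_val_primeUnit, if_pos rfl]
  have h := (u_zpow_cob_iff (D.LF q) (𝒪' q).isOpen_top 1 (D.RecipAbs_fix q (primeUnit q)) hord 1).1
    (by rw [zpow_one]; exact hcob)
  have h1 : (p ^ 1 : ℕ) ∣ 1 := by exact_mod_cast h
  rw [pow_one] at h1
  exact (Fact.out : p.Prime).one_lt.ne' (Nat.dvd_one.1 h1)

/-- `Λ n` of a `p`-adic unit `x ∈ ℚˣ` is `∑_{q ≠ p} v_q(x) Λ n q` (`p` odd: `Λ n (-1) = 0`). -/
theorem Λ_eq_sum (hp2 : p ≠ 2) (n : ℕ) (x : ℚˣ) (hx : padicValRat p (x : ℚ) = 0)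
    (T : Finset Nat.Primes) (hT : ∀ q : Nat.Primes, q ∉ T → padicValRat q (x : ℚ) = 0) :
    D.Λ n x = ∑ q ∈ T.erase (pP p), (padicValRat q (x : ℚ) : ZMod (p ^ n)) * D.Λ n (primeUnit q) := by
  classical
  induction T using Finset.induction_on generalizing x with
  | empty =>
    rcases RecipAbs_eq_one_or x (fun q => hT q (Finset.notMem_empty q)) with rfl | rfl
    · simp [RecipAbs_Λ_one]
    · simp [RecipAbs_Λ_neg_one D hp2]
  | insert ℓ T hℓ ih =>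
    by_cases hℓp : ℓ = pP p
    · subst hℓp
      rw [Finset.erase_insert hℓ, ← Finset.erase_eq_of_notMem hℓ]
      apply ih x hx
      intro q hq
      by_cases hqp : q = pP p
      · rw [hqp]; exact hx
      · exact hT q (by simp [hqp, hq])
    · rw [Finset.erase_insert_of_ne hℓp, Finset.sum_insert (by simp [hℓ])]
      set v : ℤ := padicValRat ℓ (x : ℚ) with hv
      set x' : ℚˣ := x * (primeUnit ℓ) ^ (-v) with hx'
      have hval : ∀ q : Nat.Primes, padicValRat q (x' : ℚ) =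
          padicValRat q (x : ℚ) - v * (if q = ℓ then 1 else 0) := by
        intro q
        have : Fact (q : ℕ).Prime := ⟨q.2⟩
        rw [hx', Units.val_mul, Units.val_zpow_eq_zpow_val,
          padicValRat.mul x.ne_zero (zpow_ne_zero _ (Units.ne_zero _)), padicValRat.zpow,
          RecipAbs_val_primeUnit]
        ring
      have hℓunit : padicValRat p ((primeUnit ℓ : ℚˣ) : ℚ) = 0 := by
        have := RecipAbs_val_primeUnit (pP p) ℓ
        rwa [if_neg (Ne.symm hℓp)] at this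
      have hx'p : padicValRat p (x' : ℚ) = 0 := by
        have := hval (pP p)
        rw [if_neg (Ne.symm hℓp)] at this
        simpa [pP, hx] using this
      have hx'T : ∀ q : Nat.Primes, q ∉ T → padicValRat q (x' : ℚ) = 0 := by
        intro q hq
        rw [hval]
        by_cases hqℓ : q = ℓ
        · rw [if_pos hqℓ, hqℓ, hv]; ring
        · rw [if_neg hqℓ, hT q (by simp [hqℓ, hq])]; ring
      have hx_eq : x = x' * (primeUnit ℓ) ^ v := by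
        rw [hx', zpow_neg, inv_mul_cancel_right]
      have h1 := ih x' hx'p hx'T
      conv_lhs => rw [hx_eq]
      rw [D.Λ_mul n _ _ hx'p (by
        rw [Units.val_zpow_eq_zpow_val, padicValRat.zpow, hℓunit, mul_zero]),
        RecipAbs_Λ_zpow D n _ hℓunit, h1, add_comm]
      congr 1
      refine Finset.sum_congr rfl fun q hq => ?_
      have hqℓ : q ≠ ℓ := fun h => hℓ (h ▸ (Finset.mem_erase.1 hq).2)
      rw [hval, if_neg hqℓ, mul_zero, sub_zero]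

/-! ### helpers for `recip_of_split` (prefix `recipB_`) -/

theorem recipB_fix_lam (q : Nat.Primes) {a : A} (ha : Fix (⊤ : Subgroup G) a) :
    Fix (⊤ : Subgroup (Γ q)) (D.lam q a) := by
  have h := (D.locMap q).fix ha
  rwa [Subgroup.comap_top] at h

theorem recipB_eqv_loc (q : Nat.Primes) {f f' : G × G → A} (h : Eqv 𝒪 ⊤ f f') :
    Eqv (𝒪' q) ⊤ (D.locq q f) (D.locq q f') := by
  have h1 := (D.locMap q).eqv h
  rwa [Subgroup.comap_top] at h1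

theorem recipB_cob_loc (q : Nat.Primes) {f : G × G → A} (h : Cob₂ 𝒪 ⊤ f) :
    Cob₂ (𝒪' q) ⊤ (D.locq q f) := by
  have h1 := (D.locMap q).cob₂ h
  rwa [Subgroup.comap_top] at h1

theorem recipB_isChar (q : Nat.Primes) (n : ℕ) :
    IsChar (𝒪' q) ⊤ (fun τ => D.χ n (D.r q τ)) := by
  have h1 := (D.locMap q).isChar (D.χ_char n)
  rwa [Subgroup.comap_top] at h1

theorem recipB_locq_cyc (q : Nat.Primes) (n : ℕ) (b : A) :
    D.locq q (cyc (D.χ n) b) = cyc (fun τ => D.χ n (D.r q τ)) (D.lam q b) :=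
  loc_cyc _ _

theorem recipB_padicValRat_primeUnit_self (q : Nat.Primes) :
    padicValRat q ((primeUnit q : ℚˣ) : ℚ) = 1 :=
  padicValRat.self q.2.one_lt

theorem recipB_padicValRat_primeUnit_ne {q q' : Nat.Primes} (h : q ≠ q') :
    padicValRat q ((primeUnit q' : ℚˣ) : ℚ) = 0 := by
  have h1 : ¬ (q : ℕ) ∣ q' := fun hd => h (Subtype.ext ((Nat.prime_dvd_prime_iff_eq q.2 q'.2).1 hd))
  have h2 : ((primeUnit q' : ℚˣ) : ℚ) = ((q' : ℕ) : ℚ) := rfl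
  rw [h2, padicValRat.of_nat, padicValNat.eq_zero_of_not_dvd h1]
  rfl

theorem recipB_padicValRat_mul_inv_zpow (ℓ : ℕ) [Fact ℓ.Prime] (x P : ℚˣ) (v : ℤ) :
    padicValRat ℓ ((x * (P ^ v)⁻¹ : ℚˣ) : ℚ) =
      padicValRat ℓ (x : ℚ) - v * padicValRat ℓ (P : ℚ) := by
  rw [Units.val_mul, Units.val_inv_eq_inv_val, Units.val_zpow_eq_zpow_val,
    padicValRat.mul x.ne_zero (inv_ne_zero (zpow_ne_zero _ P.ne_zero)), padicValRat.inv,
    padicValRat.zpow]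
  ring

theorem recipB_exists_support (x : ℚˣ) :
    ∃ T : Finset Nat.Primes, ∀ q : Nat.Primes, q ∉ T → padicValRat q (x : ℚ) = 0 := by
  classical
  refine ⟨(((x : ℚ).num.natAbs * (x : ℚ).den).primeFactors).subtype Nat.Prime, fun q hq => ?_⟩
  have hq' : ¬ ((q : ℕ) ∈ ((x : ℚ).num.natAbs * (x : ℚ).den).primeFactors) :=
    fun h => hq (Finset.mem_subtype.2 h)
  rw [Nat.mem_primeFactors] at hq'
  have hne : (x : ℚ).num.natAbs * (x : ℚ).den ≠ 0 :=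
    mul_ne_zero (Int.natAbs_ne_zero.2 (Rat.num_ne_zero.2 x.ne_zero)) (x : ℚ).den_ne_zero
  have hnd : ¬ (q : ℕ) ∣ (x : ℚ).num.natAbs * (x : ℚ).den := fun hd => hq' ⟨q.2, hd, hne⟩
  have h1 : ¬ (q : ℕ) ∣ (x : ℚ).num.natAbs := fun h => hnd (h.mul_right _)
  have h2 : ¬ (q : ℕ) ∣ (x : ℚ).den := fun h => hnd (h.mul_left _)
  rw [padicValRat_def, padicValInt, padicValNat.eq_zero_of_not_dvd h1,
    padicValNat.eq_zero_of_not_dvd h2]
  simp

theorem recipB_Λ_one (n : ℕ) : D.Λ n 1 = 0 := by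
  have h := D.Λ_mul n 1 1 (by simp) (by simp)
  rw [mul_one] at h
  exact add_eq_left.mp h.symm

theorem recipB_Λ_pow (n : ℕ) {y : ℚˣ} (hy : padicValRat p (y : ℚ) = 0) (s : ℕ) :
    padicValRat p ((y ^ s : ℚˣ) : ℚ) = 0 ∧ D.Λ n (y ^ s) = (s : ZMod (p ^ n)) * D.Λ n y := by
  induction s with
  | zero => simp [recipB_Λ_one]
  | succ s ih =>
    have h1 : padicValRat p ((y ^ (s + 1) : ℚˣ) : ℚ) = 0 := by
      rw [pow_succ, Units.val_mul, padicValRat.mul (Units.ne_zero _) (Units.ne_zero _), ih.1, hy,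
        add_zero]
    refine ⟨h1, ?_⟩
    rw [pow_succ, D.Λ_mul n _ _ ih.1 hy, ih.2]
    push_cast
    ring

/-- **(R-abs-1)** the computation: a `p`-torsion class which dies in the `n`-th layer.
PROOF. `Y ~ c(χ_n, rat x)` (`exists_eqv_cyc`, `rat_surj`).  `T` = support of `x`.
`q ≠ p`: `cyc_unram_eqv` gives `k q` with `(Λ n q)~ v_q(x) = p^(n-1) k q`, `loc_q Y ~ u_q^(k q)`.
At `p`: `x = p^v x'`; `N ≥ n` from `pow_of_Λ`, `s = (Λ N x')~`: `x' = c^s w^(p^n)` in `ℚ_p`;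
`cyc_ram_eqv`: `loc_p Y ~ c(χ_n ∘ r_p, c)^s`, `s ≡ (Λ n x')~ ≡ p^(n-1) ∑ k q mod p^n` (`Λ_eq_sum`),
`c(χ_n ∘ r_p, c)^(p^(n-1)) ~ g₁` (`cyc_castPow_eqv`, `χ_cast`), `c(χ_n∘ r_p, c)^(p^n) ~ 1`. -/
theorem recip_of_split (hp2 : p ≠ 2) {n : ℕ} (hn : 1 ≤ n) {Y : G × G → A} (hY : IsZ2 𝒪 ⊤ Y)
    (hYp : Cob₂ 𝒪 ⊤ (Y ^ p)) (hsplit : Cob₂ 𝒪 (kerOn ⊤ (D.χ n) (D.χ_char n).hom) Y) :
    ∃ (T : Finset Nat.Primes) (k : Nat.Primes → ℤ),
      (∀ q, q ≠ pP p → Eqv (𝒪' q) ⊤ (D.locq q Y) (D.u q ^ k q)) ∧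
      (∀ q ∉ T, k q = 0) ∧
      Eqv (𝒪' (pP p)) ⊤ (D.locq (pP p) Y) (D.g₁ ^ (∑ q ∈ T.erase (pP p), k q)) := by
  classical
  -- `Y ~ c(χ_n, rat x)`
  obtain ⟨τ₀, hτ₀⟩ := D.χ_surj n
  have hσ : ∃ σ ∈ (⊤ : Subgroup G), D.χ n σ = 1 := ⟨D.r (pP p) τ₀, Subgroup.mem_top _, hτ₀⟩
  obtain ⟨b, hb, hYb⟩ := exists_eqv_cyc D.FF.smooth (D.χ_char n) hσ
    (D.FF.h90 _ (isOpen_kerOn (D.χ_char n))) hY hsplit
  obtain ⟨x, rfl⟩ := D.rat_surj b hb
  obtain ⟨T, hT⟩ := recipB_exists_support x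
  have htor : Cob₂ 𝒪 ⊤ (cyc (D.χ n) (D.rat x) ^ p) := (hYb.pow p).cob_iff.1 hYp
  -- the places `q ≠ p`
  have hq : ∀ q : Nat.Primes, q ≠ pP p → ∃ k : ℤ,
      ((D.Λ n (primeUnit q)).val : ℤ) * padicValRat q (x : ℚ) = (p : ℤ) ^ (n - 1) * k ∧
      Eqv (𝒪' q) ⊤ (D.locq q Y) (D.u q ^ k) := by
    intro q hqp
    obtain ⟨k, hk1, hk2⟩ := cyc_unram_eqv (D.LF q) (U := ⊤) (𝒪' q).isOpen_top hn
      (χ := fun τ => D.χ n (D.r q τ)) (D.Λ n (primeUnit q)) (fun τ _ => D.χ_unram n q hqp τ)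
      (D.recipB_fix_lam q (D.rat_fix (primeUnit q)))
      (by rw [D.ord_rat]; exact recipB_padicValRat_primeUnit_self q)
      (D.recipB_fix_lam q (D.rat_fix x))
      (by
        have h := D.recipB_cob_loc q htor
        rwa [locq, loc_pow, loc_cyc] at h)
    refine ⟨k, ?_, ?_⟩
    · rw [← D.ord_rat]; exact hk1
    · have h2 := D.recipB_eqv_loc q hYb
      rw [recipB_locq_cyc] at h2
      exact h2.trans hk2
  choose! k hk1 hk2 using hq
  have hpn : (p : ℤ) ^ (n - 1) ≠ 0 := pow_ne_zero _ (by exact_mod_cast (Fact.out : p.Prime).ne_zero)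
  refine ⟨T, fun q => if q = pP p then 0 else k q, ?_, ?_, ?_⟩
  · intro q hqp
    simp only [if_neg hqp]
    exact hk2 q hqp
  · intro q hqT
    by_cases hqp : q = pP p
    · simp only [if_pos hqp]
    · simp only [if_neg hqp]
      have h1 := hk1 q hqp
      rw [hT q hqT, mul_zero] at h1
      exact (mul_eq_zero.1 h1.symm).resolve_left hpn
  -- the place `p`
  obtain ⟨K, hK⟩ : ∃ K : ℤ, K = ∑ q ∈ T.erase (pP p), (if q = pP p then 0 else k q) := ⟨_, rfl⟩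
  rw [← hK]
  obtain ⟨v, hv⟩ : ∃ v : ℤ, v = padicValRat p (x : ℚ) := ⟨_, rfl⟩
  obtain ⟨x', hx'def⟩ : ∃ x' : ℚˣ, x' = x * (primeUnit (pP p) ^ v)⁻¹ := ⟨_, rfl⟩
  have hx' : padicValRat p (x' : ℚ) = 0 := by
    rw [hx'def, recipB_padicValRat_mul_inv_zpow]
    have h1 : padicValRat p ((primeUnit (pP p) : ℚˣ) : ℚ) = 1 :=
      recipB_padicValRat_primeUnit_self (pP p)
    rw [h1, ← hv]
    ring
  have hx'q : ∀ q : Nat.Primes, q ≠ pP p → padicValRat q (x' : ℚ) = padicValRat q (x : ℚ) := by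
    intro q hqp
    have : Fact (q : ℕ).Prime := ⟨q.2⟩
    rw [hx'def, recipB_padicValRat_mul_inv_zpow, recipB_padicValRat_primeUnit_ne hqp]
    ring
  have hT' : ∀ q : Nat.Primes, q ∉ T → padicValRat q (x' : ℚ) = 0 := by
    intro q hqT
    by_cases hqp : q = pP p
    · rw [hqp]; exact hx'
    · rw [hx'q q hqp]; exact hT q hqT
  obtain ⟨N, hnN, hN⟩ := D.pow_of_Λ n
  obtain ⟨s, hs⟩ : ∃ s : ℕ, s = (D.Λ N x').val := ⟨_, rfl⟩
  obtain ⟨y, hydef⟩ : ∃ y : ℚˣ, y = x' * (D.c ^ s)⁻¹ := ⟨_, rfl⟩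
  have hcs := D.recipB_Λ_pow N D.c_unit s
  have hyc : y * D.c ^ s = x' := by rw [hydef, inv_mul_cancel_right]
  have hy : padicValRat p (y : ℚ) = 0 := by
    have h1 : padicValRat p ((y * D.c ^ s : ℚˣ) : ℚ) = 0 := by rw [hyc]; exact hx'
    rw [Units.val_mul, padicValRat.mul (Units.ne_zero _) (Units.ne_zero _), hcs.1, add_zero] at h1
    exact h1
  have hΛy : D.Λ N y = 0 := by
    have h1 : D.Λ N x' = D.Λ N y + D.Λ N (D.c ^ s) := by
      rw [← D.Λ_mul N _ _ hy hcs.1, hyc]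
    rw [hcs.2, D.Λ_c, mul_one, hs, ZMod.natCast_zmod_val] at h1
    exact add_eq_right.mp h1.symm
  obtain ⟨w, hw, hwy⟩ := hN y hy hΛy
  have hxdecomp : x = primeUnit (pP p) ^ v * D.c ^ (s : ℤ) * y := by
    rw [zpow_natCast, mul_assoc, mul_comm (D.c ^ s) y, hyc, hx'def, mul_comm x,
      mul_inv_cancel_left]
  have hlam : D.lam (pP p) (D.rat x) = D.lam (pP p) (D.rat (primeUnit (pP p))) ^ v *
      D.lam (pP p) (D.rat D.c) ^ (s : ℤ) * w ^ (p ^ n) := by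
    conv_lhs => rw [hxdecomp]
    rw [map_mul, map_mul, map_mul, map_mul, map_zpow, map_zpow, map_zpow, map_zpow, hwy]
  have hχp := D.recipB_isChar (pP p) n
  have hσp : ∃ σ ∈ (⊤ : Subgroup (Γ (pP p))), D.χ n (D.r (pP p) σ) = 1 :=
    ⟨τ₀, Subgroup.mem_top _, hτ₀⟩
  have hPnm : IsNm ⊤ (fun τ => D.χ n (D.r (pP p) τ)) (D.lam (pP p) (D.rat (primeUnit (pP p)))) := by
    have h := IsNm.loc (D.locMap (pP p)) (D.χ_char n).hom (D.p_norm n)
      ⟨τ₀, Subgroup.mem_top _, hτ₀⟩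
    rwa [Subgroup.comap_top] at h
  have hcfix := D.recipB_fix_lam (pP p) (D.rat_fix D.c)
  have hram := cyc_ram_eqv (D.LF (pP p)) hχp hσp hPnm
    (D.recipB_fix_lam (pP p) (D.rat_fix (primeUnit (pP p)))) hcfix hw v (s : ℤ)
  rw [← hlam] at hram
  have hg₁ : Eqv (𝒪' (pP p)) ⊤ D.g₁
      (cyc (fun τ => D.χ n (D.r (pP p) τ)) (D.lam (pP p) (D.rat D.c)) ^ (p ^ (n - 1))) := by
    have h := cyc_castPow_eqv p hn hχp hcfix
    have e : (fun g => ZMod.castHom (pow_dvd_pow p hn) (ZMod (p ^ 1)) (D.χ n (D.r (pP p) g))) =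
        fun τ => D.χ 1 (D.r (pP p) τ) := funext fun g => D.χ_cast 1 n hn _
    rw [e] at h
    exact h
  have hEpow : Cob₂ (𝒪' (pP p)) ⊤
      (cyc (fun τ => D.χ n (D.r (pP p) τ)) (D.lam (pP p) (D.rat D.c)) ^ (p ^ n)) :=
    cob_cyc_pow hχp hcfix
  have hs_cast : ((s : ℕ) : ZMod (p ^ n)) = D.Λ n x' := by
    rw [← D.Λ_cast n N hnN x', ZMod.castHom_apply, hs, ZMod.natCast_val]
  have hsum := D.Λ_eq_sum hp2 n x' hx' T hT'
  have hterm : ∀ q ∈ T.erase (pP p),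
      (padicValRat q (x' : ℚ) : ZMod (p ^ n)) * D.Λ n (primeUnit q) =
        (((p : ℤ) ^ (n - 1) * (if q = pP p then 0 else k q) : ℤ) : ZMod (p ^ n)) := by
    intro q hq
    have hqp : q ≠ pP p := Finset.ne_of_mem_erase hq
    rw [hx'q q hqp, if_neg hqp, ← hk1 q hqp]
    push_cast
    rw [ZMod.natCast_zmod_val]
    ring
  rw [Finset.sum_congr rfl hterm, ← Int.cast_sum, ← Finset.mul_sum, ← hK] at hsum
  have hmod : (s : ℤ) ≡ (p : ℤ) ^ (n - 1) * K [ZMOD ((p ^ n : ℕ) : ℤ)] := by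
    rw [← ZMod.intCast_eq_intCast_iff, Int.cast_natCast, hs_cast, hsum]
  have h3 := eqv_zpow_of_modEq hEpow hmod
  have h4 : Eqv (𝒪' (pP p)) ⊤ (D.g₁ ^ K)
      (cyc (fun τ => D.χ n (D.r (pP p) τ)) (D.lam (pP p) (D.rat D.c)) ^ ((p : ℤ) ^ (n - 1) * K)) := by
    have h := hg₁.zpow K
    rwa [← zpow_natCast, ← zpow_mul, Nat.cast_pow] at h
  have h5 := D.recipB_eqv_loc (pP p) hYb
  rw [recipB_locq_cyc] at h5
  exact (h5.trans hram).trans (h3.trans h4.symm)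

/-- **(R-abs-2)** a `p`-torsion class which is locally trivial outside a finite set `S` dies in some
layer of the cyclotomic `ℤ_p`-extension.
PROOF. Choose `n ≥ 1` with `Λ n q ≠ 0` for all `q ∈ S`, `q ≠ p` (`Λ_ne`, `Λ_cast`).
`V = ker χ_n` is normal in `G`.  ABHN on `V`: at the place `(q,γ)`,
`loc_{(q,γ)} Y = loc_q (conj γ Y) ~ loc_q Y` on `⊤` (`eqv_conj`), and `V.comap` is the same
(`comap_conjHom_of_normal`).  `q ∉ S`: trivial.  `q ∈ S`, `q ≠ p`: `loc_q Y ~ u_q^j` (`main_Y1`) and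
`u_q = 1` on `V.comap r_q` (`u_eq_one_on_ker`, `χ_unram`).  `q = p`: `cob_of_dvd_relIndex`,
the index of `V.comap r_p = ker (χ_n ∘ r_p)` is `p^n` (`relIndex_kerOn`, `χ_surj`). -/
theorem exists_split {Z : Subgroup G}
    (H : AbhnData p 𝒪 (fun i : Nat.Primes × G => 𝒪' i.1) D.rAll D.lamAll Z)
    {Y : G × G → A} (hY : IsZ2 𝒪 ⊤ Y) (hYp : Cob₂ 𝒪 ⊤ (Y ^ p)) (S : Finset Nat.Primes)
    (hS : ∀ q ∉ S, Cob₂ (𝒪' q) ⊤ (D.locq q Y)) :
    ∃ n, 1 ≤ n ∧ Cob₂ 𝒪 (kerOn ⊤ (D.χ n) (D.χ_char n).hom) Y := by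
  classical
  -- the level `n`
  obtain ⟨n, hn, hΛ⟩ : ∃ n, 1 ≤ n ∧ ∀ q ∈ S, q ≠ pP p → D.Λ n (primeUnit q) ≠ 0 := by
    choose! m hm using D.Λ_ne
    refine ⟨1 + ∑ q ∈ S, m q, Nat.le_add_right _ _, fun q hq hqp h0 => hm q hqp ?_⟩
    have hle : m q ≤ 1 + ∑ q ∈ S, m q :=
      (Finset.single_le_sum (f := m) (fun _ _ => Nat.zero_le _) hq).trans (Nat.le_add_left _ _)
    rw [← D.Λ_cast (m q) _ hle, h0, map_zero]
  refine ⟨n, hn, ?_⟩
  set V : Subgroup G := kerOn ⊤ (D.χ n) (D.χ_char n).hom with hVdef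
  have hV : 𝒪.isOpen V := isOpen_kerOn (D.χ_char n)
  have hVn : V.Normal :=
    ⟨fun v hv g => (normalIn_kerOn (D.χ_char n).hom).2 g (Subgroup.mem_top g) v hv⟩
  refine abhn H (hY.mono hV le_top) (hYp.mono hV le_top) ?_
  rintro ⟨q, γ⟩
  show Cob₂ (𝒪' q) (V.comap (conjHom (D.r q) γ)) (loc (conjHom (D.r q) γ) (conjLam (D.lam q) γ) Y)
  rw [loc_conj, comap_conjHom_of_normal]
  have hVq : (𝒪' q).isOpen (V.comap (D.r q)) := (D.locMap q).cont V hV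
  have e1 : Eqv (𝒪' q) ⊤ (loc (D.r q) (D.lam q) (conj γ Y)) (D.locq q Y) := by
    have := (D.locMap q).eqv (eqv_conj H.smooth hY (Subgroup.mem_top γ))
    rwa [Subgroup.comap_top] at this
  refine ((e1.mono hVq le_top).cob_iff).2 ?_
  have hZq : IsZ2 (𝒪' q) ⊤ (D.locq q Y) := by
    have := (D.locMap q).isZ2 hY
    rwa [Subgroup.comap_top] at this
  have hZqp : Cob₂ (𝒪' q) ⊤ (D.locq q Y ^ p) := by
    have := (D.locMap q).cob₂ hYp
    rwa [Subgroup.comap_top, loc_pow] at this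
  by_cases hqS : q ∈ S
  · by_cases hqp : q = pP p
    · subst hqp
      have hk := LocMap.kerOn_comap (D.r (pP p)) (D.χ_char n).hom
      have hp0 : NeZero (p ^ n) := ⟨pow_ne_zero _ (Fact.out : p.Prime).ne_zero⟩
      have hidx := relIndex_kerOn (LocMap.homOn (D.r (pP p)) (D.χ_char n).hom)
        (by
          obtain ⟨τ, hτ⟩ := D.χ_surj n
          exact ⟨τ, by simp, hτ⟩)
      rw [hk, Subgroup.comap_top] at hidx
      have hdvd : p ∣ (V.comap (D.r (pP p))).relIndex ⊤ := by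
        rw [hidx]
        exact dvd_pow_self p (by omega)
      first
        | exact cob_of_dvd_relIndex (D.LF (pP p)) hVq le_top hdvd hZq hZqp
        | exact cob_of_dvd_relIndex hVq le_top hdvd hZq hZqp
    · have hπ : Fix (⊤ : Subgroup (Γ q)) (D.lam q (D.rat (primeUnit q))) := by
        have := (D.locMap q).fix (D.rat_fix (primeUnit q))
        rwa [Subgroup.comap_top] at this
      have hπ1 : (D.LF q).ord ⊤ (D.lam q (D.rat (primeUnit q))) = 1 := by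
        rw [D.ord_rat]
        have : Fact (q : ℕ).Prime := ⟨q.2⟩
        have h := padicValRat.self (p := (q : ℕ)) q.2.one_lt
        simp [primeUnit]
      obtain ⟨j, hj⟩ := main_Y1 (D.LF q) hπ hπ1 hZq hZqp
      refine ((hj.mono hVq le_top).cob_iff).2 ((Cob₂.one hVq).congr ?_)
      intro g hg h hh
      have hg0 : D.Λ n (primeUnit q) * (D.LF q).nr ⊤ (p ^ n) g = 0 := by
        rw [← D.χ_unram n q hqp g]; exact hg.2
      have hh0 : D.Λ n (primeUnit q) * (D.LF q).nr ⊤ (p ^ n) h = 0 := by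
        rw [← D.χ_unram n q hqp h]; exact hh.2
      rw [Pi.one_apply, Pi.pow_apply,
        u_eq_one_on_ker (D.LF q) (𝒪' q).isOpen_top hn (hΛ q hqS hqp) _ (Subgroup.mem_top g)
          (Subgroup.mem_top h) hg0 hh0, one_pow]
  · exact (hS q hqS).mono hVq le_top

/-- **(R)**, abstract form. -/
theorem recip (hp2 : p ≠ 2) {Z : Subgroup G}
    (H : AbhnData p 𝒪 (fun i : Nat.Primes × G => 𝒪' i.1) D.rAll D.lamAll Z)
    {Y : G × G → A} (hY : IsZ2 𝒪 ⊤ Y) (hYp : Cob₂ 𝒪 ⊤ (Y ^ p)) (S : Finset Nat.Primes)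
    (hS : ∀ q ∉ S, Cob₂ (𝒪' q) ⊤ (D.locq q Y)) :
    ∃ k : Nat.Primes → ℤ,
      (∀ q, q ≠ pP p → Eqv (𝒪' q) ⊤ (D.locq q Y) (D.u q ^ k q)) ∧
      Eqv (𝒪' (pP p)) ⊤ (D.locq (pP p) Y) (D.g₁ ^ (∑ q ∈ S.erase (pP p), k q)) := by
  classical
  obtain ⟨n, hn, hsplit⟩ := D.exists_split H hY hYp S hS
  obtain ⟨T, k, h1, h2, h3⟩ := D.recip_of_split hp2 hn hY hYp hsplit
  refine ⟨k, h1, h3.trans (eqv_zpow_of_modEq D.cob_g₁_pow ?_)⟩
  have hdvd : ∀ q, q ≠ pP p → q ∉ S → (p : ℤ) ∣ k q := by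
    intro q hqp hqS
    have hc : Cob₂ (𝒪' q) ⊤ (D.u q ^ k q) := ((h1 q hqp).cob_iff).1 (hS q hqS)
    first
      | exact dvd_of_cob_zpow (D.cob_u_pow q) (D.not_cob_u q) hc
      | exact dvd_of_cob_zpow (D.LF q) (D.cob_u_pow q) (D.not_cob_u q) hc
  have e1 : ∑ q ∈ T.erase (pP p), k q = ∑ q ∈ (T ∪ S).erase (pP p), k q := by
    refine Finset.sum_subset (Finset.erase_subset_erase _ Finset.subset_union_left) ?_
    intro q _ hq
    by_cases hqT : q ∈ T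
    · exfalso
      apply hq
      rw [Finset.mem_erase] at *
      tauto
    · exact h2 q hqT
  have e2 : ∑ q ∈ (T ∪ S).erase (pP p) \ S.erase (pP p), k q + ∑ q ∈ S.erase (pP p), k q =
      ∑ q ∈ (T ∪ S).erase (pP p), k q :=
    Finset.sum_sdiff (Finset.erase_subset_erase _ Finset.subset_union_right)
  rw [e1, ← e2]
  have e3 : (p : ℤ) ∣ ∑ q ∈ (T ∪ S).erase (pP p) \ S.erase (pP p), k q := by
    refine Finset.dvd_sum fun q hq => ?_
    rw [Finset.mem_sdiff, Finset.mem_erase, Finset.mem_erase] at hq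
    exact hdvd q hq.1.1 (fun hqS => hq.2 ⟨hq.1.1, hqS⟩)
  refine Int.modEq_iff_dvd.2 ?_
  have e4 : ∑ q ∈ S.erase (pP p), k q -
      (∑ q ∈ (T ∪ S).erase (pP p) \ S.erase (pP p), k q + ∑ q ∈ S.erase (pP p), k q) =
      -(∑ q ∈ (T ∪ S).erase (pP p) \ S.erase (pP p), k q) := by ring
  rw [e4]
  exact (dvd_neg).2 e3

end RecipData

end Fermat.Agent.S55.BRG
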