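/-
S55 / BRG : the concrete global formation `(G_ℚ, ℚ̄ˣ)`, the local formations, the localisation maps.
-/
import Fermat.Agent.S55.BRG.RecipAbs
import Fermat.Agent.S55.LDB.KrullFF
import Fermat.Agent.S55.LDB.FinalA
import Fermat.Agent.S55.LOC.Amb.Formation
import Fermat.Agent.S55.SREF.Defs

set_option autoImplicit false
set_option linter.unusedSectionVars false

namespace Fermat.Agent.S55.BRG

open Fermat.Agent.S55.LDB
open Fermat.Agent.S55.SREF (Qb factPrimes)
open Fermat.Agent.S55.DIC (Gq)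

instance isAlgebraic_Qb : Algebra.IsAlgebraic ℚ Qb := AlgebraicClosure.isAlgebraic ℚ

/-- the open subgroups of `G_ℚ`. -/
noncomputable abbrev famG : OpenFam GQ := krullFam ℚ Qb

/-- the local Galois group at `q`. -/
abbrev Gam (q : Nat.Primes) : Type := Gq (q : ℕ)

/-- the open subgroups of the local Galois group. -/
noncomputable abbrev famL (q : Nat.Primes) : OpenFam (Gam q) := famQ (q : ℕ)

/-- the local module. -/
abbrev Bq (q : Nat.Primes) : Type := (PadicAlgCl (q : ℕ))ˣ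

/-- `r_q : G_{ℚ_q} → G_ℚ`. -/
noncomputable def rq (q : Nat.Primes) : Gam q →* GQ := localGaloisToGlobal (q : ℕ)

/-- `ℚ̄ˣ → Ω_qˣ`. -/
noncomputable def lamq (q : Nat.Primes) : Qbˣ →* Bq q :=
  Units.map ((padicEmbedding (q : ℕ) : Qb →ₐ[ℚ] PadicAlgCl (q : ℕ)) : Qb →* PadicAlgCl (q : ℕ))

theorem coe_lamq (q : Nat.Primes) (a : Qbˣ) :
    ((lamq q a : Bq q) : PadicAlgCl (q : ℕ)) = padicEmbedding (q : ℕ) (a : Qb) := rfl

/-- [`cont`: `U ⊇ K.fixingSubgroup`; `DIC.localGaloisToGlobal_mem_fixingSubgroup_iff` identifies the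
preimage of `K.fixingSubgroup` with `(locF q (embOf q K 1)).fixingSubgroup`, finite dimensional by
DIC/Dense1.  `equiv`: `padicEmbedding_localGaloisToGlobal`.] -/
theorem locMap_q (q : Nat.Primes) : LocMap famG (famL q) (rq q) (lamq q) := by
  refine ⟨?_, ?_⟩
  · rintro U ⟨E, hE, hEU⟩
    have : NumberField E := { to_charZero := inferInstance, to_finiteDimensional := hE }
    refine ⟨DIC.locF (q : ℕ) (DIC.embOf (q : ℕ) E 1), inferInstance, fun τ hτ => ?_⟩
    rw [Subgroup.mem_comap]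
    exact hEU ((DIC.localGaloisToGlobal_mem_fixingSubgroup_iff E τ).2 hτ)
  · intro τ a
    exact Units.ext (padicEmbedding_localGaloisToGlobal (q : ℕ) τ (a : Qb))

/-- `ℚˣ → ℚ̄ˣ`. -/
noncomputable def ratQ : ℚˣ →* Qbˣ := Units.map (algebraMap ℚ Qb : ℚ →* Qb)

theorem ratQ_fix (x : ℚˣ) : Fix (⊤ : Subgroup GQ) (ratQ x) := by
  intro g _
  exact Units.ext (g.commutes (x : ℚ))

/-- the fixed field of `G_ℚ` is `ℚ` (`fix_iff_mem_fixedField`, `InfiniteGalois` / `IsGalois`). -/
theorem ratQ_surj (b : Qbˣ) (hb : Fix (⊤ : Subgroup GQ) b) : ∃ x, ratQ x = b := by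
  have hG := Krull_isGalois ℚ Qb
  have h1 : (b : Qb) ∈ IntermediateField.fixedField (⊤ : Subgroup GQ) :=
    fix_iff_mem_fixedField.1 hb
  rw [InfiniteGalois.fixedField_bot, IntermediateField.mem_bot] at h1
  obtain ⟨r, hr⟩ := h1
  have hr0 : r ≠ 0 := by
    rintro rfl
    exact b.ne_zero (by rw [← hr, map_zero])
  exact ⟨Units.mk0 r hr0, Units.ext hr⟩

theorem coe_lamq_ratQ (q : Nat.Primes) (x : ℚˣ) :
    ((lamq q (ratQ x) : Bq q) : PadicAlgCl (q : ℕ)) = (((x : ℚ)) : PadicAlgCl (q : ℕ)) := by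
  rw [coe_lamq]
  change padicEmbedding (q : ℕ) (algebraMap ℚ Qb (x : ℚ)) = _
  rw [AlgHom.commutes, eq_ratCast]

variable (p : ℕ) [Fact p.Prime]

theorem exists_zetaG : ∃ ζ : Qbˣ, IsPrimitiveRoot ζ p := by
  have : NeZero p := ⟨(Fact.out : p.Prime).ne_zero⟩
  have : NeZero (p : Qb) := ⟨by exact_mod_cast (Fact.out : p.Prime).ne_zero⟩
  obtain ⟨ζ, hζ⟩ := IsAlgClosed.exists_root (Polynomial.cyclotomic p Qb)
    (by
      rw [Polynomial.degree_cyclotomic]
      exact_mod_cast (Nat.totient_pos.mpr (Fact.out : p.Prime).pos).ne')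
  have h1 : IsPrimitiveRoot ζ p := Polynomial.isRoot_cyclotomic_iff.mp hζ
  refine ⟨(h1.isUnit (Fact.out : p.Prime).ne_zero).unit, ?_⟩
  rw [← IsPrimitiveRoot.coe_units_iff]
  exact h1

/-- a primitive `p`-th root of unity of `ℚ̄`. -/
noncomputable def zetaG : Qbˣ := (exists_zetaG p).choose

theorem zetaG_spec : IsPrimitiveRoot (zetaG p) p := (exists_zetaG p).choose_spec

theorem lamq_zetaG_spec (q : Nat.Primes) : IsPrimitiveRoot (lamq q (zetaG p)) p := by
  refine (zetaG_spec p).map_of_injective (f := lamq q) ?_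
  intro a b hab
  have h1 : padicEmbedding (q : ℕ) (a : Qb) = padicEmbedding (q : ℕ) (b : Qb) :=
    congrArg Units.val hab
  exact Units.ext ((padicEmbedding (q : ℕ)).toRingHom.injective h1)

/-- the global field formation. -/
noncomputable def FFG : FieldFormation p famG Qbˣ := krullFF p (zetaG p) (zetaG_spec p)

/-- the local field formation, with `ζ` = the image of the global `ζ`. -/
noncomputable def FFL (q : Nat.Primes) : FieldFormation p (famL q) (Bq q) :=
  krullFF p (lamq q (zetaG p)) (lamq_zetaG_spec p q)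

/-- the local formation. -/
noncomputable def LFL (q : Nat.Primes) : LocalFormation p (famL q) (Bq q) :=
  LOC.localFormation p (FFL p q)

theorem LFL_ord (q : Nat.Primes) (U : Subgroup (Gam q)) (a : Bq q) :
    (LFL p q).ord U a = LOC.ordU U a := rfl

theorem LFL_nr (q : Nat.Primes) (U : Subgroup (Gam q)) (n : ℕ) (g : Gam q) :
    (LFL p q).nr U n g = LOC.nrU U n g := rfl

theorem LFL_exp (q : Nat.Primes) (x : ZMod p) :
    (LFL p q).toFieldFormation.exp x = lamq q ((FFG p).exp x) := by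
  change (lamq q (zetaG p)) ^ x.val = lamq q ((zetaG p) ^ x.val)
  rw [map_pow]

end Fermat.Agent.S55.BRG
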