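/-
S55 / BRG : the concrete family of all places `(q, γ)` and the Hasse norm theorem in the LDB language
(bridge to `INEQ.hasse_norm_theorem`).
-/
import Fermat.Agent.S55.BRG.Conc
import Fermat.Agent.S55.DIC.NB.Export

set_option autoImplicit false
set_option linter.unusedSectionVars false

namespace Fermat.Agent.S55.BRG

open Fermat.Agent.S55.LDB
open Fermat.Agent.S55.SREF (Qb factPrimes)

/-- the localisation homomorphism at the place `(q, γ)`: `τ ↦ γ r_q(τ) γ⁻¹`
(= `SREF.locHom q γ`). -/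
noncomputable abbrev rAll (i : Nat.Primes × GQ) : Gam i.1 →* GQ := conjHom (rq i.1) i.2

/-- the embedding at the place `(q, γ)`: `a ↦ ι_q (γ⁻¹ a)` (= `Units.map (SREF.locEmb q γ)`). -/
noncomputable abbrev lamAll (i : Nat.Primes × GQ) : Qbˣ →* Bq i.1 := conjLam (lamq i.1) i.2

variable (p : ℕ) [Fact p.Prime]

/-- `Z = Gal(ℚ̄/ℚ(ζ_p))`. -/
noncomputable def Zp : Subgroup GQ :=
  (IntermediateField.adjoin ℚ {((zetaG p : Qbˣ) : Qb)}).fixingSubgroup

theorem mem_Zp_iff (σ : GQ) : σ ∈ Zp p ↔ σ ((zetaG p : Qbˣ) : Qb) = ((zetaG p : Qbˣ) : Qb) := by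
  rw [Zp, IntermediateField.mem_fixingSubgroup_iff]
  constructor
  · intro h
    exact h _ (IntermediateField.mem_adjoin_simple_self ℚ _)
  · intro h x hx
    induction hx using IntermediateField.adjoin_induction with
    | mem y hy => rw [Set.mem_singleton_iff.1 hy]; exact h
    | algebraMap c => exact σ.commutes c
    | add a b _ _ ha hb => rw [map_add, ha, hb]
    | inv a _ ha => rw [map_inv₀, ha]
    | mul a b _ _ ha hb => rw [map_mul, ha, hb]

theorem Zp_normal : (Zp p).Normal := by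
  refine ⟨fun g hg σ => ?_⟩
  rw [mem_Zp_iff] at hg ⊢
  have hz : IsPrimitiveRoot ((zetaG p : Qbˣ) : Qb) p :=
    IsPrimitiveRoot.coe_units_iff.2 (zetaG_spec p)
  have h1 : (σ⁻¹ ((zetaG p : Qbˣ) : Qb)) ^ p = 1 := by
    rw [← map_pow, hz.pow_eq_one, map_one]
  obtain ⟨i, -, hi⟩ := hz.eq_pow_of_pow_eq_one h1
  show σ (g (σ⁻¹ ((zetaG p : Qbˣ) : Qb))) = _
  rw [← hi, map_pow, hg, hi]
  exact σ.apply_symm_apply _

theorem Zp_isOpen : famG.isOpen (Zp p) := by
  have hint : IsIntegral ℚ ((zetaG p : Qbˣ) : Qb) :=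
    (Algebra.IsAlgebraic.isAlgebraic _).isIntegral
  have : FiniteDimensional ℚ (IntermediateField.adjoin ℚ {((zetaG p : Qbˣ) : Qb)}) :=
    IntermediateField.adjoin.finiteDimensional hint
  exact isOpen_fixingSubgroup _

/-- `[ℚ(ζ_p):ℚ] ≤ p - 1 < p` (`LDB.index_fixingSubgroup`; the minimal polynomial divides
`Φ_p` / `(X^p - 1)/(X - 1)`). -/
theorem Zp_coprime : Nat.Coprime (Zp p).index p := by
  have hp : p.Prime := Fact.out
  have hz : IsPrimitiveRoot ((zetaG p : Qbˣ) : Qb) p :=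
    IsPrimitiveRoot.coe_units_iff.2 (zetaG_spec p)
  have hint : IsIntegral ℚ ((zetaG p : Qbˣ) : Qb) :=
    (Algebra.IsAlgebraic.isAlgebraic _).isIntegral
  have : FiniteDimensional ℚ (IntermediateField.adjoin ℚ {((zetaG p : Qbˣ) : Qb)}) :=
    IntermediateField.adjoin.finiteDimensional hint
  have h1 : (Zp p).index = p - 1 := by
    rw [Zp, index_fixingSubgroup, IntermediateField.adjoin.finrank hint,
      ← Polynomial.cyclotomic_eq_minpoly_rat hz hp.pos, Polynomial.natDegree_cyclotomic,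
      Nat.totient_prime hp]
  rw [h1]
  refine ((Nat.Prime.coprime_iff_not_dvd hp).2 ?_).symm
  exact Nat.not_dvd_of_pos_of_lt (Nat.sub_pos_of_lt hp.one_lt) (Nat.sub_lt hp.pos Nat.one_pos)

private theorem Hnt_rAll_eq (q : ℕ) [hq : Fact q.Prime] (γ : GQ) :
    rAll (⟨q, hq.out⟩, γ) = DIC.NB.locHom q γ := rfl

private theorem Hnt_lamAll_eq (q : ℕ) [hq : Fact q.Prime] (γ : GQ) (b : Qbˣ) :
    lamAll (⟨q, hq.out⟩, γ) b = DIC.NB.locEmbU q γ b := by
  apply Units.ext
  rfl

/-- **(HNT)** in the LDB language.  `U ≤ Z` open, `F` = fixed field of `U` (contains `ζ_p`),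
`ψ : U ↠ ZMod p`, `E` = fixed field of `ker ψ`, `b ∈ Fˣ`.  If for every place `(q,γ)` either `ψ` is
trivial on the decomposition group or `ι_q (γ⁻¹ b)` is a norm from `E_w`, then `b ∈ N(Eˣ)`. -/
theorem hnt_conc (hp2 : p ≠ 2) : HNT (A := Qbˣ) rAll lamAll p famG (Zp p) := by
  intro U hU hUZ ψ hψ hσ b hb hloc
  have hKopen : famG.isOpen (kerOn U ψ hψ.hom) := isOpen_kerOn hψ
  have hF : FiniteDimensional ℚ (IntermediateField.fixedField U) := finiteDimensional_fixedField hU
  have hE : FiniteDimensional ℚ (IntermediateField.fixedField (kerOn U ψ hψ.hom)) :=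
    finiteDimensional_fixedField hKopen
  have hUeq : (IntermediateField.fixedField U).fixingSubgroup = U :=
    fixingSubgroup_fixedField_of_isOpen hU
  have hKeq : (IntermediateField.fixedField (kerOn U ψ hψ.hom)).fixingSubgroup =
      kerOn U ψ hψ.hom := fixingSubgroup_fixedField_of_isOpen hKopen
  have hFE : IntermediateField.fixedField U ≤ IntermediateField.fixedField (kerOn U ψ hψ.hom) :=
    IntermediateField.fixedField_antitone (fun g hg => hg.1)
  have hζ : IsPrimitiveRoot ((zetaG p : Qbˣ) : Qb) p :=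
    IsPrimitiveRoot.coe_units_iff.mpr (zetaG_spec p)
  have hζF : ((zetaG p : Qbˣ) : Qb) ∈ IntermediateField.fixedField U := by
    rw [IntermediateField.mem_fixedField_iff]
    intro g hg
    exact (mem_Zp_iff p g).mp (hUZ hg)
  have key := DIC.NB.hnt hp2 (IntermediateField.fixedField U)
    (IntermediateField.fixedField (kerOn U ψ hψ.hom)) hFE _ hζ hζF ψ
    (by rw [hUeq]; exact hψ.hom)
    (by
      rw [hUeq, hKeq]
      intro g hg
      rw [mem_kerOn]
      exact ⟨fun h => ⟨hg, h⟩, fun h => h.2⟩)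
    (by rw [hUeq]; exact hσ) b (fix_iff_mem_fixedField.mp hb)
    (by
      intro q hq γ
      rw [hUeq]
      have h := hloc (⟨q, hq.out⟩, γ)
      rw [Hnt_lamAll_eq, Hnt_rAll_eq] at h
      exact h)
  rw [hUeq] at key
  exact key

/-- the data for the abstract ABHN theorem. -/
theorem abhnData (hp2 : p ≠ 2) :
    AbhnData p famG (fun i : Nat.Primes × GQ => famL i.1) rAll lamAll (Zp p) where
  smooth := smoothMod_krull
  h90 := h90_krull
  smooth' := fun _ => smoothMod_krull
  h90' := fun _ => h90_krull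
  locMap := fun i => (locMap_q i.1).conj i.2
  normal := Zp_normal p
  isOpen := Zp_isOpen p
  coprime := Zp_coprime p
  hnt := hnt_conc p hp2

/-- **(ABHN)**, concrete, LDB language. -/
theorem abhn_conc (hp2 : p ≠ 2) {U : Subgroup GQ} {f : GQ × GQ → Qbˣ} (hf : IsZ2 famG U f)
    (hfp : Cob₂ famG U (f ^ p))
    (hl : LocTriv (fun i : Nat.Primes × GQ => famL i.1) rAll lamAll U f) : Cob₂ famG U f :=
  abhn (abhnData p hp2) hf hfp hl

end Fermat.Agent.S55.BRG
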