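/-
S55 / BRG : the homomorphisms `λ_n : (ℤ/p^(n+1))ˣ → ℤ/p^n` (projection to the `p`-part, normalised
by `λ_n (1+p) = 1`), `p` odd.  Mathlib only.
-/
import Mathlib

set_option autoImplicit false

namespace Fermat.Agent.S55.BRG

variable (p : ℕ) [Fact p.Prime]

/-- `1 + p` as a unit modulo `p^(n+1)`. -/
def onePlusP (n : ℕ) : (ZMod (p ^ (n + 1)))ˣ :=
  ZMod.unitOfCoprime (1 + p) (by
    apply Nat.Coprime.pow_right
    rw [Nat.coprime_add_self_left]
    exact Nat.coprime_one_left p)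

theorem coe_onePlusP (n : ℕ) : ((onePlusP p n : (ZMod (p ^ (n + 1)))ˣ) : ZMod (p ^ (n + 1))) = 1 + p := by
  simp [onePlusP]

/-- `Mathlib: ZMod.orderOf_one_add_prime`. -/
theorem orderOf_onePlusP (hp2 : p ≠ 2) (n : ℕ) : orderOf (onePlusP p n) = p ^ n := by
  rw [← orderOf_injective _ Units.coeHom_injective (onePlusP p n), Units.coeHom_apply,
    coe_onePlusP]
  exact ZMod.orderOf_one_add_prime Fact.out hp2 n

theorem Lambda_coprime (n : ℕ) : Nat.Coprime (p ^ n) (p - 1) := by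
  apply Nat.Coprime.pow_left
  rw [Nat.coprime_self_sub_right (Fact.out : p.Prime).pos]
  simp

theorem Lambda_key (hp2 : p ≠ 2) (n a b : ℕ) :
    onePlusP p n ^ ((p - 1) * a) = onePlusP p n ^ ((p - 1) * b) ↔
      (a : ZMod (p ^ n)) = (b : ZMod (p ^ n)) := by
  rw [pow_eq_pow_iff_modEq, orderOf_onePlusP p hp2, ZMod.natCast_eq_natCast_iff]
  constructor
  · intro h
    exact Nat.ModEq.cancel_left_of_coprime (Lambda_coprime p n) h
  · intro h
    exact h.mul_left _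

theorem Lambda_pow_mem (hp2 : p ≠ 2) (n : ℕ) (x : (ZMod (p ^ (n + 1)))ˣ) :
    x ^ (p - 1) ∈ Subgroup.zpowers (onePlusP p n) := by
  have h1 : (Subgroup.zpowers (onePlusP p n)).index = p - 1 := by
    have h2 := Subgroup.card_mul_index (Subgroup.zpowers (onePlusP p n))
    rw [Nat.card_zpowers, orderOf_onePlusP p hp2, Nat.card_eq_fintype_card,
      ZMod.card_units_eq_totient, Nat.totient_prime_pow_succ Fact.out] at h2
    exact Nat.eq_of_mul_eq_mul_left (pow_pos (Fact.out : p.Prime).pos n) h2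
  rw [← h1]
  exact Subgroup.pow_index_mem _ x

/-- for every unit `x` there is a unique `s mod p^n` with `x^(p-1) = (1+p)^((p-1) s)`.
[the group has order `(p-1) p^n`; `x^(p-1)` is killed by `p^n`; the elements killed by `p^n` form a
subgroup of order `p^n` (cyclic group `ZMod.isCyclic_units_of_prime_pow`, or Sylow) containing
`⟨1+p⟩`, which has order `p^n`; `p-1` is invertible mod `p^n`.] -/
theorem existsUnique_lam (hp2 : p ≠ 2) (n : ℕ) (x : (ZMod (p ^ (n + 1)))ˣ) :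
    ∃! s : ZMod (p ^ n), x ^ (p - 1) = onePlusP p n ^ ((p - 1) * s.val) := by
  have : NeZero (p ^ n) := ⟨(pow_pos (Fact.out : p.Prime).pos n).ne'⟩
  obtain ⟨k, hk⟩ := (mem_powers_iff_mem_zpowers.mpr (Lambda_pow_mem p hp2 n x))
  have hk' : onePlusP p n ^ k = x ^ (p - 1) := hk
  -- solve `(p - 1) * s = k` modulo `p ^ n`
  have hu : IsUnit (((p - 1 : ℕ) : ZMod (p ^ n))) :=
    (ZMod.isUnit_iff_coprime _ _).mpr (Lambda_coprime p n).symm
  obtain ⟨v, hv⟩ := hu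
  refine ⟨(↑v⁻¹ : ZMod (p ^ n)) * k, ?_, ?_⟩
  · show x ^ (p - 1) = _
    rw [← hk', pow_eq_pow_iff_modEq, orderOf_onePlusP p hp2, ← ZMod.natCast_eq_natCast_iff]
    rw [Nat.cast_mul, ZMod.natCast_zmod_val, ← hv, ← mul_assoc, Units.mul_inv, one_mul]
  · intro s hs
    have hs' : x ^ (p - 1) = onePlusP p n ^ ((p - 1) * s.val) := hs
    rw [← hk', pow_eq_pow_iff_modEq, orderOf_onePlusP p hp2, ← ZMod.natCast_eq_natCast_iff,
      Nat.cast_mul, ZMod.natCast_zmod_val, ← hv] at hs'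
    rw [hs', ← mul_assoc, Units.inv_mul, one_mul]

open Classical in
/-- `λ_n` as a function. -/
noncomputable def lamU (n : ℕ) (x : (ZMod (p ^ (n + 1)))ˣ) : ZMod (p ^ n) :=
  if h : ∃ s : ZMod (p ^ n), x ^ (p - 1) = onePlusP p n ^ ((p - 1) * s.val) then h.choose else 0

variable {p}

theorem lamU_spec (hp2 : p ≠ 2) (n : ℕ) (x : (ZMod (p ^ (n + 1)))ˣ) :
    x ^ (p - 1) = onePlusP p n ^ ((p - 1) * (lamU p n x).val) := by
  have h := (existsUnique_lam p hp2 n x).exists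
  unfold lamU
  rw [dif_pos h]
  exact h.choose_spec

theorem lamU_eq (hp2 : p ≠ 2) (n : ℕ) {x : (ZMod (p ^ (n + 1)))ˣ} {k : ℕ}
    (h : x ^ (p - 1) = onePlusP p n ^ ((p - 1) * k)) : lamU p n x = (k : ZMod (p ^ n)) := by
  have : NeZero (p ^ n) := ⟨(pow_pos (Fact.out : p.Prime).pos n).ne'⟩
  have h1 := (Lambda_key p hp2 n _ _).mp ((lamU_spec hp2 n x).symm.trans h)
  rwa [ZMod.natCast_zmod_val] at h1

theorem lamU_mul (hp2 : p ≠ 2) (n : ℕ) (x y : (ZMod (p ^ (n + 1)))ˣ) :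
    lamU p n (x * y) = lamU p n x + lamU p n y := by
  have : NeZero (p ^ n) := ⟨(pow_pos (Fact.out : p.Prime).pos n).ne'⟩
  have h : (x * y) ^ (p - 1) =
      onePlusP p n ^ ((p - 1) * ((lamU p n x).val + (lamU p n y).val)) := by
    rw [mul_pow, lamU_spec hp2 n x, lamU_spec hp2 n y, ← pow_add, mul_add]
  rw [lamU_eq hp2 n h, Nat.cast_add, ZMod.natCast_zmod_val, ZMod.natCast_zmod_val]

theorem lamU_onePlusP (hp2 : p ≠ 2) (n : ℕ) : lamU p n (onePlusP p n) = 1 := by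
  have h : onePlusP p n ^ (p - 1) = onePlusP p n ^ ((p - 1) * 1) := by rw [mul_one]
  rw [lamU_eq hp2 n h, Nat.cast_one]

theorem lamU_eq_zero_iff (hp2 : p ≠ 2) (n : ℕ) (x : (ZMod (p ^ (n + 1)))ˣ) :
    lamU p n x = 0 ↔ x ^ (p - 1) = 1 := by
  constructor
  · intro h
    rw [lamU_spec hp2 n x, h, ZMod.val_zero, mul_zero, pow_zero]
  · intro h
    have h' : x ^ (p - 1) = onePlusP p n ^ ((p - 1) * 0) := by rw [h, mul_zero, pow_zero]
    rw [lamU_eq hp2 n h', Nat.cast_zero]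

/-- compatibility with the reductions. -/
theorem lamU_cast (hp2 : p ≠ 2) {a n : ℕ} (h : a ≤ n) (x : (ZMod (p ^ (n + 1)))ˣ) :
    ZMod.castHom (pow_dvd_pow p h) (ZMod (p ^ a)) (lamU p n x) =
      lamU p a (ZMod.unitsMap (pow_dvd_pow p (Nat.succ_le_succ h)) x) := by
  have : NeZero (p ^ n) := ⟨(pow_pos (Fact.out : p.Prime).pos n).ne'⟩
  have hu : ZMod.unitsMap (pow_dvd_pow p (Nat.succ_le_succ h)) (onePlusP p n) = onePlusP p a := by
    apply Units.ext
    rw [ZMod.unitsMap_def, Units.coe_map, coe_onePlusP, coe_onePlusP]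
    show ZMod.castHom (pow_dvd_pow p (Nat.succ_le_succ h)) (ZMod (p ^ (a + 1)))
      (1 + (p : ZMod (p ^ (n + 1)))) = _
    rw [map_add, map_one, map_natCast]
  have h1 := congrArg (ZMod.unitsMap (pow_dvd_pow p (Nat.succ_le_succ h))) (lamU_spec hp2 n x)
  rw [map_pow, map_pow, hu] at h1
  rw [lamU_eq hp2 a h1, ZMod.castHom_apply, ZMod.natCast_val]

variable (p)

/-- `λ_n` as a homomorphism. -/
noncomputable def lamHom (hp2 : p ≠ 2) (n : ℕ) :
    (ZMod (p ^ (n + 1)))ˣ →* Multiplicative (ZMod (p ^ n)) where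
  toFun x := Multiplicative.ofAdd (lamU p n x)
  map_one' := by
    have h := lamU_mul hp2 n 1 1
    rw [mul_one] at h
    have h0 : lamU p n 1 = 0 := by simpa using h
    rw [h0]; rfl
  map_mul' x y := by rw [lamU_mul hp2]; rfl

variable {p}

/-- a natural number `m > 1` prime to `p` has `λ_n m ≠ 0` for `n` large (`m^(p-1) ≠ 1`). -/
theorem exists_lamU_ne_zero (hp2 : p ≠ 2) {m : ℕ} (hm : 1 < m) (hmp : Nat.Coprime m p) :
    ∃ n, lamU p n (ZMod.unitOfCoprime m (Nat.Coprime.pow_right _ hmp)) ≠ 0 := by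
  have hp : p.Prime := Fact.out
  refine ⟨m ^ (p - 1), fun h0 => ?_⟩
  rw [lamU_eq_zero_iff hp2] at h0
  have h1 := congrArg (fun u : (ZMod (p ^ (m ^ (p - 1) + 1)))ˣ =>
    (u : ZMod (p ^ (m ^ (p - 1) + 1)))) h0
  simp only [Units.val_pow_eq_pow_val, ZMod.coe_unitOfCoprime, Units.val_one] at h1
  have h2 : ((m ^ (p - 1) : ℕ) : ZMod (p ^ (m ^ (p - 1) + 1))) = ((1 : ℕ) : ZMod _) := by
    rw [Nat.cast_pow, h1, Nat.cast_one]
  rw [ZMod.natCast_eq_natCast_iff] at h2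
  have h3 : m ^ (p - 1) < p ^ (m ^ (p - 1) + 1) :=
    lt_trans (Nat.lt_succ_self _) (Nat.lt_pow_self hp.one_lt)
  have h4 : 1 < m ^ (p - 1) := Nat.one_lt_pow (Nat.sub_ne_zero_of_lt hp.one_lt) hm
  have h5 := Nat.ModEq.eq_of_lt_of_lt h2 h3 (lt_trans h4 h3)
  omega

end Fermat.Agent.S55.BRG
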