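/-
S55 / BRG : `Λ_n` on the `p`-adic units of `ℚ`, and the `p`-adic analysis at `p`.
Mathlib only (+ Lambda.lean).
-/
import Fermat.Agent.S55.BRG.Lambda

set_option autoImplicit false

namespace Fermat.Agent.S55.BRG

variable (p : ℕ) [Fact p.Prime]

open Classical in
/-- a rational `p`-adic unit as an element of `ℤ_pˣ` (junk `1` otherwise). -/
noncomputable def zpOf (x : ℚˣ) : ℤ_[p]ˣ :=
  if h : ‖(((x : ℚ) : ℚ_[p]))‖ = 1 then PadicInt.mkUnits h else 1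

/-- `Λ_n` on `ℤ_pˣ`. -/
noncomputable def lamZp (n : ℕ) (u : ℤ_[p]ˣ) : ZMod (p ^ n) :=
  lamU p n (Units.map (PadicInt.toZModPow (n + 1)).toMonoidHom u)

/-- `Λ_n` on `ℚˣ` (meaningful on `p`-adic units). -/
noncomputable def LamQ (n : ℕ) (x : ℚˣ) : ZMod (p ^ n) := lamZp p n (zpOf p x)

variable {p}

theorem norm_eq_one_iff (x : ℚˣ) : ‖(((x : ℚ) : ℚ_[p]))‖ = 1 ↔ padicValRat p (x : ℚ) = 0 := by
  have hx : ((x : ℚ) : ℚ_[p]) ≠ 0 := by exact_mod_cast x.ne_zero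
  have hp1 : (1 : ℝ) < p := by exact_mod_cast (Fact.out : p.Prime).one_lt
  rw [Padic.norm_eq_zpow_neg_valuation hx, Padic.valuation_ratCast]
  constructor
  · intro h
    have := (zpow_eq_one_iff_right₀ (by positivity) hp1.ne').mp h
    omega
  · intro h
    rw [h]; simp

theorem coe_zpOf {x : ℚˣ} (hx : padicValRat p (x : ℚ) = 0) :
    (((zpOf p x : ℤ_[p]ˣ) : ℤ_[p]) : ℚ_[p]) = ((x : ℚ) : ℚ_[p]) := by
  have h := (norm_eq_one_iff (p := p) x).mpr hx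
  rw [zpOf, dif_pos h]
  rfl

theorem zpOf_mul {x y : ℚˣ} (hx : padicValRat p (x : ℚ) = 0) (hy : padicValRat p (y : ℚ) = 0) :
    zpOf p (x * y) = zpOf p x * zpOf p y := by
  have hxy : padicValRat p ((x * y : ℚˣ) : ℚ) = 0 := by
    rw [Units.val_mul, padicValRat.mul x.ne_zero y.ne_zero, hx, hy, add_zero]
  apply Units.ext
  apply PadicInt.ext
  rw [coe_zpOf hxy, Units.val_mul, Units.val_mul, PadicInt.coe_mul, coe_zpOf hx, coe_zpOf hy]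
  push_cast
  rfl

theorem lamZp_mul (hp2 : p ≠ 2) (n : ℕ) (u v : ℤ_[p]ˣ) :
    lamZp p n (u * v) = lamZp p n u + lamZp p n v := by
  rw [lamZp, map_mul, lamU_mul hp2]
  rfl

theorem lamZp_cast (hp2 : p ≠ 2) {a n : ℕ} (h : a ≤ n) (u : ℤ_[p]ˣ) :
    ZMod.castHom (pow_dvd_pow p h) (ZMod (p ^ a)) (lamZp p n u) = lamZp p a u := by
  rw [lamZp, lamU_cast hp2 h, lamZp]
  congr 1
  apply Units.ext
  rw [ZMod.unitsMap_def, Units.coe_map, Units.coe_map, Units.coe_map]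
  show ZMod.castHom (pow_dvd_pow p (Nat.succ_le_succ h)) (ZMod (p ^ (a + 1)))
    (PadicInt.toZModPow (n + 1) (u : ℤ_[p])) = PadicInt.toZModPow (a + 1) (u : ℤ_[p])
  have := PadicInt.zmod_cast_comp_toZModPow (p := p) (a + 1) (n + 1) (Nat.succ_le_succ h)
  exact DFunLike.congr_fun this (u : ℤ_[p])

theorem LamQ_mul (hp2 : p ≠ 2) (n : ℕ) (x y : ℚˣ) (hx : padicValRat p (x : ℚ) = 0)
    (hy : padicValRat p (y : ℚ) = 0) : LamQ p n (x * y) = LamQ p n x + LamQ p n y := by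
  rw [LamQ, zpOf_mul hx hy, lamZp_mul hp2]; rfl

theorem LamQ_cast (hp2 : p ≠ 2) {a n : ℕ} (h : a ≤ n) (x : ℚˣ) :
    ZMod.castHom (pow_dvd_pow p h) (ZMod (p ^ a)) (LamQ p n x) = LamQ p a x :=
  lamZp_cast hp2 h _

/-- `Λ_n` of a natural number prime to `p`. -/
theorem LamQ_natCast (n : ℕ) {m : ℕ} (hm : Nat.Coprime m p) (x : ℚˣ) (hx : (x : ℚ) = m) :
    LamQ p n x = lamU p n (ZMod.unitOfCoprime m (Nat.Coprime.pow_right _ hm)) := by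
  have hval : padicValRat p (x : ℚ) = 0 := by
    rw [hx, padicValRat.of_nat, Nat.cast_eq_zero]
    apply padicValNat.eq_zero_of_not_dvd
    intro hdvd
    have := Nat.Coprime.eq_one_of_dvd hm.symm hdvd
    exact (Fact.out : p.Prime).one_lt.ne' this
  have hz : ((zpOf p x : ℤ_[p]ˣ) : ℤ_[p]) = (m : ℤ_[p]) := by
    apply PadicInt.ext
    rw [coe_zpOf hval, hx]
    push_cast
    rfl
  rw [LamQ, lamZp]
  congr 1
  apply Units.ext
  rw [Units.coe_map, ZMod.coe_unitOfCoprime]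
  show PadicInt.toZModPow (n + 1) ((zpOf p x : ℤ_[p]ˣ) : ℤ_[p]) = _
  rw [hz, map_natCast]

variable (p) in
/-- the element `c = 1 + p`. -/
def cQ : ℚˣ := Units.mk0 ((1 + p : ℕ) : ℚ) (by positivity)

theorem cQ_unit : padicValRat p ((cQ p : ℚˣ) : ℚ) = 0 := by
  show padicValRat p ((1 + p : ℕ) : ℚ) = 0
  rw [padicValRat.of_nat, Nat.cast_eq_zero]
  apply padicValNat.eq_zero_of_not_dvd
  intro hdvd
  have h1 : p ∣ 1 := (Nat.dvd_add_left (dvd_refl p)).mp hdvd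
  exact (Fact.out : p.Prime).one_lt.ne' (Nat.dvd_one.mp h1)

theorem LamQ_cQ (hp2 : p ≠ 2) (n : ℕ) : LamQ p n (cQ p) = 1 := by
  have hm : Nat.Coprime (1 + p) p := by
    rw [Nat.coprime_add_self_left]
    exact Nat.coprime_one_left p
  rw [LamQ_natCast n hm (cQ p) rfl]
  exact lamU_onePlusP hp2 n

/-- Hensel: `u ≡ 1 mod p^(2n+1)` is a `p^n`-th power in `ℤ_p`.  [Mathlib `hensels_lemma` for
`X^(p^n) - u` at `a = 1`: `‖F(1)‖ ≤ p^-(2n+1) < ‖p^n‖² = ‖F'(1)‖²`.] -/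
theorem exists_pow_eq_of_toZModPow_eq_one (n : ℕ) (u : ℤ_[p])
    (hu : PadicInt.toZModPow (2 * n + 1) u = 1) : ∃ w : ℤ_[p], w ^ (p ^ n) = u := by
  have hp1 : (1 : ℝ) < p := by exact_mod_cast (Fact.out : p.Prime).one_lt
  have hmem : (1 - u) ∈ (Ideal.span {(p : ℤ_[p]) ^ (2 * n + 1)} : Ideal ℤ_[p]) := by
    rw [← PadicInt.ker_toZModPow, RingHom.mem_ker, map_sub, map_one, hu, sub_self]
  have hnorm1 : ‖1 - u‖ ≤ (p : ℝ) ^ (-((2 * n + 1 : ℕ) : ℤ)) :=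
    (PadicInt.norm_le_pow_iff_mem_span_pow _ _).mpr hmem
  let F : Polynomial ℤ_[p] := Polynomial.X ^ (p ^ n) - Polynomial.C u
  have hF1 : Polynomial.aeval (1 : ℤ_[p]) F = 1 - u := by
    simp [F]
  have hF' : Polynomial.aeval (1 : ℤ_[p]) (Polynomial.derivative F) = (p : ℤ_[p]) ^ n := by
    simp [F, Polynomial.derivative_X_pow]
  have hlt : ‖Polynomial.aeval (1 : ℤ_[p]) F‖ <
      ‖Polynomial.aeval (1 : ℤ_[p]) (Polynomial.derivative F)‖ ^ 2 := by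
    rw [hF1, hF', PadicInt.norm_p_pow]
    refine lt_of_le_of_lt hnorm1 ?_
    rw [← zpow_natCast ((p : ℝ) ^ (-(n : ℤ))) 2, ← zpow_mul]
    apply zpow_lt_zpow_right₀ hp1
    push_cast
    omega
  obtain ⟨z, hz, -⟩ := hensels_lemma hlt
  refine ⟨z, ?_⟩
  have : z ^ (p ^ n) - u = 0 := by simpa [F] using hz
  exact sub_eq_zero.mp this

/-- units killed by `Λ_{2n}` are `p^n`-th powers.  [`u^(p-1) ≡ 1 mod p^(2n+1)`
(`lamU_eq_zero_iff`), so `u^(p-1) = w₁^(p^n)`; Bezout `a (p-1) + b p^n = 1` in `ℤ`: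
`u = (w₁^a u^b)^(p^n)`.] -/
theorem exists_pow_eq_of_lamZp_eq_zero (hp2 : p ≠ 2) (n : ℕ) (u : ℤ_[p]ˣ)
    (hu : lamZp p (2 * n) u = 0) : ∃ w : ℤ_[p]ˣ, w ^ (p ^ n) = u := by
  have hp : p.Prime := Fact.out
  rw [lamZp, lamU_eq_zero_iff hp2] at hu
  have h1 : PadicInt.toZModPow (2 * n + 1) ((u : ℤ_[p]) ^ (p - 1)) = 1 := by
    have := congrArg (fun x : (ZMod (p ^ (2 * n + 1)))ˣ => (x : ZMod (p ^ (2 * n + 1)))) hu
    simpa using this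
  obtain ⟨w₁, hw₁⟩ := exists_pow_eq_of_toZModPow_eq_one n _ h1
  have hw₁u : IsUnit w₁ := by
    have : IsUnit (w₁ ^ (p ^ n)) := by
      rw [hw₁]
      exact (u ^ (p - 1)).isUnit
    exact (isUnit_pow_iff (pow_ne_zero _ hp.ne_zero)).mp this
  obtain ⟨W, rfl⟩ := hw₁u
  have hW : W ^ (p ^ n) = u ^ (p - 1) := by
    apply Units.ext
    rw [Units.val_pow_eq_pow_val, Units.val_pow_eq_pow_val]
    exact hw₁
  have hcop : IsCoprime ((p - 1 : ℕ) : ℤ) ((p ^ n : ℕ) : ℤ) := by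
    rw [Nat.isCoprime_iff_coprime]
    apply Nat.Coprime.pow_right
    have := (Nat.coprime_self_sub_right (n := p) (m := 1) hp.one_lt.le).mpr (Nat.coprime_one_right p)
    exact this.symm
  obtain ⟨a, b, hab⟩ := hcop
  refine ⟨W ^ a * u ^ b, ?_⟩
  calc (W ^ a * u ^ b) ^ (p ^ n) = (W ^ (p ^ n)) ^ a * u ^ (b * ((p ^ n : ℕ) : ℤ)) := by
        rw [mul_pow, ← zpow_natCast (W ^ a), ← zpow_mul, ← zpow_natCast (u ^ b), ← zpow_mul,
          ← zpow_natCast W, ← zpow_mul, mul_comm a]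
    _ = u ^ (a * ((p - 1 : ℕ) : ℤ) + b * ((p ^ n : ℕ) : ℤ)) := by
        rw [hW, zpow_add, ← zpow_natCast u (p - 1), ← zpow_mul, mul_comm a]
    _ = u := by rw [hab, zpow_one]

/-- the form used in `RecipData.pow_of_Λ`. -/
theorem exists_padic_pow_eq (hp2 : p ≠ 2) (n : ℕ) (x : ℚˣ) (hx : padicValRat p (x : ℚ) = 0)
    (h : LamQ p (2 * n) x = 0) : ∃ w : ℚ_[p], w ≠ 0 ∧ ((x : ℚ) : ℚ_[p]) = w ^ (p ^ n) := by
  obtain ⟨w, hw⟩ := exists_pow_eq_of_lamZp_eq_zero hp2 n (zpOf p x) h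
  refine ⟨((w : ℤ_[p]) : ℚ_[p]), ?_, ?_⟩
  · intro h0
    have : (w : ℤ_[p]) = 0 := Subtype.ext h0
    exact w.ne_zero this
  · rw [← coe_zpOf hx, ← hw]
    push_cast
    rfl

/-- the form used in `RecipData.dense`: `ℚ_pˣ = ℚˣ · (ℚ_pˣ)^p`.  [`b = p^v u`, `u ∈ ℤ_pˣ`; choose
`m ∈ ℕ` with `m ≡ u mod p^3` (`PadicInt.appr` / `toZModPow` surjective); `u / m ≡ 1 mod p^3` is a
`p`-th power.] -/
theorem exists_rat_mul_pow (b : ℚ_[p]) (hb : b ≠ 0) :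
    ∃ (x : ℚˣ) (w : ℚ_[p]), w ≠ 0 ∧ b = ((x : ℚ) : ℚ_[p]) * w ^ p := by
  have hp : p.Prime := Fact.out
  have hpQ : (p : ℚ_[p]) ≠ 0 := by exact_mod_cast hp.ne_zero
  have hpR : (p : ℝ) ≠ 0 := by exact_mod_cast hp.ne_zero
  set v : ℤ := b.valuation with hv
  have hnb : ‖b‖ = (p : ℝ) ^ (-v) := Padic.norm_eq_zpow_neg_valuation hb
  have hu1 : ‖b * (p : ℚ_[p]) ^ (-v)‖ = 1 := by
    rw [norm_mul, hnb, Padic.norm_p_zpow, neg_neg, ← zpow_add₀ hpR]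
    simp
  set u : ℤ_[p]ˣ := PadicInt.mkUnits hu1 with hu
  have hucoe : (((u : ℤ_[p]ˣ) : ℤ_[p]) : ℚ_[p]) = b * (p : ℚ_[p]) ^ (-v) := PadicInt.mkUnits_eq hu1
  set m : ℕ := PadicInt.appr (u : ℤ_[p]) 3 with hm
  have hmem : (u : ℤ_[p]) - (m : ℤ_[p]) ∈ (Ideal.span {(p : ℤ_[p]) ^ 3} : Ideal ℤ_[p]) :=
    PadicInt.appr_spec 3 _
  have hz : PadicInt.toZModPow 3 (u : ℤ_[p]) = PadicInt.toZModPow 3 (m : ℤ_[p]) := by
    rw [← PadicInt.ker_toZModPow, RingHom.mem_ker, map_sub] at hmem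
    exact sub_eq_zero.mp hmem
  -- `m` is a unit of `ℤ_p`
  have hmU : IsUnit (m : ℤ_[p]) := by
    rw [PadicInt.isUnit_iff]
    have h1 : ‖(u : ℤ_[p]) - (m : ℤ_[p])‖ < 1 := by
      have := (PadicInt.norm_le_pow_iff_mem_span_pow _ _).mpr hmem
      refine lt_of_le_of_lt this ?_
      apply zpow_lt_one_of_neg₀
      · exact_mod_cast hp.one_lt
      · norm_num
    have h2 : ‖(u : ℤ_[p])‖ = 1 := PadicInt.isUnit_iff.mp u.isUnit
    have h3 : ‖(m : ℤ_[p])‖ = ‖(u : ℤ_[p]) - ((u : ℤ_[p]) - (m : ℤ_[p]))‖ := by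
      congr 1
      ring
    rw [h3]
    have hne : ‖(u : ℤ_[p])‖ ≠ ‖-((u : ℤ_[p]) - (m : ℤ_[p]))‖ := by
      rw [norm_neg, h2]
      exact h1.ne'
    rw [sub_eq_add_neg, PadicInt.norm_add_eq_max_of_ne hne, norm_neg, h2]
    exact max_eq_left h1.le
  obtain ⟨mI, hmI⟩ := hmU
  have hone : PadicInt.toZModPow (2 * 1 + 1) (((u * mI⁻¹ : ℤ_[p]ˣ) : ℤ_[p])) = 1 := by
    show PadicInt.toZModPow 3 (((u * mI⁻¹ : ℤ_[p]ˣ) : ℤ_[p])) = 1
    rw [Units.val_mul, map_mul, hz, ← hmI, ← map_mul, ← Units.val_mul, mul_inv_cancel,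
      Units.val_one, map_one]
  obtain ⟨w, hw⟩ := exists_pow_eq_of_toZModPow_eq_one 1 _ hone
  rw [pow_one] at hw
  have hm0 : (m : ℚ) ≠ 0 := by
    intro h0
    have : m = 0 := by exact_mod_cast h0
    rw [this] at hmI
    exact mI.ne_zero (by simp at hmI)
  have hpQ' : (p : ℚ) ≠ 0 := by exact_mod_cast hp.ne_zero
  have hw0 : w ≠ 0 := by
    intro h0
    rw [h0, zero_pow hp.ne_zero] at hw
    exact (u * mI⁻¹).ne_zero hw.symm
  refine ⟨Units.mk0 ((p : ℚ) ^ v * m) (mul_ne_zero (zpow_ne_zero _ hpQ') hm0), (w : ℚ_[p]), ?_, ?_⟩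
  · intro h0
    exact hw0 (Subtype.ext h0)
  · have hu' : (u : ℤ_[p]) = (m : ℤ_[p]) * w ^ p := by
      rw [hw, ← hmI, ← Units.val_mul]
      congr 1
      rw [mul_comm u, mul_inv_cancel_left]
    have hb' : b = (p : ℚ_[p]) ^ v * (((u : ℤ_[p]ˣ) : ℤ_[p]) : ℚ_[p]) := by
      rw [hucoe, mul_comm b, ← mul_assoc, ← zpow_add₀ hpQ]
      simp
    rw [hb', hu', Units.val_mk0]
    push_cast
    ring

end Fermat.Agent.S55.BRG
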