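/-
S55 / BRG : the cyclotomic characters `cycN p n : G_ℚ → (ℤ/p^(n+1))ˣ` and the characters
`chiN p n = λ_n ∘ cycN p n : G_ℚ → ℤ/p^n` of the cyclotomic `ℤ_p`-extension.
-/
import Fermat.Agent.S55.BRG.Conc
import Fermat.Agent.S55.BRG.LamQ

set_option autoImplicit false
set_option linter.unusedSectionVars false

namespace Fermat.Agent.S55.BRG

open Fermat.Agent.S55.LDB
open Fermat.Agent.S55.SREF (Qb factPrimes)

variable (p : ℕ) [Fact p.Prime]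

instance CycloChar_neZero (m : ℕ) : NeZero (p ^ m) := ⟨pow_ne_zero _ (Fact.out : p.Prime).ne_zero⟩

theorem CycloChar_exists_prim (m : ℕ) : ∃ ζ : Qb, IsPrimitiveRoot ζ (p ^ m) :=
  HasEnoughRootsOfUnity.exists_primitiveRoot _ _

theorem exists_cycN (n : ℕ) : ∃ c : GQ →* (ZMod (p ^ (n + 1)))ˣ,
    ∀ (σ : GQ) (t : Qb), t ^ (p ^ (n + 1)) = 1 → σ t = t ^ ((c σ : ZMod (p ^ (n + 1)))).val := by
  obtain ⟨ζ, hζ⟩ := CycloChar_exists_prim p (n + 1)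
  refine ⟨hζ.autToPow ℚ, fun σ t ht => ?_⟩
  obtain ⟨i, -, rfl⟩ := hζ.eq_pow_of_pow_eq_one ht
  rw [map_pow, ← hζ.autToPow_spec ℚ σ, ← pow_mul, ← pow_mul, mul_comm]

/-- the cyclotomic character modulo `p^(n+1)` (Mathlib `modularCyclotomicCharacter`). -/
noncomputable def cycN (n : ℕ) : GQ →* (ZMod (p ^ (n + 1)))ˣ := (exists_cycN p n).choose

theorem cycN_spec (n : ℕ) (σ : GQ) (t : Qb) (ht : t ^ (p ^ (n + 1)) = 1) :
    σ t = t ^ ((cycN p n σ : ZMod (p ^ (n + 1)))).val := (exists_cycN p n).choose_spec σ t ht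

/-- uniqueness. -/
theorem cycN_eq (n : ℕ) (σ : GQ) (c : (ZMod (p ^ (n + 1)))ˣ)
    (h : ∀ t : Qb, t ^ (p ^ (n + 1)) = 1 → σ t = t ^ ((c : ZMod (p ^ (n + 1)))).val) :
    cycN p n σ = c := by
  obtain ⟨ζ, hζ⟩ := CycloChar_exists_prim p (n + 1)
  have h1 := cycN_spec p n σ ζ hζ.pow_eq_one
  rw [h ζ hζ.pow_eq_one] at h1
  exact Units.ext (ZMod.val_injective _ (hζ.pow_inj (ZMod.val_lt _) (ZMod.val_lt _) h1)).symm

theorem cycN_unitsMap {a n : ℕ} (h : a ≤ n) (σ : GQ) :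
    ZMod.unitsMap (pow_dvd_pow p (Nat.succ_le_succ h)) (cycN p n σ) = cycN p a σ := by
  symm
  refine cycN_eq p a σ _ fun t ht => ?_
  have hdvd : p ^ (a + 1) ∣ p ^ (n + 1) := pow_dvd_pow p (Nat.succ_le_succ h)
  have ht' : t ^ (p ^ (n + 1)) = 1 := by
    obtain ⟨k, hk⟩ := hdvd
    rw [hk, pow_mul, ht, one_pow]
  rw [cycN_spec p n σ t ht', ZMod.unitsMap_val, ZMod.cast_eq_val, ZMod.val_natCast]
  exact pow_eq_pow_mod _ ht

/-- `cycN p n` is trivial on `Gal(ℚ̄/ℚ(ζ_{p^(n+1)}))`. -/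
theorem exists_level_cycN (n : ℕ) : ∃ E : IntermediateField ℚ Qb, FiniteDimensional ℚ E ∧
    ∀ s ∈ E.fixingSubgroup, cycN p n s = 1 := by
  obtain ⟨ζ, hζ⟩ := CycloChar_exists_prim p (n + 1)
  refine ⟨IntermediateField.adjoin ℚ {ζ}, IntermediateField.adjoin.finiteDimensional
    (Algebra.IsIntegral.isIntegral ζ), fun s hs => cycN_eq p n s 1 fun t ht => ?_⟩
  have h1 : s ζ = ζ := (IntermediateField.mem_fixingSubgroup_iff _ s).mp hs ζ
    (IntermediateField.mem_adjoin_simple_self ℚ ζ)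
  have hN : p ^ (n + 1) ≠ 1 := (Nat.one_lt_pow (Nat.succ_ne_zero n) (Fact.out : p.Prime).one_lt).ne'
  obtain ⟨i, -, rfl⟩ := hζ.eq_pow_of_pow_eq_one ht
  rw [map_pow, h1, Units.val_one, ZMod.val_one'' hN, pow_one]

/-- the characters of the cyclotomic `ℤ_p`-extension. -/
noncomputable def chiN (n : ℕ) (σ : GQ) : ZMod (p ^ n) := lamU p n (cycN p n σ)

variable {p}

theorem chiN_char (hp2 : p ≠ 2) (n : ℕ) : IsChar famG ⊤ (chiN p n) := by
  have hhom : ∀ g h : GQ, chiN p n (g * h) = chiN p n g + chiN p n h := by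
    intro g h
    unfold chiN
    rw [map_mul, lamU_mul hp2]
  refine ⟨fun g _ h _ => hhom g h, ?_⟩
  obtain ⟨E, hE, hEs⟩ := exists_level_cycN p n
  refine ⟨E.fixingSubgroup, isOpen_fixingSubgroup E, le_top, fun g _ s hs => ?_⟩
  unfold chiN
  rw [map_mul, hEs s hs, mul_one]

theorem chiN_cast (hp2 : p ≠ 2) (a n : ℕ) (h : a ≤ n) (g : GQ) :
    ZMod.castHom (pow_dvd_pow p h) (ZMod (p ^ a)) (chiN p n g) = chiN p a g := by
  rw [chiN, lamU_cast hp2 h, cycN_unitsMap p h]; rfl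

/-- the local cyclotomic character: `cycN p n (r_q τ)` computes the action of `τ` on `μ_{p^(n+1)}(Ω_q)`.
[every root of unity of `Ω_q` is `padicEmbedding` of one of `ℚ̄` (both have exactly `p^(n+1)` roots of
`X^(p^(n+1)) - 1`, the embedding is injective); `padicEmbedding_localGaloisToGlobal`.] -/
theorem cycN_rq_spec (n : ℕ) (q : Nat.Primes) (τ : Gam q) (t : PadicAlgCl (q : ℕ))
    (ht : t ^ (p ^ (n + 1)) = 1) :
    τ t = t ^ ((cycN p n (rq q τ) : ZMod (p ^ (n + 1)))).val := by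
  obtain ⟨ζ, hζ⟩ := CycloChar_exists_prim p (n + 1)
  have hζ' : IsPrimitiveRoot (padicEmbedding (q : ℕ) ζ) (p ^ (n + 1)) :=
    hζ.map_of_injective (padicEmbedding (q : ℕ)).toRingHom.injective
  obtain ⟨i, -, rfl⟩ := hζ'.eq_pow_of_pow_eq_one ht
  have h1 : τ (padicEmbedding (q : ℕ) ζ) =
      padicEmbedding (q : ℕ) ζ ^ ((cycN p n (rq q τ) : ZMod (p ^ (n + 1)))).val := by
    rw [← padicEmbedding_localGaloisToGlobal, ← map_pow]
    congr 1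
    exact cycN_spec p n (rq q τ) ζ hζ.pow_eq_one
  rw [map_pow, h1, ← pow_mul, ← pow_mul, mul_comm]

theorem isNmP_lamU_one (hp2 : p ≠ 2) (n : ℕ) : lamU p n 1 = 0 := by
  have h := lamU_mul hp2 n 1 1
  rw [mul_one] at h
  simpa using h

theorem isNmP_lamU_pow (hp2 : p ≠ 2) (n : ℕ) (c : (ZMod (p ^ (n + 1)))ˣ) (i : ℕ) :
    lamU p n (c ^ i) = i * lamU p n c := by
  induction i with
  | zero => simp [isNmP_lamU_one hp2]
  | succ k ih => rw [pow_succ, lamU_mul hp2, ih]; push_cast; ring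

theorem isNmP_lamU_inv (hp2 : p ≠ 2) (n : ℕ) (c : (ZMod (p ^ (n + 1)))ˣ) :
    lamU p n c⁻¹ = - lamU p n c := by
  have h := lamU_mul hp2 n c c⁻¹
  rw [mul_inv_cancel, isNmP_lamU_one hp2] at h
  exact eq_neg_of_add_eq_zero_right h.symm


open Classical in
theorem isNmP_prod {M : Type*} [CommMonoid M] (hp2 : p ≠ 2) (n : ℕ) (c : (ZMod (p ^ (n + 1)))ˣ)
    (hc : lamU p n c = 1) (F : (ZMod (p ^ (n + 1)))ˣ → M) :
    ∏ i ∈ Finset.range (p ^ n), ∏ δ ∈ Finset.univ.filter (fun δ => lamU p n δ = 0), F (c ^ i * δ)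
      = ∏ a, F a := by
  rw [← Finset.prod_product']
  refine Finset.prod_bij (fun x _ => c ^ x.1 * x.2) (fun _ _ => Finset.mem_univ _) ?_ ?_
    (fun _ _ => rfl)
  · rintro ⟨i, δ⟩ h1 ⟨j, δ'⟩ h2 h
    simp only [Finset.mem_product, Finset.mem_range, Finset.mem_filter, Finset.mem_univ,
      true_and] at h1 h2 h
    have h3 := congrArg (lamU p n) h
    rw [lamU_mul hp2, lamU_mul hp2, h1.2, h2.2, isNmP_lamU_pow hp2, isNmP_lamU_pow hp2, hc,
      add_zero, add_zero, mul_one, mul_one, ZMod.natCast_eq_natCast_iff'] at h3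
    rw [Nat.mod_eq_of_lt h1.1, Nat.mod_eq_of_lt h2.1] at h3
    subst h3
    rw [mul_left_cancel h]
  · intro a _
    refine ⟨((lamU p n a).val, (c ^ (lamU p n a).val)⁻¹ * a), ?_, ?_⟩
    · simp only [Finset.mem_product, Finset.mem_range, Finset.mem_filter, Finset.mem_univ,
        true_and]
      refine ⟨ZMod.val_lt _, ?_⟩
      rw [lamU_mul hp2, isNmP_lamU_inv hp2, isNmP_lamU_pow hp2, hc, mul_one,
        ZMod.natCast_zmod_val, neg_add_cancel]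
    · simp

open Classical in
theorem isNmP_prod_shift {M : Type*} [CommMonoid M] (hp2 : p ≠ 2) (n : ℕ)
    (c : (ZMod (p ^ (n + 1)))ˣ) (hc : lamU p n c = 0) (F : (ZMod (p ^ (n + 1)))ˣ → M) :
    ∏ δ ∈ Finset.univ.filter (fun δ => lamU p n δ = 0), F (c * δ)
      = ∏ δ ∈ Finset.univ.filter (fun δ => lamU p n δ = 0), F δ := by
  refine Finset.prod_bij (fun x _ => c * x) ?_ ?_ ?_ (fun _ _ => rfl)
  · intro a ha
    simp only [Finset.mem_filter, Finset.mem_univ, true_and] at ha ⊢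
    rw [lamU_mul hp2, hc, ha, add_zero]
  · intro a _ b _ h
    exact mul_left_cancel h
  · intro a ha
    simp only [Finset.mem_filter, Finset.mem_univ, true_and] at ha
    refine ⟨c⁻¹ * a, ?_, by simp⟩
    simp only [Finset.mem_filter, Finset.mem_univ, true_and]
    rw [lamU_mul hp2, isNmP_lamU_inv hp2, hc, ha, neg_zero, add_zero]

/-- `∏_{a ∈ (ℤ/p^(n+1))ˣ} (1 - ζ^a) = p`. -/
theorem isNmP_prod_one_sub (n : ℕ) (ζ : Qb) (hζ : IsPrimitiveRoot ζ (p ^ (n + 1))) :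
    ∏ a : (ZMod (p ^ (n + 1)))ˣ, (1 - ζ ^ ((a : ZMod (p ^ (n + 1)))).val) = (p : Qb) := by
  have h1 : (Polynomial.cyclotomic (p ^ (n + 1)) Qb).eval 1 = (p : Qb) :=
    Polynomial.eval_one_cyclotomic_prime_pow n
  rw [← h1, Polynomial.cyclotomic_eq_prod_X_sub_primitiveRoots hζ, Polynomial.eval_prod]
  refine Finset.prod_bij (fun a _ => ζ ^ ((a : ZMod (p ^ (n + 1)))).val) ?_ ?_ ?_ ?_
  · intro a _
    rw [mem_primitiveRoots (pow_pos (Fact.out : p.Prime).pos _)]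
    exact hζ.pow_of_coprime _ (ZMod.val_coe_unit_coprime a)
  · intro a _ b _ h
    have := hζ.pow_inj (ZMod.val_lt _) (ZMod.val_lt _) h
    exact Units.ext (ZMod.val_injective _ this)
  · intro μ hμ
    rw [mem_primitiveRoots (pow_pos (Fact.out : p.Prime).pos _)] at hμ
    obtain ⟨i, hi, hcop, rfl⟩ := hζ.isPrimitiveRoot_iff.1 hμ
    refine ⟨ZMod.unitOfCoprime i hcop, Finset.mem_univ _, ?_⟩
    rw [ZMod.coe_unitOfCoprime, ZMod.val_natCast, Nat.mod_eq_of_lt hi]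
  · intro a _
    simp


theorem isNmP_one_sub_ne (n : ℕ) (ζ : Qb) (hζ : IsPrimitiveRoot ζ (p ^ (n + 1)))
    (a : (ZMod (p ^ (n + 1)))ˣ) : 1 - ζ ^ ((a : ZMod (p ^ (n + 1)))).val ≠ 0 := by
  intro h
  have h1 : IsPrimitiveRoot (ζ ^ ((a : ZMod (p ^ (n + 1)))).val) (p ^ (n + 1)) :=
    hζ.pow_of_coprime _ (ZMod.val_coe_unit_coprime a)
  have h2 : ζ ^ ((a : ZMod (p ^ (n + 1)))).val = 1 := (sub_eq_zero.1 h).symm
  have h3 : p ^ (n + 1) = 1 := by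
    rw [h2] at h1
    exact (h1.eq_orderOf.trans orderOf_one)
  have h4 : 1 < p ^ (n + 1) := Nat.one_lt_pow (Nat.succ_ne_zero n) (Fact.out : p.Prime).one_lt
  omega

/-- `1 - ζ^a` as a unit. -/
noncomputable def isNmP_F (n : ℕ) (ζ : Qb) (hζ : IsPrimitiveRoot ζ (p ^ (n + 1)))
    (a : (ZMod (p ^ (n + 1)))ˣ) : Qbˣ :=
  Units.mk0 (1 - ζ ^ ((a : ZMod (p ^ (n + 1)))).val) (isNmP_one_sub_ne n ζ hζ a)

theorem isNmP_smul_F (n : ℕ) (ζ : Qb) (hζ : IsPrimitiveRoot ζ (p ^ (n + 1)))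
    (a : (ZMod (p ^ (n + 1)))ˣ) (g : GQ) :
    g • isNmP_F n ζ hζ a = isNmP_F n ζ hζ (cycN p n g * a) := by
  apply Units.ext
  show g (1 - ζ ^ ((a : ZMod (p ^ (n + 1)))).val) = 1 - ζ ^ (((cycN p n g * a : (ZMod (p ^ (n + 1)))ˣ) : ZMod (p ^ (n + 1)))).val
  rw [map_sub, map_one, map_pow, cycN_spec p n g ζ hζ.pow_eq_one, ← pow_mul, Units.val_mul,
    ZMod.val_mul, ← pow_eq_pow_mod _ hζ.pow_eq_one]

/-- **`p` is a norm from the `n`-th layer.**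
PROOF. `ζ` a primitive `p^(n+1)`-th root of unity of `ℚ̄`, `Δ = {δ | lamU p n δ = 0}` (a finite
subgroup), `x = ∏_{δ ∈ Δ} (1 - ζ^δ)`, `σ` with `chiN p n σ = 1`, `c = cycN p n σ`.
`g ∈ ker`: `g x = ∏ (1 - ζ^(δ cyc g)) = x`.  `(i, δ) ↦ c^i δ` is a bijection
`[0,p^n) × Δ → (ℤ/p^(n+1))ˣ`, so `nrm σ (p^n) x = ∏_{a} (1 - ζ^a) = Φ_{p^(n+1)}(1) = p`
(`Polynomial.cyclotomic_eq_prod_X_sub_primitiveRoots`, `Polynomial.eval_one_cyclotomic_prime_pow`). -/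
theorem isNm_p (hp2 : p ≠ 2) (n : ℕ) (hσ : ∃ σ : GQ, chiN p n σ = 1) :
    IsNm ⊤ (chiN p n) (ratQ (primeUnit (pP p))) := by
  classical
  obtain ⟨σ, hσ⟩ := hσ
  obtain ⟨ζ, hζ⟩ : ∃ ζ : Qb, IsPrimitiveRoot ζ (p ^ (n + 1)) :=
    HasEnoughRootsOfUnity.exists_primitiveRoot Qb (p ^ (n + 1))
  refine ⟨σ, Subgroup.mem_top _, hσ,
    ∏ δ ∈ Finset.univ.filter (fun δ => lamU p n δ = 0), isNmP_F n ζ hζ δ, ?_, ?_⟩
  · intro g _ hg
    rw [Finset.smul_prod']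
    simp only [isNmP_smul_F]
    exact isNmP_prod_shift hp2 n _ hg _
  · unfold nrm
    simp only [Finset.smul_prod', isNmP_smul_F, map_pow]
    rw [isNmP_prod hp2 n _ hσ (isNmP_F n ζ hζ)]
    apply Units.ext
    rw [Units.coe_prod]
    show ∏ a : (ZMod (p ^ (n + 1)))ˣ, (1 - ζ ^ ((a : ZMod (p ^ (n + 1)))).val) = _
    rw [isNmP_prod_one_sub n ζ hζ]
    simp [ratQ, primeUnit, pP]

end Fermat.Agent.S55.BRG
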