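/-
S55 / BRG : the concrete `RecipData`.
-/
import Fermat.Agent.S55.BRG.CycloChar
import Fermat.Agent.S55.LOC.Cyc.Unram
import Fermat.Agent.S55.LOC.Cyc.Ram

set_option autoImplicit false
set_option linter.unusedSectionVars false

namespace Fermat.Agent.S55.BRG

open Fermat.Agent.S55.LDB
open Fermat.Agent.S55.SREF (Qb factPrimes)

variable {p : ℕ} [Fact p.Prime]

/-- (`LOC.ordU_top_of_eq_rat`, `coe_lamq_ratQ`) -/
theorem ord_ratQ (q : Nat.Primes) (x : ℚˣ) :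
    (LFL p q).ord ⊤ (lamq q (ratQ x)) = padicValRat q (x : ℚ) := by
  rw [LFL_ord]
  exact LOC.ordU_top_of_eq_rat _ _ (coe_lamq_ratQ q x)

/-- (`exists_lamU_ne_zero`, `LamQ_natCast`) -/
theorem LamQ_ne (hp2 : p ≠ 2) (q : Nat.Primes) (hq : q ≠ pP p) :
    ∃ n, LamQ p n (primeUnit q) ≠ 0 := by
  have hp : p.Prime := Fact.out
  have hne : (q : ℕ) ≠ p := fun h => hq (Subtype.ext h)
  have hcop : Nat.Coprime (q : ℕ) p := (Nat.coprime_primes q.2 hp).2 hne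
  obtain ⟨n, hn⟩ := exists_lamU_ne_zero hp2 q.2.one_lt hcop
  refine ⟨n, ?_⟩
  rw [LamQ_natCast n hcop (primeUnit q) rfl]
  exact hn

/-- (`LOC.lam_cyc_eq` with `lam = lamHom p hp2 n`, `c = cycN p n (rq q τ)` (`cycN_rq_spec`),
`qu = unitOfCoprime q`, `LamQ_natCast`) -/
theorem chiN_unram (hp2 : p ≠ 2) (n : ℕ) (q : Nat.Primes) (hq : q ≠ pP p) (τ : Gam q) :
    chiN p n (rq q τ) = LamQ p n (primeUnit q) * (LFL p q).nr ⊤ (p ^ n) τ := by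
  have hp : p.Prime := Fact.out
  have hne : (q : ℕ) ≠ p := fun h => hq (Subtype.ext h)
  have hcop : Nat.Coprime (q : ℕ) p := (Nat.coprime_primes q.2 hp).2 hne
  have h := LOC.lam_cyc_eq (q := (q : ℕ)) hp (Ne.symm hne) τ (lamHom p hp2 n)
    (cycN p n (rq q τ)) (cycN_rq_spec n q τ)
    (ZMod.unitOfCoprime (q : ℕ) (Nat.Coprime.pow_right _ hcop)) (ZMod.coe_unitOfCoprime _ _)
  rw [LamQ_natCast n hcop (primeUnit q) rfl, LFL_nr]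
  exact h

/-- (`LOC.exists_gal_root` with `a = onePlusP p n`, `cycN_eq`/`cycN_rq_spec`, `lamU_onePlusP`) -/
theorem chiN_surj (hp2 : p ≠ 2) (n : ℕ) : ∃ τ : Gam (pP p), chiN p n (rq (pP p) τ) = 1 := by
  have hp : p.Prime := Fact.out
  have hN : NeZero (p ^ (n + 1)) := ⟨pow_ne_zero _ hp.ne_zero⟩
  obtain ⟨τ, hτ⟩ := LOC.exists_gal_root (p := p) (n + 1) (onePlusP p n)
  refine ⟨τ, ?_⟩
  obtain ⟨ζ, hζ⟩ := HasEnoughRootsOfUnity.exists_primitiveRoot (PadicAlgCl p) (p ^ (n + 1))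
  have h1 := hτ ζ hζ.pow_eq_one
  have h2 := cycN_rq_spec (p := p) n (pP p) τ ζ hζ.pow_eq_one
  have h3 : ζ ^ ((cycN p n (rq (pP p) τ) : ZMod (p ^ (n + 1)))).val =
      ζ ^ ((onePlusP p n : (ZMod (p ^ (n + 1)))ˣ) : ZMod (p ^ (n + 1))).val := by
    rw [← h1]; exact h2.symm
  have h4 := hζ.pow_inj (ZMod.val_lt _) (ZMod.val_lt _) h3
  have h5 : cycN p n (rq (pP p) τ) = onePlusP p n := Units.ext (ZMod.val_injective _ h4)
  rw [chiN, h5, lamU_onePlusP hp2]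

theorem RecipConc_pow (n : ℕ) (x : ℚˣ) (w : ℚ_[p]) (hw0 : w ≠ 0)
    (hw : ((x : ℚ) : ℚ_[p]) = w ^ (p ^ n)) (a : (PadicAlgCl p)ˣ)
    (ha : (a : PadicAlgCl p) = ((x : ℚ) : PadicAlgCl p)) :
    ∃ W : (PadicAlgCl p)ˣ, Fix (⊤ : Subgroup (LOC.Gq p)) W ∧ a = W ^ (p ^ n) := by
  have hw0' : algebraMap ℚ_[p] (PadicAlgCl p) w ≠ 0 :=
    (map_ne_zero (algebraMap ℚ_[p] (PadicAlgCl p))).mpr hw0
  refine ⟨Units.mk0 (algebraMap ℚ_[p] (PadicAlgCl p) w) hw0', LOC.fix_top_iff.mpr ⟨w, rfl⟩, ?_⟩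
  apply Units.ext
  rw [ha, Units.val_pow_eq_pow_val, Units.val_mk0, ← map_pow, ← hw, map_ratCast]

/-- (`exists_padic_pow_eq`, `LOC.fix_top_iff`, `coe_lamq_ratQ`) -/
theorem pow_of_LamQ (hp2 : p ≠ 2) (n : ℕ) : ∃ N, n ≤ N ∧ ∀ x : ℚˣ, padicValRat p (x : ℚ) = 0 →
    LamQ p N x = 0 → ∃ w : Bq (pP p), Fix (⊤ : Subgroup (Gam (pP p))) w ∧
      lamq (pP p) (ratQ x) = w ^ (p ^ n) := by
  refine ⟨2 * n, by omega, fun x hx h => ?_⟩
  obtain ⟨w, hw0, hw⟩ := exists_padic_pow_eq hp2 n x hx h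
  exact RecipConc_pow n x w hw0 hw (lamq (pP p) (ratQ x)) (coe_lamq_ratQ (pP p) x)

theorem RecipConc_dense (b : (PadicAlgCl p)ˣ) (hb : Fix (⊤ : Subgroup (LOC.Gq p)) b) :
    ∃ (x : ℚˣ) (w : (PadicAlgCl p)ˣ), Fix (⊤ : Subgroup (LOC.Gq p)) w ∧
      (b : PadicAlgCl p) = ((x : ℚ) : PadicAlgCl p) * (w : PadicAlgCl p) ^ p := by
  obtain ⟨y, hy⟩ := LOC.fix_top_iff.mp hb
  have hy0 : y ≠ 0 := by
    rintro rfl
    rw [map_zero] at hy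
    exact b.ne_zero hy.symm
  obtain ⟨x, w, hw0, hw⟩ := exists_rat_mul_pow y hy0
  have hw0' : algebraMap ℚ_[p] (PadicAlgCl p) w ≠ 0 :=
    (map_ne_zero (algebraMap ℚ_[p] (PadicAlgCl p))).mpr hw0
  refine ⟨x, Units.mk0 (algebraMap ℚ_[p] (PadicAlgCl p) w) hw0', LOC.fix_top_iff.mpr ⟨w, rfl⟩, ?_⟩
  rw [Units.val_mk0, ← hy, hw, map_mul, map_pow, map_ratCast]

/-- (`exists_rat_mul_pow`, `LOC.fix_top_iff`) -/
theorem dense_p (b : Bq (pP p)) (hb : Fix (⊤ : Subgroup (Gam (pP p))) b) :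
    ∃ (x : ℚˣ) (w : Bq (pP p)), Fix (⊤ : Subgroup (Gam (pP p))) w ∧
      b = lamq (pP p) (ratQ x) * w ^ p := by
  obtain ⟨x, w, hw, h⟩ := RecipConc_dense (p := p) b hb
  refine ⟨x, w, hw, ?_⟩
  apply Units.ext
  rw [Units.val_mul, coe_lamq_ratQ]
  exact h

/-- **the concrete reciprocity data.** -/
noncomputable def recipData (hp2 : p ≠ 2) : RecipData p famG Qbˣ Gam famL Bq where
  FF := FFG p
  LF := LFL p
  r := rq
  lam := lamq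
  locMap := locMap_q
  rat := ratQ
  rat_fix := ratQ_fix
  rat_surj := ratQ_surj
  ord_rat := ord_ratQ
  χ := chiN p
  χ_char := chiN_char hp2
  χ_cast := chiN_cast hp2
  Λ := LamQ p
  Λ_mul := LamQ_mul hp2
  Λ_cast := fun _ _ h x => LamQ_cast hp2 h x
  c := cQ p
  c_unit := cQ_unit
  Λ_c := LamQ_cQ hp2
  Λ_ne := LamQ_ne hp2
  χ_unram := chiN_unram hp2
  χ_surj := chiN_surj hp2
  p_norm := fun n => isNm_p hp2 n (by obtain ⟨τ, hτ⟩ := chiN_surj hp2 n; exact ⟨_, hτ⟩)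
  pow_of_Λ := pow_of_LamQ hp2
  dense := dense_p

end Fermat.Agent.S55.BRG
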