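/-
S55 / BRG : (UNR) a `μ_p`-valued class inflated from an unramified layer is trivial
(abstract: in a `LocalFormation`).
-/
import Fermat.Agent.S55.BRG.Tower

set_option autoImplicit false
set_option linter.unusedSectionVars false

namespace Fermat.Agent.S55.BRG

open Fermat.Agent.S55.LDB

variable {G : Type*} [Group G] {𝒪 : OpenFam G} {A : Type*} [CommGroup A] [MulDistribMulAction G A]
  {U : Subgroup G} {p : ℕ} [Fact p.Prime] (L : LocalFormation p 𝒪 A)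

/-- `c(nr_N, b) ^ m ~ 1` when `ord b = 0`, `N = p^a m`. Hence: -/
theorem cob_cyc_nr_of_ord_eq_zero (hU : 𝒪.isOpen U) {N : ℕ} (hN : N ≠ 0) {b : A} (hb : Fix U b)
    (hord : L.ord U b = 0) (hp : Cob₂ 𝒪 U (cyc (L.nr U N) b ^ p)) :
    Cob₂ 𝒪 U (cyc (L.nr U N) b) := by
  have hpp : p.Prime := Fact.out
  obtain ⟨a, m, hm, rfl⟩ := Nat.exists_eq_pow_mul_and_not_dvd hN p hpp.ne_one
  have hm0 : m ≠ 0 := fun h => hm (h ▸ dvd_zero p)
  have h1 : Eqv 𝒪 U (cyc (L.nr U (p ^ a)) b) (cyc (L.nr U (p ^ a * m)) b ^ m) :=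
    u_mod L hU (pow_ne_zero a hpp.ne_zero) hm0 hb
  have h2 : Cob₂ 𝒪 U (cyc (L.nr U (p ^ a)) b) := by
    rw [cob_cyc_nr_iff L hU a hb, hord]
    exact dvd_zero _
  have h3 : Cob₂ 𝒪 U (cyc (L.nr U (p ^ a * m)) b ^ m) := h1.cob_iff.mp h2
  exact Cob₂.of_pow_coprime h3 hp ((Nat.Prime.coprime_iff_not_dvd hpp).mpr hm).symm

/-- **(UNR)**.  PROOF. Normalise `f (1,1) = 1` (divide by `dOne` of the constant cochain `f (1,1)`;
this keeps `Inflated` and `μ_p`-valued).  `eqv_cyc_of_inflated`: `f ~ c(nr_N, b)`,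
`b = ∏_{i<N} f (σ^i, σ)`, so `b^p = 1`, `ord b = 0` (`ord_eq_zero_of_pow_eq_one`).
`N = p^a m`, `p ∤ m`: `c(nr_N,b)^m ~ c(nr_{p^a}, b) ~ 1` (`u_mod`, `cob_cyc_nr_iff`), `f^p = 1`. -/
theorem unram_triv (hU : 𝒪.isOpen U) {N : ℕ} (hN : N ≠ 0) {f : G × G → A} (hf : IsZ2 𝒪 U f)
    (hinf : Inflated U (kerOn U (L.nr U N) (L.nr_char U hU N hN).hom) f)
    (hμ : ∀ g ∈ U, ∀ h ∈ U, f (g, h) ^ p = 1) : Cob₂ 𝒪 U f := by
  have hpp : p.Prime := Fact.out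
  haveI : NeZero N := ⟨hN⟩
  have hχ := L.nr_char U hU N hN
  have hnorm : NormalIn (kerOn U (L.nr U N) hχ.hom) U := normalIn_kerOn hχ.hom
  set c : A := f (1, 1) with hc
  have hcfix : Fix (kerOn U (L.nr U N) hχ.hom) c := hinf.2 1 U.one_mem 1 U.one_mem
  have hcp : c ^ p = 1 := hμ 1 U.one_mem 1 U.one_mem
  have hsm : Sm₁ 𝒪 U (fun _ : G => c) := Sm₁.const hU c
  have hd : ∀ g h : G, dOne (fun _ : G => c) (g, h) = g • c := by
    intro g h
    rw [dOne_apply, div_mul_cancel]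
  set f' : G × G → A := f / dOne (fun _ : G => c) with hf'
  have hf'a : ∀ g h : G, f' (g, h) = f (g, h) / g • c := by
    intro g h
    rw [hf', Pi.div_apply, hd]
  have hZ : IsZ2 𝒪 U f' := hf.div (IsZ2.dOne L.smoothMod hsm)
  have hinf' : Inflated U (kerOn U (L.nr U N) hχ.hom) f' := by
    refine ⟨?_, ?_⟩
    · intro g hg h hh v hv w hw
      rw [hf'a, hf'a, hinf.1 g hg h hh v hv w hw, mul_smul, hcfix v hv]
    · intro g hg h hh
      rw [hf'a]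
      exact (hinf.2 g hg h hh).div (hcfix.smul hnorm hg)
  have h11 : f' (1, 1) = 1 := by
    rw [hf'a, one_smul, div_self']
  have hμ' : ∀ g ∈ U, ∀ h ∈ U, f' (g, h) ^ p = 1 := by
    intro g hg h hh
    rw [hf'a, div_pow, hμ g hg h hh, ← smul_pow', hcp, smul_one, div_one]
  obtain ⟨σ, hσ, hσ1⟩ := L.nr_surj U hU N hN
  obtain ⟨hb, hE⟩ := eqv_cyc_of_inflated hχ hσ hσ1 hZ hinf' h11
  set b : A := ∏ i ∈ Finset.range N, f' (σ ^ i, σ) with hbdef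
  have hbp : b ^ p = 1 := by
    rw [hbdef, ← Finset.prod_pow]
    exact Finset.prod_eq_one fun i _ => hμ' _ (U.pow_mem hσ i) _ hσ
  have hord : L.ord U b = 0 := ord_eq_zero_of_pow_eq_one L hU hb hpp.ne_zero hbp
  have hcob : Cob₂ 𝒪 U (cyc (L.nr U N) b) := by
    apply cob_cyc_nr_of_ord_eq_zero L hU hN hb hord
    rw [← cyc_pow, hbp, cyc_one]
    exact Cob₂.one hU
  have h1 : Cob₂ 𝒪 U f' := hE.cob_iff.mpr hcob
  exact (Eqv.div_dOne hsm f).cob_iff.mpr h1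

end Fermat.Agent.S55.BRG
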