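/-
S55 / BRG : (UNR-conc) an `S`-level `μ_p`-valued class is locally trivial at every `q ∉ S`.
-/
import Fermat.Agent.S55.BRG.Conc
import Fermat.Agent.S55.BRG.Unram
import Fermat.Agent.S55.LDB.FinalB
import Fermat.Agent.S55.LDB.Dict2
import Fermat.Agent.S55.DIC.Unram
import Fermat.Agent.S55.LOC.Cyc.UnrKer
import Fermat.Agent.S55.T.Basic

set_option autoImplicit false
set_option linter.unusedSectionVars false

namespace Fermat.Agent.S55.BRG

open Fermat.Agent.S55.LDB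
open Fermat.Agent.S55.SREF (Qb factPrimes)
open Fermat.Agent.S55.DIC (Gq locF embOf)
open ExtCitation

variable (p : ℕ) [Fact p.Prime]

theorem UnrConc_loc_eq (q : Nat.Primes) (y : GQ × GQ → ZMod p) :
    loc (rq q) (lamq q) (fun x => (FFG p).exp (y x)) =
      fun x => (FFL p q).exp (ext₂ (MonoidHom.id (Gam q)) 0 (res2 (k := ZMod p) (rq q) y) x) := by
  funext x
  obtain ⟨a, b⟩ := x
  have h1 : ext₂ (MonoidHom.id (Gam q)) 0 (res2 (k := ZMod p) (rq q) y) (a, b) =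
      res2 (k := ZMod p) (rq q) y (a, b) :=
    ext₂_apply (ι := MonoidHom.id (Gam q)) (fun _ _ h => h) 0 _ a b
  rw [h1]
  exact (LFL_exp p q _).symm

theorem UnrConc_isZ2 (S : Finset Nat.Primes) (q : Nat.Primes) (y : GQ × GQ → ZMod p)
    (hy : y ∈ Z2 (levS S) (muRep p)) :
    IsZ2 (famL q) ⊤ (loc (rq q) (lamq q) (fun x => (FFG p).exp (y x))) := by
  rw [UnrConc_loc_eq]
  refine (mem_Z2_iff (compat_levQ (q : ℕ)) (muCompat_muQ (q : ℕ) p (FFL p q)) _).1 ?_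
  refine res2_mem_Z2 (𝒰 := levS S) (rq q) ?_ hy
  rintro _ ⟨F, hF, rfl⟩
  exact ⟨_, ⟨F, hF.1, rfl⟩, rfl⟩

variable {p}

/-- **(UNR-conc)** -/
theorem unr_conc (S : Finset Nat.Primes) (hpS : pP p ∈ S) {y : GQ × GQ → ZMod p}
    (hy : LC2 (levS S) y) (hY : IsZ2 famG ⊤ (fun x => (FFG p).exp (y x)))
    (q : Nat.Primes) (hq : q ∉ S) :
    Cob₂ (famL q) ⊤ (loc (rq q) (lamq q) (fun x => (FFG p).exp (y x))) := by
  have hpp : p.Prime := Fact.out
  -- a level `K ∋ ζ_p` of `y`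
  obtain ⟨U, hU, hyU⟩ := hy
  have hE₀ : (IntermediateField.adjoin ℚ {((zetaG p : Qbˣ) : Qb)}).IsUnramifiedOutside S := by
    refine DIC.isUnramifiedOutside_adjoin_rootOfUnity S p hpp.ne_zero ?_ _ ?_
    · intro ℓ hℓ
      have h1 : (ℓ : ℕ) = p := (Nat.prime_dvd_prime_iff_eq ℓ.2 hpp).1 hℓ
      have h2 : ℓ = pP p := Subtype.ext h1
      rw [h2]; exact hpS
    · have := congrArg Units.val (zetaG_spec p).pow_eq_one
      rwa [Units.val_pow_eq_pow_val, Units.val_one] at this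
  obtain ⟨W, ⟨K, hK, rfl⟩, hWU, hWE⟩ := (levS S).directed U hU _ ⟨_, hE₀, rfl⟩
  have : NumberField K := DIC.unram3_numberField K hK.1
  set F : LOC.LF (q : ℕ) := locF (q : ℕ) (embOf (q : ℕ) K 1) with hF
  have hunr : ∀ z ∈ F, z ≠ 0 → ∃ n : ℤ, ‖z‖ = ((q : ℕ) : ℝ) ^ n := by
    intro z hz hz0
    refine DIC.exists_norm_eq_zpow_of_isUnramifiedOutside K S hK ?_ 1 hz hz0
    intro ℓ hℓ h
    exact hq ((Subtype.ext h : ℓ = q) ▸ hℓ)
  set N := Module.finrank ℚ_[(q : ℕ)] F with hN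
  have hN0 : N ≠ 0 := Module.finrank_pos.ne'
  have htop : (famL q).isOpen ⊤ := (famL q).isOpen_top
  have hker : ∀ v : Gam q, (LFL p q).nr ⊤ N v = 0 → rq q v ∈ K.fixingSubgroup := by
    intro v hv
    exact (DIC.localGaloisToGlobal_mem_fixingSubgroup_iff K v).2
      (LOC.mem_fixingSubgroup_of_nrU_eq_zero F hunr hv)
  have hZ : IsZ2 (famL q) ⊤ (loc (rq q) (lamq q) (fun x => (FFG p).exp (y x))) := by
    have := (locMap_q q).isZ2 hY
    rwa [Subgroup.comap_top] at this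
  refine unram_triv (LFL p q) htop hN0 hZ ⟨?_, ?_⟩ ?_
  · intro g _ h _ v hv w hw
    have hv' := hWU (hker v hv.2)
    have hw' := hWU (hker w hw.2)
    simp only [loc_apply, map_mul]
    rw [hyU _ _ _ _ hv' hw']
  · intro g _ h _ v hv
    have hv' := hWE (hker v hv.2)
    rw [loc_apply, ← (locMap_q q).equiv]
    congr 1
    have hfix : rq q v • (zetaG p : Qbˣ) = zetaG p := by
      apply Units.ext
      exact hv' ⟨_, IntermediateField.mem_adjoin_simple_self ℚ _⟩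
    change rq q v • (zetaG p : Qbˣ) ^ _ = (zetaG p : Qbˣ) ^ _
    rw [smul_pow', hfix]
  · intro g _ h _
    rw [loc_apply, ← map_pow, (FFG p).exp_pow, map_one]

end Fermat.Agent.S55.BRG
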