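/-
S55 / BRG : FINAL EXPORT: the local invariant maps `τ_q` and the reciprocity law `∑_{q ∈ S} τ_q (res_q y) = 0`.
-/
import Fermat.Agent.S55.BRG.RecipConc
import Fermat.Agent.S55.BRG.Hnt
import Fermat.Agent.S55.BRG.UnrConc
import Fermat.Agent.S55.LDB.Final
import Fermat.Agent.S55.T.Basic

set_option autoImplicit false
set_option linter.unusedSectionVars false

namespace Fermat.Agent.S55.BRG

open Fermat.Agent.S55.LDB
open Fermat.Agent.S55.SREF (Qb factPrimes)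
open Fermat.Agent.S55.DIC (Gq)

variable {p : ℕ} [Fact p.Prime]

/-! ### (F1) the global dictionary -/

/-- all number field levels = open subgroups of `G_ℚ`. -/
theorem compat_levAll : Compat famG levAll (MonoidHom.id GQ) ⊤ := by
  refine ⟨fun _ _ h => h, ?_, ?_, ?_⟩
  · exact MonoidHom.range_eq_top.2 fun x => ⟨x, rfl⟩
  · rintro _ ⟨F, hF, rfl⟩
    rw [Subgroup.map_id]
    exact ⟨F, hF, le_rfl⟩
  · rintro N ⟨E, hE, hEN⟩
    refine ⟨E.fixingSubgroup, ⟨E, hE, rfl⟩, ?_⟩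
    rw [Subgroup.map_id]
    exact hEN

theorem Final_smul_eq_pow (w : GQ) (z : Qbˣ) (hz : z ^ p = 1) :
    w • z = z ^ ((ExtCitation.cycloChar p w : (ZMod p)ˣ) : ZMod p).val := by
  have hp : p.Prime := Fact.out
  have : NeZero p := ⟨hp.ne_zero⟩
  have htmem : z ∈ rootsOfUnity p (AlgebraicClosure ℚ) := by
    rw [mem_rootsOfUnity]
    exact hz
  have hspec := modularCyclotomicCharacter.spec (AlgebraicClosure ℚ)
    (ExtCitation.card_rootsOfUnity_eq_self p)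
    ((w : AlgebraicClosure ℚ ≃ₐ[ℚ] AlgebraicClosure ℚ) :
      AlgebraicClosure ℚ ≃+* AlgebraicClosure ℚ) htmem
  have hspec' : w (z : AlgebraicClosure ℚ) = (z : AlgebraicClosure ℚ) ^
      ((ExtCitation.cycloChar p w : (ZMod p)ˣ) : ZMod p).val := hspec
  ext
  rw [smul_units_val, Units.val_pow_eq_pow_val]
  exact hspec'

/-- the cyclotomic character computes the action on `μ_p(ℚ̄)`. -/
theorem muCompat_muRep : MuCompat (FFG p) (MonoidHom.id GQ) (muRep p) := by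
  intro w x
  rw [muRep_apply, (FFG p).exp_mul_val, MonoidHom.id_apply]
  exact Final_smul_eq_pow w ((FFG p).exp x) ((FFG p).exp_pow x)

theorem mem_Z2_levAll {S : Finset Nat.Primes} {y : GQ × GQ → ZMod p}
    (hy : y ∈ Z2 (levS S) (muRep p)) : y ∈ Z2 levAll (muRep p) := by
  obtain ⟨⟨U, ⟨F, hF, rfl⟩, h⟩, h2⟩ := hy
  exact ⟨⟨_, ⟨F, hF.1, rfl⟩, h⟩, h2⟩

theorem isZ2_exp {S : Finset Nat.Primes} {y : GQ × GQ → ZMod p}
    (hy : y ∈ Z2 (levS S) (muRep p)) : IsZ2 famG ⊤ (fun x => (FFG p).exp (y x)) := by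
  have h := (mem_Z2_iff compat_levAll (muCompat_muRep (p := p)) y).mp (mem_Z2_levAll hy)
  have e : ext₂ (MonoidHom.id GQ) 0 y = y := by
    funext x
    exact ext₂_apply (ι := MonoidHom.id GQ) Function.injective_id 0 y x.1 x.2
  rwa [e] at h

/-- (F2) -/
theorem cob_exp_pow (y : GQ × GQ → ZMod p) :
    Cob₂ famG ⊤ ((fun x => (FFG p).exp (y x)) ^ p) := by
  have e : ((fun x => (FFG p).exp (y x)) ^ p : GQ × GQ → Qbˣ) = 1 := by
    funext x
    exact (FFG p).exp_pow (y x)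
  rw [e]
  exact Cob₂.one famG.isOpen_top

/-- (F3) -/
theorem loc_exp (q : Nat.Primes) (y : GQ × GQ → ZMod p) :
    loc (rq q) (lamq q) (fun x => (FFG p).exp (y x)) =
      fun x => (LFL p q).toFieldFormation.exp (res2 (k := ZMod p) (rq q) y x) := by
  funext x
  rw [LFL_exp]
  rfl

/-- (F5) -/
theorem res2_mem_Z2_loc {S : Finset Nat.Primes} {y : GQ × GQ → ZMod p}
    (hy : y ∈ Z2 (levS S) (muRep p)) (q : Nat.Primes) :
    res2 (k := ZMod p) (rq q) y ∈ Z2 (levQ (q : ℕ)) (muQ (q : ℕ) p) := by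
  refine res2_mem_Z2 (𝒰 := levS S) (rq q) ?_ hy
  rintro _ ⟨F, hF, rfl⟩
  exact ⟨_, ⟨F, hF.1, rfl⟩, rfl⟩

/-! ### the local invariants -/

/-- the generator `u_q = c(nr_p, q)` of `H²(G_q, μ_p)`. -/
noncomputable def uq (p : ℕ) [Fact p.Prime] (q : Nat.Primes) : Gam q × Gam q → Bq q :=
  cyc ((LFL p q).nr ⊤ (p ^ 1)) (lamq q (ratQ (primeUnit q)))

theorem recipData_u (hp2 : p ≠ 2) (q : Nat.Primes) : (recipData hp2).u q = uq p q := rfl

theorem recipData_locq (hp2 : p ≠ 2) (q : Nat.Primes) (Y : GQ × GQ → Qbˣ) :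
    (recipData hp2).locq q Y = loc (rq q) (lamq q) Y := rfl

/-- (F6) the invariant map at `q`, normalised by `u_q ↦ 1`, exponents in `ℤ`. -/
theorem exists_tau0 (hp2 : p ≠ 2) (q : Nat.Primes) :
    ∃ τ : (Gam q × Gam q → ZMod p) →ₗ[ZMod p] ZMod p,
      (∀ f ∈ B2 (levQ (q : ℕ)) (muQ (q : ℕ) p), τ f = 0) ∧
      (∀ f ∈ Z2 (levQ (q : ℕ)) (muQ (q : ℕ) p), τ f = 0 → f ∈ B2 (levQ (q : ℕ)) (muQ (q : ℕ) p)) ∧
      ∀ f ∈ Z2 (levQ (q : ℕ)) (muQ (q : ℕ) p), ∀ j : ℤ,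
        Eqv (famL q) ⊤ (fun x => (LFL p q).toFieldFormation.exp (f x)) (uq p q ^ j) →
        τ f = (j : ZMod p) := by
  have hπ : Fix (⊤ : Subgroup (Gam q)) (lamq q (ratQ (primeUnit q))) :=
    (recipData hp2).RecipAbs_fix q (primeUnit q)
  have hπ1 : (LFL p q).ord ⊤ (lamq q (ratQ (primeUnit q))) = 1 := by
    rw [ord_ratQ]
    have := RecipData.RecipAbs_val_primeUnit q q
    simpa using this
  obtain ⟨τ, h1, h2, h3⟩ := LDB.exists_tau (LFL p q) hπ hπ1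
  refine ⟨τ, h1, h2, fun f hf j hj => ?_⟩
  have hp0 : (0 : ℤ) < p := by exact_mod_cast (Fact.out : p.Prime).pos
  have hnn : 0 ≤ j % p := Int.emod_nonneg _ hp0.ne'
  have e : j ≡ ((j % p).toNat : ℤ) [ZMOD p] := by
    rw [Int.toNat_of_nonneg hnn]
    exact (Int.mod_modEq j p).symm
  have h4 := hj.trans (eqv_zpow_of_modEq ((recipData hp2).cob_u_pow q) e)
  rw [zpow_natCast] at h4
  rw [h3 f hf _ h4]
  have := (ZMod.intCast_eq_intCast_iff j _ p).mpr e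
  rw [this, Int.cast_natCast]

/-- `g₁ ~ u_p ^ j₀`, `p ∤ j₀`. -/
theorem exists_j0 (hp2 : p ≠ 2) : ∃ j₀ : ℕ, ((j₀ : ℕ) : ZMod p) ≠ 0 ∧
    Eqv (famL (pP p)) ⊤ (recipData hp2).g₁ (uq p (pP p) ^ j₀) := by
  set D := recipData hp2 with hD
  obtain ⟨j, hj⟩ := exists_eqv_pow_of_not_cob (LFL p (pP p)) (D.isZ2_u (pP p)) (D.cob_u_pow (pP p))
    (D.not_cob_u (pP p)) D.isZ2_g₁ D.cob_g₁_pow
  refine ⟨j, fun h0 => ?_, hj⟩
  rw [ZMod.natCast_eq_zero_iff] at h0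
  obtain ⟨c, rfl⟩ := h0
  apply D.not_cob_g₁
  rw [hj.cob_iff, pow_mul]
  exact (D.cob_u_pow (pP p)).pow c

/-- the reciprocity law for `Y = exp ∘ y`. -/
theorem recip_conc (hp2 : p ≠ 2) (S : Finset Nat.Primes) (hpS : pP p ∈ S) {y : GQ × GQ → ZMod p}
    (hy : y ∈ Z2 (levS S) (muRep p)) :
    ∃ k : Nat.Primes → ℤ,
      (∀ q, q ≠ pP p → Eqv (famL q) ⊤
        (fun x => (LFL p q).toFieldFormation.exp (res2 (k := ZMod p) (rq q) y x)) (uq p q ^ k q)) ∧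
      Eqv (famL (pP p)) ⊤
        (fun x => (LFL p (pP p)).toFieldFormation.exp (res2 (k := ZMod p) (rq (pP p)) y x))
        ((recipData hp2).g₁ ^ (∑ q ∈ S.erase (pP p), k q)) := by
  obtain ⟨k, h1, h2⟩ := (recipData hp2).recip hp2 (abhnData p hp2) (isZ2_exp hy) (cob_exp_pow y) S
    (fun q hq => unr_conc S hpS hy.1 (isZ2_exp hy) q hq)
  refine ⟨k, fun q hq => ?_, ?_⟩
  · have := h1 q hq
    rw [recipData_locq, loc_exp, recipData_u] at this
    exact this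
  · rw [recipData_locq, loc_exp] at h2
    exact h2

/-- **reciprocity**, indexed by all primes.  `τ q = τ0 q` for `q ≠ p`, `τ p = - j₀⁻¹ • τ0 p`. -/
theorem exists_tau_all (hp2 : p ≠ 2) :
    ∃ τ : ∀ q : Nat.Primes, (Gam q × Gam q → ZMod p) →ₗ[ZMod p] ZMod p,
      (∀ q : Nat.Primes, ∀ f ∈ B2 (levQ (q : ℕ)) (muQ (q : ℕ) p), τ q f = 0) ∧
      (∀ q : Nat.Primes, ∀ f ∈ Z2 (levQ (q : ℕ)) (muQ (q : ℕ) p), τ q f = 0 →
        f ∈ B2 (levQ (q : ℕ)) (muQ (q : ℕ) p)) ∧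
      ∀ S : Finset Nat.Primes, pP p ∈ S → ∀ y ∈ Z2 (levS S) (muRep p),
        ∑ q ∈ S, τ q (res2 (k := ZMod p) (rq q) y) = 0 := by
  classical
  choose τ0 h1 h2 h3 using exists_tau0 (p := p) hp2
  obtain ⟨j₀, hj0, hj⟩ := exists_j0 (p := p) hp2
  set c : Nat.Primes → ZMod p := fun q => if q = pP p then -((j₀ : ZMod p))⁻¹ else 1 with hc
  have hc0 : ∀ q, c q ≠ 0 := by
    intro q
    simp only [hc]
    split_ifs
    · exact neg_ne_zero.mpr (inv_ne_zero hj0)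
    · exact one_ne_zero
  refine ⟨fun q => c q • τ0 q, fun q f hf => ?_, fun q f hf h0 => ?_, fun S hpS y hy => ?_⟩
  · rw [LinearMap.smul_apply, h1 q f hf, smul_zero]
  · rw [LinearMap.smul_apply, smul_eq_mul] at h0
    exact h2 q f hf ((mul_eq_zero.mp h0).resolve_left (hc0 q))
  · obtain ⟨k, hk1, hk2⟩ := recip_conc hp2 S hpS hy
    have e1 : ∀ q ∈ S.erase (pP p), (c q • τ0 q) (res2 (k := ZMod p) (rq q) y) = (k q : ZMod p) := by
      intro q hq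
      have hqp : q ≠ pP p := (Finset.mem_erase.mp hq).1
      rw [LinearMap.smul_apply, h3 q _ (res2_mem_Z2_loc hy q) (k q) (hk1 q hqp)]
      simp [hc, hqp]
    have e2 : τ0 (pP p) (res2 (k := ZMod p) (rq (pP p)) y) =
        (((j₀ : ℤ) * ∑ q ∈ S.erase (pP p), k q : ℤ) : ZMod p) := by
      apply h3 (pP p) _ (res2_mem_Z2_loc hy (pP p))
      refine hk2.trans ?_
      have := hj.zpow (∑ q ∈ S.erase (pP p), k q)
      rwa [← zpow_natCast, ← zpow_mul] at this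
    rw [← Finset.add_sum_erase S _ hpS, Finset.sum_congr rfl e1, LinearMap.smul_apply, e2]
    simp only [hc, if_true, smul_eq_mul]
    push_cast
    field_simp
    ring

end Fermat.Agent.S55.BRG

namespace Fermat.Agent.S55

open ExtCitation

/-- **the export for the top level** (shape of `TopNeeds.lean`). -/
theorem BRG.exists_tau_recip (p : ℕ) [Fact p.Prime] (hp2 : p ≠ 2) (S : Finset Nat.Primes)
    (hpS : pPrime p ∈ S) :
    ∃ τ : ∀ v : (sysS S).ι, ((sysS S).Gv v × (sysS S).Gv v → ZMod p) →ₗ[ZMod p] ZMod p,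
      (∀ v, ∀ f ∈ B2 ((sysS S).levv v) ((sysS S).loc (muRep p) v), τ v f = 0) ∧
      (∀ v, ∀ f ∈ Z2 ((sysS S).levv v) ((sysS S).loc (muRep p) v), τ v f = 0 →
        f ∈ B2 ((sysS S).levv v) ((sysS S).loc (muRep p) v)) ∧
      (∀ y ∈ Z2 (sysS S).lev (muRep p),
        ∑ v, τ v (res2 (k := ZMod p) ((sysS S).r v) y) = 0) := by
  obtain ⟨τ, h1, h2, h3⟩ := BRG.exists_tau_all (p := p) hp2
  refine ⟨fun v => τ v.1, fun v => h1 v.1, fun v => h2 v.1, fun y hy => ?_⟩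
  have := h3 S hpS y hy
  rw [← Finset.sum_coe_sort] at this
  exact this

end Fermat.Agent.S55
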